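import Mathlib

/-!
# S59 / TW-ES (helper658): transfer of Hecke relations (abstract, Mathlib only)

Let `T' : ι → End_R V'` be a family of operators (think: `T_ℓ` on `S₂(Γ₀(N Q²))`) and
`t : ι → End_ℤ X` another family (think: `⟨ℓ⟩^(-1/2) T_ℓ` on `Hom(Γ_H, ℂ)`), and `Y ⊆ X` a
subgroup stable under all `t i` (think: the parabolic classes).

* `lift_intertwine` : an additive map intertwining two families intertwines all noncommutative
  polynomials in them;
* `rel_of_intertwiners` : if `Y` is generated by the images of groups `W e` (and their images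
  under an additive map `c` commuting with `t`, think: complex conjugation), each `W e` carrying
  operators intertwined with `t` by `p e : W e → X` and with `T'` by an INJECTIVE
  `j e : W e → V'`, then every polynomial relation among the `T' i` holds for the `t i` on `Y`;
* `exists_ringHom_of_rel` : then there is a ring homomorphism
  `Algebra.adjoin ℤ (range T') →+* End_ℤ Y` sending `T' i` to `t i`.
-/

set_option autoImplicit false

namespace Fermat.Agent.S59.TW.H658

section Intertwine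

variable {ι : Type*}

/-- An additive map intertwining two families of operators intertwines all noncommutative
polynomials in them. -/
theorem lift_intertwine {M₁ M₂ : Type*} [AddCommGroup M₁] [AddCommGroup M₂]
    (a₁ : ι → Module.End ℤ M₁) (a₂ : ι → Module.End ℤ M₂) (u : M₁ →+ M₂)
    (h : ∀ i m, u (a₁ i m) = a₂ i (u m)) (P : FreeAlgebra ℤ ι) (m : M₁) :
    u (FreeAlgebra.lift ℤ a₁ P m) = FreeAlgebra.lift ℤ a₂ P (u m) := by
  induction P using FreeAlgebra.induction generalizing m with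
  | grade0 r =>
    rw [AlgHom.commutes, AlgHom.commutes, Module.algebraMap_end_apply,
      Module.algebraMap_end_apply, map_zsmul]
  | grade1 x => rw [FreeAlgebra.lift_ι_apply, FreeAlgebra.lift_ι_apply, h]
  | mul a b ha hb =>
    rw [map_mul, map_mul, Module.End.mul_apply, Module.End.mul_apply, ha, hb]
  | add a b ha hb =>
    rw [map_add, map_add, LinearMap.add_apply, LinearMap.add_apply, map_add, ha, hb]

/-- Restriction of scalars of endomorphisms, as a `ℤ`-algebra homomorphism. -/
def endToInt (R : Type*) [CommRing R] (V : Type*) [AddCommGroup V] [Module R V] :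
    Module.End R V →ₐ[ℤ] Module.End ℤ V where
  toFun a := a.toAddMonoidHom.toIntLinearMap
  map_one' := rfl
  map_mul' _ _ := rfl
  map_zero' := rfl
  map_add' _ _ := rfl
  commutes' r := by
    refine LinearMap.ext fun v => ?_
    show (algebraMap ℤ (Module.End R V) r) v = (algebraMap ℤ (Module.End ℤ V) r) v
    rw [Module.algebraMap_end_apply, algebraMap_int_eq, eq_intCast, Module.End.intCast_apply]

@[simp] theorem endToInt_apply {R : Type*} [CommRing R] {V : Type*} [AddCommGroup V]
    [Module R V] (a : Module.End R V) (v : V) : endToInt R V a v = a v := rfl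

theorem lift_endToInt {R : Type*} [CommRing R] {V : Type*} [AddCommGroup V] [Module R V]
    (T' : ι → Module.End R V) (P : FreeAlgebra ℤ ι) :
    FreeAlgebra.lift ℤ (fun i => endToInt R V (T' i)) P
      = endToInt R V (FreeAlgebra.lift ℤ T' P) := by
  have h : FreeAlgebra.lift ℤ (fun i => endToInt R V (T' i))
      = (endToInt R V).comp (FreeAlgebra.lift ℤ T') := by
    apply FreeAlgebra.hom_ext
    funext i
    simp
  rw [h]
  rfl

end Intertwine

section Rel

variable {ι : Type*} {R : Type*} [CommRing R] {V' : Type*} [AddCommGroup V'] [Module R V']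
  (T' : ι → Module.End R V')
  {X : Type*} [AddCommGroup X] (t : ι → Module.End ℤ X) (Y : AddSubgroup X)

/-- **Transfer of relations.** -/
theorem rel_of_intertwiners {E : Type*} (W : E → Type*) [∀ e, AddCommGroup (W e)]
    (tw : ∀ e, ι → Module.End ℤ (W e))
    (j : ∀ e, W e →+ V') (hj : ∀ e, Function.Injective (j e))
    (hjt : ∀ e i w, j e (tw e i w) = T' i (j e w))
    (p : ∀ e, W e →+ X) (hpt : ∀ e i w, p e (tw e i w) = t i (p e w))
    (c : X →+ X) (hct : ∀ i x, t i (c x) = c (t i x))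
    (hY : ∀ y ∈ Y, y ∈ AddSubgroup.closure
      {x : X | ∃ e w, x = p e w ∨ x = c (p e w)})
    (P : FreeAlgebra ℤ ι) (hP : FreeAlgebra.lift ℤ T' P = 0) (y : X) (hy : y ∈ Y) :
    FreeAlgebra.lift ℤ t P y = 0 := by
  have hW : ∀ e (w : W e), FreeAlgebra.lift ℤ (tw e) P w = 0 := by
    intro e w
    apply hj e
    have h1 := lift_intertwine (tw e) (fun i => endToInt R V' (T' i)) (j e)
      (fun i m => by rw [endToInt_apply, hjt]) P w
    rw [h1, lift_endToInt, hP, map_zero, LinearMap.zero_apply, map_zero]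
  have hp : ∀ e (w : W e), FreeAlgebra.lift ℤ t P (p e w) = 0 := by
    intro e w
    rw [← lift_intertwine (tw e) t (p e) (hpt e) P w, hW, map_zero]
  have hc : ∀ x : X, FreeAlgebra.lift ℤ t P (c x) = c (FreeAlgebra.lift ℤ t P x) := fun x =>
    (lift_intertwine t t c (fun i m => (hct i m).symm) P x).symm
  refine AddSubgroup.closure_induction (p := fun x _ => FreeAlgebra.lift ℤ t P x = 0)
    ?_ ?_ ?_ ?_ (hY y hy)
  · rintro x ⟨e, w, rfl | rfl⟩
    · exact hp e w
    · rw [hc, hp, map_zero]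
  · exact map_zero _
  · intro a b _ _ ha hb
    rw [map_add, ha, hb, add_zero]
  · intro a _ ha
    rw [map_neg, ha, neg_zero]

variable {T' t Y}

/-- The restriction of the operators `t i` to the stable subgroup `Y`. -/
def restrictOps (hYt : ∀ i, ∀ y ∈ Y, t i y ∈ Y) (i : ι) : Module.End ℤ Y :=
  (((t i).toAddMonoidHom.comp Y.subtype).codRestrict Y fun y => hYt i y y.2).toIntLinearMap

@[simp] theorem coe_restrictOps (hYt : ∀ i, ∀ y ∈ Y, t i y ∈ Y) (i : ι) (y : Y) :
    ((restrictOps hYt i y : Y) : X) = t i y := rfl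

theorem coe_lift_restrictOps (hYt : ∀ i, ∀ y ∈ Y, t i y ∈ Y) (P : FreeAlgebra ℤ ι) (y : Y) :
    ((FreeAlgebra.lift ℤ (restrictOps hYt) P y : Y) : X) = FreeAlgebra.lift ℤ t P y :=
  lift_intertwine (restrictOps hYt) t Y.subtype (fun _ _ => rfl) P y

/-- **The Hecke ring acts.**  If every polynomial relation among the `T' i` holds for the `t i`
on the stable subgroup `Y`, there is a ring homomorphism from the `ℤ`-algebra generated by the
`T' i` to `End_ℤ Y` sending `T' i` to `t i`. -/
theorem exists_ringHom_of_rel (hYt : ∀ i, ∀ y ∈ Y, t i y ∈ Y)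
    (hrel : ∀ P : FreeAlgebra ℤ ι, FreeAlgebra.lift ℤ T' P = 0 →
      ∀ y ∈ Y, FreeAlgebra.lift ℤ t P y = 0) :
    ∃ Φ : Algebra.adjoin ℤ (Set.range T') →+* Module.End ℤ Y,
      (∀ (i : ι) (y : Y),
        ((Φ ⟨T' i, Algebra.subset_adjoin ⟨i, rfl⟩⟩ y : Y) : X) = t i y) ∧
      ∀ (P : FreeAlgebra ℤ ι) (hP : FreeAlgebra.lift ℤ T' P ∈ Algebra.adjoin ℤ (Set.range T'))
        (y : Y), ((Φ ⟨FreeAlgebra.lift ℤ T' P, hP⟩ y : Y) : X) = FreeAlgebra.lift ℤ t P y := by
  classical
  set evT : FreeAlgebra ℤ ι →ₐ[ℤ] Module.End R V' := FreeAlgebra.lift ℤ T' with hevT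
  set evY : FreeAlgebra ℤ ι →ₐ[ℤ] Module.End ℤ Y := FreeAlgebra.lift ℤ (restrictOps hYt)
    with hevY
  have hadj : Algebra.adjoin ℤ (Set.range T') = evT.range :=
    Algebra.adjoin_range_eq_range_freeAlgebra_lift ℤ ι T'
  have hker : ∀ P : FreeAlgebra ℤ ι, evT P = 0 → evY P = 0 := by
    intro P hP
    refine LinearMap.ext fun y => Subtype.ext ?_
    rw [hevY, coe_lift_restrictOps hYt P y, LinearMap.zero_apply, AddSubgroup.coe_zero]
    exact hrel P hP y y.2
  -- the surjection onto the adjoin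
  have hmem : ∀ P, evT P ∈ Algebra.adjoin ℤ (Set.range T') := fun P => by
    rw [hadj]; exact ⟨P, rfl⟩
  let f : FreeAlgebra ℤ ι →+* Algebra.adjoin ℤ (Set.range T') :=
    { toFun := fun P => ⟨evT P, hmem P⟩
      map_one' := Subtype.ext (map_one evT)
      map_mul' := fun a b => Subtype.ext (map_mul evT a b)
      map_zero' := Subtype.ext (map_zero evT)
      map_add' := fun a b => Subtype.ext (map_add evT a b) }
  have hfsurj : Function.Surjective f := by
    rintro ⟨a, ha⟩
    rw [hadj] at ha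
    obtain ⟨P, rfl⟩ := ha
    exact ⟨P, rfl⟩
  have hkerle : RingHom.ker f ≤ RingHom.ker (evY : FreeAlgebra ℤ ι →+* Module.End ℤ Y) := by
    intro P hP
    rw [RingHom.mem_ker] at hP ⊢
    exact hker P (congrArg Subtype.val hP)
  let Φ := f.liftOfRightInverse (Function.surjInv hfsurj) (Function.rightInverse_surjInv hfsurj)
    ⟨(evY : FreeAlgebra ℤ ι →+* Module.End ℤ Y), hkerle⟩
  have hΦ : ∀ P, Φ (f P) = evY P := fun P =>
    f.liftOfRightInverse_comp_apply (Function.surjInv hfsurj)
      (Function.rightInverse_surjInv hfsurj) ⟨_, hkerle⟩ P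
  refine ⟨Φ, fun i y => ?_, fun P hP y => ?_⟩
  · have h1 : (⟨T' i, Algebra.subset_adjoin ⟨i, rfl⟩⟩ : Algebra.adjoin ℤ (Set.range T'))
        = f (FreeAlgebra.ι ℤ i) := Subtype.ext (by simp [f, hevT])
    rw [h1, hΦ, hevY, FreeAlgebra.lift_ι_apply, coe_restrictOps]
  · have h1 : (⟨FreeAlgebra.lift ℤ T' P, hP⟩ : Algebra.adjoin ℤ (Set.range T')) = f P := rfl
    rw [h1, hΦ, hevY, coe_lift_restrictOps]

end Rel

section Gen

variable {ι : Type*} {R : Type*} [CommRing R] {V' : Type*} [AddCommGroup V'] [Module R V']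
  (T' : ι → Module.End R V')

/-- **Relations give a ring homomorphism** (general target).  If every noncommutative polynomial
relation among the `T' i` holds for the elements `s i` of a ring `E`, there is a ring
homomorphism from the `ℤ`-algebra generated by the `T' i` to `E` sending `T' i` to `s i`. -/
theorem exists_ringHom_of_rel_gen {E : Type*} [Ring E] (s : ι → E)
    (hrel : ∀ P : FreeAlgebra ℤ ι, FreeAlgebra.lift ℤ T' P = 0 → FreeAlgebra.lift ℤ s P = 0) :
    ∃ Φ : Algebra.adjoin ℤ (Set.range T') →+* E,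
      (∀ i : ι, Φ ⟨T' i, Algebra.subset_adjoin ⟨i, rfl⟩⟩ = s i) ∧
      ∀ (P : FreeAlgebra ℤ ι) (hP : FreeAlgebra.lift ℤ T' P ∈ Algebra.adjoin ℤ (Set.range T')),
        Φ ⟨FreeAlgebra.lift ℤ T' P, hP⟩ = FreeAlgebra.lift ℤ s P := by
  classical
  set evT : FreeAlgebra ℤ ι →ₐ[ℤ] Module.End R V' := FreeAlgebra.lift ℤ T' with hevT
  set evY : FreeAlgebra ℤ ι →ₐ[ℤ] E := FreeAlgebra.lift ℤ s with hevY
  have hadj : Algebra.adjoin ℤ (Set.range T') = evT.range :=
    Algebra.adjoin_range_eq_range_freeAlgebra_lift ℤ ι T'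
  have hmem : ∀ P, evT P ∈ Algebra.adjoin ℤ (Set.range T') := fun P => by
    rw [hadj]; exact ⟨P, rfl⟩
  let f : FreeAlgebra ℤ ι →+* Algebra.adjoin ℤ (Set.range T') :=
    { toFun := fun P => ⟨evT P, hmem P⟩
      map_one' := Subtype.ext (map_one evT)
      map_mul' := fun a b => Subtype.ext (map_mul evT a b)
      map_zero' := Subtype.ext (map_zero evT)
      map_add' := fun a b => Subtype.ext (map_add evT a b) }
  have hfsurj : Function.Surjective f := by
    rintro ⟨a, ha⟩
    rw [hadj] at ha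
    obtain ⟨P, rfl⟩ := ha
    exact ⟨P, rfl⟩
  have hkerle : RingHom.ker f ≤ RingHom.ker (evY : FreeAlgebra ℤ ι →+* E) := by
    intro P hP
    rw [RingHom.mem_ker] at hP ⊢
    exact hrel P (congrArg Subtype.val hP)
  let Φ := f.liftOfRightInverse (Function.surjInv hfsurj) (Function.rightInverse_surjInv hfsurj)
    ⟨(evY : FreeAlgebra ℤ ι →+* E), hkerle⟩
  have hΦ : ∀ P, Φ (f P) = evY P := fun P =>
    f.liftOfRightInverse_comp_apply (Function.surjInv hfsurj)
      (Function.rightInverse_surjInv hfsurj) ⟨_, hkerle⟩ P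
  refine ⟨Φ, fun i => ?_, fun P hP => ?_⟩
  · have h1 : (⟨T' i, Algebra.subset_adjoin ⟨i, rfl⟩⟩ : Algebra.adjoin ℤ (Set.range T'))
        = f (FreeAlgebra.ι ℤ i) := Subtype.ext (by simp [f, hevT])
    rw [h1, hΦ, hevY, FreeAlgebra.lift_ι_apply]
  · have h1 : (⟨FreeAlgebra.lift ℤ T' P, hP⟩ : Algebra.adjoin ℤ (Set.range T')) = f P := rfl
    rw [h1, hΦ]

/-- Restriction of a family of `R`-linear operators to a stable submodule. -/
def restrictFam {R₁ : Type*} [CommRing R₁] {X : Type*} [AddCommGroup X] [Module R₁ X]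
    (t : ι → Module.End R₁ X) (Y : Submodule R₁ X) (hYt : ∀ i, ∀ y ∈ Y, t i y ∈ Y) (i : ι) :
    Module.End R₁ Y :=
  (t i).restrict (hYt i)

@[simp] theorem coe_restrictFam {R₁ : Type*} [CommRing R₁] {X : Type*} [AddCommGroup X]
    [Module R₁ X] (t : ι → Module.End R₁ X) (Y : Submodule R₁ X)
    (hYt : ∀ i, ∀ y ∈ Y, t i y ∈ Y) (i : ι) (y : Y) :
    ((restrictFam t Y hYt i y : Y) : X) = t i y := rfl

/-- A polynomial in the restricted operators is the restriction of the polynomial. -/
theorem coe_lift_restrictFam {R₁ : Type*} [CommRing R₁] {X : Type*} [AddCommGroup X]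
    [Module R₁ X] (t : ι → Module.End R₁ X) (Y : Submodule R₁ X)
    (hYt : ∀ i, ∀ y ∈ Y, t i y ∈ Y) (P : FreeAlgebra ℤ ι) (y : Y) :
    ((FreeAlgebra.lift ℤ (restrictFam t Y hYt) P y : Y) : X) =
      FreeAlgebra.lift ℤ (fun i => endToInt R₁ X (t i)) P y := by
  have h1 := lift_intertwine (fun i => endToInt R₁ Y (restrictFam t Y hYt i))
    (fun i => endToInt R₁ X (t i)) Y.subtype.toAddMonoidHom (fun _ _ => rfl) P y
  rw [lift_endToInt] at h1
  exact h1

end Gen

section Linear

variable {ι : Type*} {R : Type*} [CommRing R] {V' : Type*} [AddCommGroup V'] [Module R V']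
  (T' : ι → Module.End R V')

/-- **The Hecke ring acts linearly.**  Variant of `exists_ringHom_of_rel` for a submodule `V` of
an `R₁`-module `X` and additive operators `t i` commuting with the scalars: the ring homomorphism
takes values in `End_{R₁} V`. -/
theorem exists_ringHom_linear {R₁ : Type*} [CommRing R₁] {X : Type*} [AddCommGroup X]
    [Module R₁ X] (t : ι → Module.End ℤ X) (ht : ∀ i (r : R₁) (x : X), t i (r • x) = r • t i x)
    (V : Submodule R₁ X) (hVt : ∀ i, ∀ v ∈ V, t i v ∈ V)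
    (hrel : ∀ P : FreeAlgebra ℤ ι, FreeAlgebra.lift ℤ T' P = 0 →
      ∀ v ∈ V, FreeAlgebra.lift ℤ t P v = 0) :
    ∃ Ψ : Algebra.adjoin ℤ (Set.range T') →+* Module.End R₁ V,
      ∀ (i : ι) (v : V), ((Ψ ⟨T' i, Algebra.subset_adjoin ⟨i, rfl⟩⟩ v : V) : X) = t i v := by
  obtain ⟨Φ₀, hΦ₀, hΦ₀'⟩ := exists_ringHom_of_rel (T' := T') (t := t) (Y := V.toAddSubgroup)
    hVt hrel
  have hadj : Algebra.adjoin ℤ (Set.range T') = (FreeAlgebra.lift ℤ T').range :=
    Algebra.adjoin_range_eq_range_freeAlgebra_lift ℤ ι T'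
  -- every polynomial in the `t i` commutes with the scalars
  have hlin : ∀ (P : FreeAlgebra ℤ ι) (r : R₁) (x : X),
      FreeAlgebra.lift ℤ t P (r • x) = r • FreeAlgebra.lift ℤ t P x := by
    intro P r x
    exact (lift_intertwine t t (DistribSMul.toAddMonoidHom X r)
      (fun i m => (ht i r m).symm) P x).symm
  have hsmul : ∀ (a : Algebra.adjoin ℤ (Set.range T')) (r : R₁) (v : V),
      ((Φ₀ a ⟨r • (v : X), V.smul_mem r v.2⟩ : V.toAddSubgroup) : X) =
        r • ((Φ₀ a ⟨(v : X), v.2⟩ : V.toAddSubgroup) : X) := by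
    rintro ⟨a, ha⟩ r v
    have ha' := ha
    rw [hadj] at ha'
    obtain ⟨P, hP⟩ := ha'
    have hP' : FreeAlgebra.lift ℤ T' P = a := hP
    subst hP'
    rw [hΦ₀' P ha ⟨r • (v : X), V.smul_mem r v.2⟩, hΦ₀' P ha ⟨(v : X), v.2⟩]
    exact hlin P r v
  let Ψfun : Algebra.adjoin ℤ (Set.range T') → Module.End R₁ V := fun a =>
    { toFun := fun v => ⟨((Φ₀ a ⟨(v : X), v.2⟩ : V.toAddSubgroup) : X),
        (Φ₀ a ⟨(v : X), v.2⟩ : V.toAddSubgroup).2⟩
      map_add' := fun v w => Subtype.ext (by
        have : (⟨((v + w : V) : X), (v + w).2⟩ : V.toAddSubgroup) =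
            ⟨(v : X), v.2⟩ + ⟨(w : X), w.2⟩ := rfl
        show ((Φ₀ a ⟨((v + w : V) : X), (v + w).2⟩ : V.toAddSubgroup) : X) = _
        rw [this, map_add]
        rfl)
      map_smul' := fun r v => Subtype.ext (hsmul a r v) }
  have hΨ : ∀ a (v : V), ((Ψfun a v : V) : X) = ((Φ₀ a ⟨(v : X), v.2⟩ : V.toAddSubgroup) : X) :=
    fun _ _ => rfl
  refine ⟨{ toFun := Ψfun
            map_one' := LinearMap.ext fun v => Subtype.ext (by rw [hΨ, map_one]; rfl)
            map_mul' := fun a b => LinearMap.ext fun v => Subtype.ext (by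
              rw [hΨ, map_mul]; rfl)
            map_zero' := LinearMap.ext fun v => Subtype.ext (by rw [hΨ, map_zero]; rfl)
            map_add' := fun a b => LinearMap.ext fun v => Subtype.ext (by
              rw [hΨ, map_add]; rfl) }, ?_⟩
  intro i v
  exact hΦ₀ i ⟨(v : X), v.2⟩

end Linear

end Fermat.Agent.S59.TW.H658
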