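import Fermat.Agent.S59.TW.H658.Lev
import Fermat.Agent.S21.DefsMS

/-!
# S59 / TW-ES (helper658): partition of unity and symmetrization for a general level

Port of `Fermat.Agent.S21.chi`, `Fermat.Agent.S21.sym` from `Γ₀(N)` to a level `L : Lev`.
-/

set_option autoImplicit false

open UpperHalfPlane CongruenceSubgroup
open scoped MatrixGroups ContDiff

namespace Fermat.Agent.S59.TW.H658

open Fermat.Agent.S21

/-- The `L.Γ`-partition of unity built from an `SL(2,ℤ)`-partition `χ₁`
(sum over representatives of the left cosets `g L.Γ`), extended by `0` off the upper half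
plane. -/
noncomputable def chi (L : Lev) (χ₁ : ℂ → ℝ) : ℂ → ℝ :=
  Set.indicator Uhp fun z => ∑ᶠ q : SL(2, ℤ) ⧸ L.Γ, χ₁ (mob (Quotient.out q) z)

/-- `L.Γ`-symmetrization of a test function. -/
noncomputable def sym (L : Lev) (η : ℂ → ℝ) : ℂ → ℝ :=
  fun z => ∑ᶠ γ : L.Γ, η (mob (γ : SL(2, ℤ)) z)

end Fermat.Agent.S59.TW.H658
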