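import Fermat.Agent.S59.TW.H658.Lev
import Fermat.Agent.S59.TW.H658.IntA
import Fermat.Agent.S59.TW.H658.IntCMain

/-!
# S21 — INT-C: the unfolding identity (helper544)

Exact statement of `MSInterface.lean`, proved from INT-A (`IntA.lean`, helper480) and the
change of variables / chain rule of `Small.lean` (helper906).
-/

set_option autoImplicit false

open ModularCurve ModularCurve.Period UpperHalfPlane CongruenceSubgroup Filter Topology
open MeasureTheory
open scoped MatrixGroups ComplexConjugate ContDiff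

namespace Fermat.Agent.S59.TW.H658

open Fermat.Agent.S21

variable (L : Lev) {χ₁ : ℂ → ℝ}

/-- **INT-C**: unfolding. -/
theorem unfolding (hχ : IsSL2ZPartition χ₁) (u : ℂ → ℝ) (hu : ContDiffOn ℝ 1 u Uhp)
    (hinv : ∀ γ : L.Γ, ∀ z ∈ Uhp,
      dz u (mob (γ : SL(2, ℤ)) z) = (cd (γ : SL(2, ℤ)) z) ^ 2 * dz u z)
    {η : ℂ → ℝ} (hη : IsTest η) :
    ∫ z, (fderiv ℝ u z 1 * fderiv ℝ (sym L η) z 1
        + fderiv ℝ u z Complex.I * fderiv ℝ (sym L η) z Complex.I) * chi L χ₁ z
      = ∫ z, (fderiv ℝ u z 1 * fderiv ℝ η z 1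
        + fderiv ℝ u z Complex.I * fderiv ℝ η z Complex.I) :=
  H544.unfolding_of L hχ (measurable_chi L hχ) (chi_nonneg L hχ) (chi_le_one L hχ)
    (chi_locfin L hχ) (chi_sum_eq_one L hχ) u hu hinv hη

end Fermat.Agent.S59.TW.H658
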