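import Fermat.Agent.S59.TW.H658.Lev
import Fermat.Agent.S59.TW.H658.IntDCore
import Fermat.Agent.S59.TW.H658.IntA

/-!
# S21 / INT-D — folding inequality and finite energy of `u₀` (exact interface statements)

`mult_compact` and `mult_strip` are in `IntDCore.lean`.
-/

set_option autoImplicit false
set_option linter.unusedVariables false

open UpperHalfPlane CongruenceSubgroup MeasureTheory
open scoped MatrixGroups ContDiff

namespace Fermat.Agent.S59.TW.H658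

open Fermat.Agent.S21

section INT

variable (L : Lev) {χ₁ : ℂ → ℝ}

theorem folding (hχ : IsSL2ZPartition χ₁) (G : ℂ → ℂ) (hG : ContinuousOn G Uhp)
    (hinv : ∀ γ : L.Γ, ∀ z ∈ Uhp,
      G (mob (γ : SL(2, ℤ)) z) = (cd (γ : SL(2, ℤ)) z) ^ 2 * G z)
    (hfin : Integrable (fun z => ‖G z‖ ^ 2 * chi L χ₁ z))
    (A : Set ℂ) (hA : MeasurableSet A) (hAU : A ⊆ Uhp) (M : ℕ)
    (hM : ∀ w ∈ Uhp, {g : SL(2, ℤ) | mob g w ∈ A}.encard ≤ M) :
    ∫ z in A, ‖G z‖ ^ 2 ≤ M * ∫ z, ‖G z‖ ^ 2 * chi L χ₁ z := by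
  refine IntDAux.folding_of L (chi_nonneg L hχ) (measurable_chi L hχ) (fun z hz => ?_)
    (chi_sum_eq_one L hχ) G hG hinv hfin A hA hAU M hM
  refine (chi_locfin L hχ {z} isCompact_singleton (by simpa using hz)).subset ?_
  intro γ hγ
  exact ⟨z, rfl, hγ⟩

/-- finite energy of `u₀` -/
theorem integrable_energy_u0 (hχ : IsSL2ZPartition χ₁) (u₀ : ℂ → ℝ)
    (hu : ContDiffOn ℝ ∞ u₀ Uhp)
    (hcusp : ∀ (δ : SL(2, ℤ)) (z : ℂ), 2 < z.im → dz u₀ (mob δ z) = 0) :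
    Integrable (fun z => ‖dz u₀ z‖ ^ 2 * chi L χ₁ z) :=
  IntDAux.integrable_energy_u0_of L hχ (continuousOn_chi L hχ) u₀ hu hcusp

end INT

end Fermat.Agent.S59.TW.H658
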