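import Fermat.Agent.S59.TW.H658.Lev
import Fermat.Agent.S59.TW.H658.DefsMS
import Fermat.Agent.S59.TW.H658.Section
import Fermat.Agent.S21.AbstractDirichlet
import Fermat.Agent.S21.Small
import Fermat.Agent.S21.Partition
import Fermat.Agent.S59.TW.H658.U0Final
import Fermat.Agent.S59.TW.H658.IntA
import Fermat.Agent.S59.TW.H658.IntB
import Fermat.Agent.S59.TW.H658.IntC
import Fermat.Agent.S59.TW.H658.IntD

/-!
# S21 — interface statements for the minimizing sequence (MS)

All pieces are now proved: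
* MS-A `exists_partition_SL2Z` (helper896, `Partition.lean`), repackaged here as
  `exists_isSL2ZPartition`;
* MS-C `exists_u0` (helper81, `H81/U0Final.lean`);
* INT-A (helper480, `IntA.lean`), INT-B (helper753, `IntB.lean`), INT-C (helper544, `IntC.lean`),
  INT-D (helper98, `IntD.lean`, `IntDCore.lean`).
-/

set_option autoImplicit false

open ModularCurve ModularCurve.Period UpperHalfPlane CongruenceSubgroup Filter Topology
open MeasureTheory
open scoped MatrixGroups ComplexConjugate ContDiff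

namespace Fermat.Agent.S59.TW.H658

open Fermat.Agent.S21

/-- **MS-A**, packaged as a structure. -/
theorem exists_isSL2ZPartition : ∃ χ₁ : ℂ → ℝ, IsSL2ZPartition χ₁ := by
  obtain ⟨χ₁, h1, h2, h3, h4, h5⟩ := exists_partition_SL2Z
  exact ⟨χ₁, ⟨h1, h2, h3, h4, h5⟩⟩

/-- **MS-C**: the initial function `u₀` with periods `φ`, locally constant high in every cusp. -/
theorem exists_u0 (L : Lev) (φ : Additive (L.Γ) →+ ℝ)
    (hφ : ModularCurve.Period.IsParabolicHom (L.Γ) φ) :
    ∃ u₀ : ℂ → ℝ, ContDiffOn ℝ ∞ u₀ Uhp ∧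
      (∀ (γ : L.Γ) (z : ℍ), u₀ ↑((γ : SL(2, ℤ)) • z) = u₀ ↑z + φ (Additive.ofMul γ)) ∧
      (∀ (δ : SL(2, ℤ)) (z : ℂ), 2 < z.im → dz u₀ (mob δ z) = 0) :=
  H81.exists_u0 L φ hφ

end Fermat.Agent.S59.TW.H658
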