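import Fermat.Agent.S21.H381.Parabolic

/-!
# S59 / TW-ES (helper658): periods of weight-2 cusp forms on a finite-index subgroup `Γ ≤ SL(2,ℤ)`

* `IsPrimG f F` : `F` is a holomorphic primitive of `f` on `ℍ`;
* `perG f : Additive Γ →+ ℂ` : the period homomorphism `γ ↦ F(γ z) - F(z)`;
* `perGL` : `perG` as a `ℂ`-linear map; `perG_parabolic` : `perG f` kills parabolic elements;
* `exists_cusp_limitG` : a primitive has a limit at every cusp.

Port of `S21/H381` (level `Γ₀(N)`) to a general finite-index `Γ`, reusing its generic lemmas.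
-/

set_option autoImplicit false
set_option linter.unusedSectionVars false

noncomputable section

namespace Fermat.Agent.S59.TW.H658

open CongruenceSubgroup ModularCurve ModularCurve.Period Filter Topology Function Complex
open UpperHalfPlane hiding I
open Matrix.SpecialLinearGroup
open scoped Manifold MatrixGroups ModularForm

/-- `F` is a primitive of `f` on the upper half plane. -/
def IsPrimG (f F : ℍ → ℂ) : Prop := ∀ τ : ℍ, HasDerivAt (F ∘ ofComplex) (f τ) ↑τ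

theorem IsPrimG.add {f g F G : ℍ → ℂ} (hF : IsPrimG f F) (hG : IsPrimG g G) :
    IsPrimG (f + g) (F + G) := fun τ ↦ (hF τ).add (hG τ)

theorem IsPrimG.smul {f F : ℍ → ℂ} (a : ℂ) (hF : IsPrimG f F) : IsPrimG (a • f) (a • F) :=
  fun τ ↦ (hF τ).const_smul a

theorem IsPrimG.sub_const {f F G : ℍ → ℂ} (hF : IsPrimG f F) (hG : IsPrimG f G) (z w : ℍ) :
    F z - G z = F w - G w :=
  Fermat.Agent.S21.H381.sub_const_of_hasDerivAt hF hG z w

theorem IsPrimG.comp_smul {f F : ℍ → ℂ} (hF : IsPrimG f F) (γ : SL(2, ℤ)) :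
    IsPrimG (f ∣[(2 : ℤ)] γ) (fun w : ℍ ↦ F (γ • w)) := fun τ ↦
  Fermat.Agent.S21.H381.hasDerivAt_comp_smul hF γ τ

variable {Γ : Subgroup SL(2, ℤ)} [Γ.FiniteIndex]

/-- `f ∣[2] δ` is holomorphic. -/
theorem mdiff_slashG (f : CuspForm Γ 2) (δ : SL(2, ℤ)) :
    MDiff ((f : ℍ → ℂ) ∣[(2 : ℤ)] δ) := by
  rw [← CuspForm.coe_translate f δ]
  exact CuspFormClass.holo _

theorem isZeroAtImInfty_slashG (f : CuspForm Γ 2) (δ : SL(2, ℤ)) :
    IsZeroAtImInfty ((f : ℍ → ℂ) ∣[(2 : ℤ)] δ) :=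
  CuspFormClass.zero_at_infty_slash f δ

/-- There is a common positive integer period for all `f ∣[2] δ`. -/
theorem exists_period_slashG (f : CuspForm Γ 2) :
    ∃ h : ℕ, 0 < h ∧
      ∀ δ : SL(2, ℤ), Periodic (((f : ℍ → ℂ) ∣[(2 : ℤ)] δ) ∘ ofComplex) (h : ℝ) := by
  obtain ⟨h, hh, hper⟩ := Subgroup.IsArithmetic.exists_nat_mem_strictPeriods_conj
    ((Γ : Subgroup SL(2, ℤ)) : Subgroup (GL (Fin 2) ℝ))
  refine ⟨h, hh, fun δ ↦ ?_⟩
  have h1 := hper δ⁻¹
  rw [map_inv] at h1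
  have h2 := SlashInvariantFormClass.periodic_comp_ofComplex
    (CuspForm.translate f (δ : GL (Fin 2) ℝ)) h1
  rw [CuspForm.coe_translate f δ] at h2
  exact_mod_cast h2

/-- Every slash translate of a weight-2 cusp form has a primitive tending to `0` at `i∞`. -/
theorem exists_prim_slashG (f : CuspForm Γ 2) (δ : SL(2, ℤ)) :
    ∃ G : ℍ → ℂ, IsPrimG ((f : ℍ → ℂ) ∣[(2 : ℤ)] δ) G ∧ Tendsto G atImInfty (𝓝 0) := by
  obtain ⟨h, hh, hper⟩ := exists_period_slashG f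
  exact Fermat.Agent.S21.H381.exists_primitive_tendsto_zero (Nat.cast_pos.mpr hh) (hper δ)
    (mdiff_slashG f δ) (isZeroAtImInfty_slashG f δ)

theorem exists_isPrimG (f : CuspForm Γ 2) : ∃ F : ℍ → ℂ, IsPrimG (⇑f) F := by
  obtain ⟨G, hG, -⟩ := exists_prim_slashG f 1
  rw [SlashAction.slash_one] at hG
  exact ⟨G, hG⟩

/-- A primitive of a cusp form has a limit at every cusp. -/
theorem exists_cusp_limitG (f : CuspForm Γ 2) {F : ℍ → ℂ} (hF : IsPrimG (⇑f) F)
    (δ : SL(2, ℤ)) : ∃ L : ℂ, Tendsto (fun w : ℍ ↦ F (δ • w)) atImInfty (𝓝 L) := by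
  obtain ⟨G, hGd, hG0⟩ := exists_prim_slashG f δ
  have hδ := hF.comp_smul δ
  set c : ℂ := F (δ • UpperHalfPlane.I) - G UpperHalfPlane.I with hc
  refine ⟨c, ?_⟩
  have hEq : (fun w : ℍ ↦ F (δ • w)) = fun w ↦ G w + c := by
    funext w
    have := hδ.sub_const hGd w UpperHalfPlane.I
    rw [hc, ← this]
    ring
  rw [hEq]
  simpa using hG0.add_const c

omit [Γ.FiniteIndex] in
theorem slash_eq_self_of_memG (f : CuspForm Γ 2) (γ : Γ) :
    ((f : ℍ → ℂ) ∣[(2 : ℤ)] (γ : SL(2, ℤ))) = f := by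
  have hmem : ((γ : SL(2, ℤ)) : GL (Fin 2) ℝ) ∈
      ((Γ : Subgroup SL(2, ℤ)) : Subgroup (GL (Fin 2) ℝ)) :=
    Subgroup.mem_map_of_mem _ γ.2
  exact SlashInvariantForm.slash_action_eqn f _ hmem

omit [Γ.FiniteIndex] in
/-- A primitive of a cusp form on `Γ` is equivariant. -/
theorem IsPrimG.isEquivariant (f : CuspForm Γ 2) {F : ℍ → ℂ} (hF : IsPrimG (⇑f) F) :
    IsEquivariantPrimitive Γ F := by
  intro γ
  refine ⟨F ((γ : SL(2, ℤ)) • UpperHalfPlane.I) - F UpperHalfPlane.I, fun z ↦ ?_⟩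
  have hγ : IsPrimG (⇑f) (fun w : ℍ ↦ F ((γ : SL(2, ℤ)) • w)) := by
    have := hF.comp_smul (γ : SL(2, ℤ))
    rwa [slash_eq_self_of_memG f γ] at this
  exact hγ.sub_const hF z UpperHalfPlane.I

/-- The period homomorphism of a weight-2 cusp form on `Γ`. -/
def perG (f : CuspForm Γ 2) : Additive Γ →+ ℂ :=
  ((exists_isPrimG f).choose_spec.isEquivariant f).periodHom

theorem perG_apply (f : CuspForm Γ 2) {F : ℍ → ℂ} (hF : IsPrimG (⇑f) F)
    (γ : Γ) (z : ℍ) :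
    perG f (Additive.ofMul γ) = F ((γ : SL(2, ℤ)) • z) - F z := by
  set F₀ := (exists_isPrimG f).choose with hF₀def
  have hF₀ : IsPrimG (⇑f) F₀ := (exists_isPrimG f).choose_spec
  have h1 : perG f (Additive.ofMul γ) = F₀ ((γ : SL(2, ℤ)) • z) - F₀ z := by
    show (hF₀.isEquivariant f).periodHom (Additive.ofMul γ) = _
    rw [IsEquivariantPrimitive.periodHom_apply, ← (hF₀.isEquivariant f).sub_eq_period γ z]
  rw [h1]
  have h2 := hF₀.sub_const hF ((γ : SL(2, ℤ)) • z) z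
  linear_combination h2

theorem perG_add (f g : CuspForm Γ 2) : perG (f + g) = perG f + perG g := by
  obtain ⟨F, hF⟩ := exists_isPrimG f
  obtain ⟨G, hG⟩ := exists_isPrimG g
  refine AddMonoidHom.ext fun γ ↦ ?_
  obtain ⟨γ, rfl⟩ : ∃ γ' : Γ, Additive.ofMul γ' = γ := ⟨Additive.toMul γ, rfl⟩
  have hFG : IsPrimG (⇑(f + g)) (F + G) := by
    rw [FunLike.coe_add]
    exact hF.add hG
  rw [AddMonoidHom.add_apply, perG_apply (f + g) hFG γ UpperHalfPlane.I,
    perG_apply f hF γ UpperHalfPlane.I, perG_apply g hG γ UpperHalfPlane.I]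
  simp only [Pi.add_apply]
  ring

theorem perG_smul (a : ℂ) (f : CuspForm Γ 2) : perG (a • f) = a • perG f := by
  obtain ⟨F, hF⟩ := exists_isPrimG f
  refine AddMonoidHom.ext fun γ ↦ ?_
  obtain ⟨γ, rfl⟩ : ∃ γ' : Γ, Additive.ofMul γ' = γ := ⟨Additive.toMul γ, rfl⟩
  have hFa : IsPrimG (⇑(a • f)) (a • F) := by
    rw [FunLike.coe_smul]
    exact hF.smul a
  rw [AddMonoidHom.smul_apply, perG_apply (a • f) hFa γ UpperHalfPlane.I,
    perG_apply f hF γ UpperHalfPlane.I]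
  simp only [Pi.smul_apply, smul_eq_mul]
  ring

/-- The period map as a linear map. -/
def perGL (Γ : Subgroup SL(2, ℤ)) [Γ.FiniteIndex] :
    CuspForm Γ 2 →ₗ[ℂ] (Additive Γ →+ ℂ) where
  toFun := perG
  map_add' := perG_add
  map_smul' := perG_smul

@[simp] theorem perGL_apply (f : CuspForm Γ 2) : perGL Γ f = perG f := rfl

/-- Periods of cusp forms are parabolic homomorphisms. -/
theorem perG_parabolic (f : CuspForm Γ 2) : IsParabolicHom Γ (perG f) := by
  intro γ hγ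
  obtain ⟨F, hF⟩ := exists_isPrimG f
  obtain ⟨δ, n, hδ⟩ := Fermat.Agent.S21.H381.exists_conj_T_zpow (γ : SL(2, ℤ)) hγ
  obtain ⟨L, hL⟩ := exists_cusp_limitG f hF δ
  have hconst : ∀ w : ℍ, perG f (Additive.ofMul γ)
      = F (δ • (ModularGroup.T ^ n • w)) - F (δ • w) := by
    intro w
    rw [perG_apply f hF γ (δ • w), hδ w]
  have h1 : Tendsto (fun w : ℍ ↦ F (δ • (ModularGroup.T ^ n • w)) - F (δ • w)) atImInfty
      (𝓝 (L - L)) :=
    (hL.comp (Fermat.Agent.S21.H381.tendsto_T_zpow_smul_atImInfty n)).sub hL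
  have h2 : Tendsto (fun w : ℍ ↦ F (δ • (ModularGroup.T ^ n • w)) - F (δ • w)) atImInfty
      (𝓝 (perG f (Additive.ofMul γ))) := by
    have : (fun w : ℍ ↦ F (δ • (ModularGroup.T ^ n • w)) - F (δ • w))
        = fun _ ↦ perG f (Additive.ofMul γ) := funext fun w ↦ (hconst w).symm
    rw [this]
    exact tendsto_const_nhds
  have := tendsto_nhds_unique h2 h1
  rw [sub_self] at this
  exact this

theorem perG_mem_parabolicHoms (f : CuspForm Γ 2) : perG f ∈ parabolicHoms ℂ Γ ℂ :=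
  perG_parabolic f

end Fermat.Agent.S59.TW.H658
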