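import Fermat.Agent.S21.HodgeAssembly
import Fermat.Agent.S59.TW.H658.MSAssembly
import Fermat.Agent.S59.TW.H658.Cusp
import Fermat.Agent.S59.TW.H658.PerG

/-!
# S59 / TW-ES (helper658): Hodge existence and Eichler–Shimura surjectivity for a general level

For a level `L : Lev` (a subgroup `L.Γ ≤ SL(2,ℤ)` containing `-1` and some `Γ(N)`):

* `exists_cuspForm_re_perG_eq` (**Hodge existence**): every real parabolic homomorphism
  `φ : L.Γ → ℝ` is the real part of the period homomorphism `perG f` of a weight-2 cusp form `f`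
  on `L.Γ`;
* `exists_perG_add_conj` (**Eichler–Shimura surjectivity**): every complex parabolic
  homomorphism `ψ : L.Γ → ℂ` is `perG f₁ + conj ∘ perG f₂` for cusp forms `f₁ f₂`.

Port of the `Γ₀(N)` proof of S21 (`Fermat.Agent.S21.exists_cuspForm_re_period_eq`).
-/

set_option autoImplicit false

open ModularCurve ModularCurve.Period UpperHalfPlane CongruenceSubgroup Filter Topology
open MeasureTheory
open scoped MatrixGroups ComplexConjugate ContDiff

namespace Fermat.Agent.S59.TW.H658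

open Fermat.Agent.S21

/-- **Hodge existence** for a general level: every real parabolic homomorphism is the real part
of the period homomorphism of a cusp form. -/
theorem exists_cuspForm_re_perG_eq (L : Lev) (φ : Additive (L.Γ) →+ ℝ)
    (hφ : IsParabolicHom (L.Γ) φ) :
    ∃ f : CuspForm (L.Γ) 2, ∀ γ : L.Γ,
      (perG f (Additive.ofMul γ)).re = φ (Additive.ofMul γ) := by
  obtain ⟨u, hu_smooth, hu_per, hu_cauchy, hu_weak, hu_cusp⟩ :=
    exists_minimizing_sequence L φ hφ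
  have hu1 : ∀ n, ContDiffOn ℝ 1 (u n) Uhp := fun n => (hu_smooth n).of_le (by norm_cast)
  have hg_cont : ∀ n, ContinuousOn (dz (u n)) Uhp := fun n => continuousOn_dz (hu1 n)
  obtain ⟨f, hf_diff, hf_conv⟩ :=
    weyl_lemma (fun n => dz (u n)) hg_cont hu_cauchy (asm_weak hu_smooth hu_weak)
  have hf_cont : ContinuousOn f Uhp := hf_diff.continuousOn
  have hf_inv : ∀ (γ : L.Γ) (z : ℍ),
      f ↑((γ : SL(2, ℤ)) • z) = (cd (γ : SL(2, ℤ)) z) ^ 2 * f ↑z := by
    intro γ z
    have := asm_f_inv hg_cont hf_cont hf_conv (γ : SL(2, ℤ))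
      (fun n w hw => asm_dz_inv (hu1 n) _ _ (hu_per n γ) hw) (coe_mem_Uhp z)
    rwa [mob_coe] at this
  have hf_cusp : ∀ δ : SL(2, ℤ), ∃ C : ℝ, ∀ Y : ℝ,
      ∫ z in strip Y, ‖f (mob δ z)‖ ^ 2 / ‖cd δ z‖ ^ 4 ≤ C := by
    intro δ
    obtain ⟨C, hC⟩ := hu_cusp δ
    exact ⟨C, fun Y => asm_f_cusp hg_cont hf_cont hf_conv δ C Y (fun n => hC n Y)⟩
  obtain ⟨fc, hfc⟩ := exists_cuspForm_of_energy L f hf_diff hf_inv hf_cusp
  obtain ⟨F, hF⟩ := exists_isPrimG fc
  refine ⟨fc, fun γ => ?_⟩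
  rw [perG_apply fc hF γ UpperHalfPlane.I]
  -- periods
  set v : ℕ → ℂ → ℝ := fun n z => u n z - (F (ofComplex z)).re with hv
  have hQ : ∀ z ∈ Uhp, HasDerivAt (F ∘ ofComplex) (f z) z := by
    intro z hz
    have := hF ⟨z, hz⟩
    rw [hfc] at this
    exact this
  have hQdiff : DifferentiableOn ℂ (F ∘ ofComplex) Uhp := fun z hz =>
    (hQ z hz).differentiableAt.differentiableWithinAt
  have hQsmooth : ContDiffOn ℝ 1 (fun z => (F (ofComplex z)).re) Uhp := by
    have h1 : ContDiffOn ℂ 1 (F ∘ ofComplex) Uhp := hQdiff.contDiffOn isOpen_Uhp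
    have h2 : ContDiffOn ℝ 1 (F ∘ ofComplex) Uhp := h1.restrict_scalars ℝ
    exact Complex.reCLM.contDiff.comp_contDiffOn h2
  have hv1 : ∀ n, ContDiffOn ℝ 1 (v n) Uhp := fun n => (hu1 n).sub hQsmooth
  have hdzv : ∀ n, ∀ z ∈ Uhp, dz (v n) z = dz (u n) z - f z := by
    intro n z hz
    have hU := isOpen_Uhp.mem_nhds hz
    have d1 : DifferentiableAt ℝ (u n) z :=
      ((hu1 n).differentiableOn one_ne_zero).differentiableAt hU
    have d2 : DifferentiableAt ℝ (fun z => (F (ofComplex z)).re) z :=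
      (hQsmooth.differentiableOn one_ne_zero).differentiableAt hU
    have e := dz_sub d1 d2
    have e2 : dz (fun z => (F (ofComplex z)).re) z = f z := dz_re_of_hasDerivAt (hQ z hz)
    rw [e2] at e
    exact e
  have hconv : ∀ K : Set ℂ, IsCompact K → K ⊆ Uhp →
      Tendsto (fun n => ∫ z in K, ‖dz (v n) z‖ ^ 2) atTop (𝓝 0) := by
    intro K hK hKU
    refine (hf_conv K hK hKU).congr fun n => ?_
    refine setIntegral_congr_fun hK.measurableSet fun z hz => ?_
    show ‖dz (u n) z - f z‖ ^ 2 = ‖dz (v n) z‖ ^ 2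
    rw [hdzv n z (hKU hz)]
  have hE := hF.isEquivariant fc
  have hper : ∀ n (z : ℍ), v n ↑((γ : SL(2, ℤ)) • z) = v n ↑z + (φ (Additive.ofMul γ)
      - (F ((γ : SL(2, ℤ)) • UpperHalfPlane.I) - F UpperHalfPlane.I).re) := by
    intro n z
    have h1 := hu_per n γ z
    have h2 := hE.sub_eq_period γ z
    have h3 := hE.sub_eq_period γ UpperHalfPlane.I
    simp only [hv, ofComplex_apply]
    have : F ((γ : SL(2, ℤ)) • z)
        = F z + (F ((γ : SL(2, ℤ)) • UpperHalfPlane.I) - F UpperHalfPlane.I) := by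
      rw [h3, ← h2]; ring
    rw [h1, this, Complex.add_re]
    ring
  have := period_eq_zero_of_tendsto v hv1 hconv (γ : SL(2, ℤ)) _ hper
  linarith

/-- Complex conjugate of a homomorphism to `ℂ`. -/
noncomputable def conjHom {G : Type*} [AddZeroClass G] (ψ : G →+ ℂ) : G →+ ℂ :=
  (starRingEnd ℂ).toAddMonoidHom.comp ψ

@[simp] theorem conjHom_apply {G : Type*} [AddZeroClass G] (ψ : G →+ ℂ) (x : G) :
    conjHom ψ x = conj (ψ x) := rfl

/-- The real part of a homomorphism to `ℂ`. -/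
noncomputable def reHom {G : Type*} [AddZeroClass G] (ψ : G →+ ℂ) : G →+ ℝ :=
  Complex.reLm.toAddMonoidHom.comp ψ

/-- The imaginary part of a homomorphism to `ℂ`. -/
noncomputable def imHom {G : Type*} [AddZeroClass G] (ψ : G →+ ℂ) : G →+ ℝ :=
  Complex.imLm.toAddMonoidHom.comp ψ

@[simp] theorem reHom_apply {G : Type*} [AddZeroClass G] (ψ : G →+ ℂ) (x : G) :
    reHom ψ x = (ψ x).re := rfl

@[simp] theorem imHom_apply {G : Type*} [AddZeroClass G] (ψ : G →+ ℂ) (x : G) :
    imHom ψ x = (ψ x).im := rfl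

theorem es_aux (x a b : ℂ) (h1 : a.re = x.re) (h2 : b.re = x.im) :
    x = ((1 / 2 : ℂ) * a + (Complex.I / 2) * b)
      + conj ((1 / 2 : ℂ) * a - (Complex.I / 2) * b) := by
  apply Complex.ext
  · simp only [Complex.add_re, Complex.mul_re, Complex.sub_re, Complex.conj_re,
      Complex.div_ofNat_re, Complex.div_ofNat_im, Complex.one_re, Complex.one_im, Complex.I_re,
      Complex.I_im]
    rw [← h1]; ring
  · simp only [Complex.add_im, Complex.mul_im, Complex.sub_im, Complex.conj_im,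
      Complex.div_ofNat_re, Complex.div_ofNat_im, Complex.one_re, Complex.one_im, Complex.I_re,
      Complex.I_im]
    rw [← h2]; ring

/-- **Eichler–Shimura surjectivity** for a general level: every complex parabolic homomorphism
on `L.Γ` is of the form `perG f₁ + conj ∘ perG f₂`. -/
theorem exists_perG_add_conj (L : Lev) (ψ : Additive (L.Γ) →+ ℂ)
    (hψ : IsParabolicHom (L.Γ) ψ) :
    ∃ f₁ f₂ : CuspForm (L.Γ) 2, ψ = perG f₁ + conjHom (perG f₂) := by
  have hre : IsParabolicHom (L.Γ) (reHom ψ) := fun γ hγ => by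
    rw [reHom_apply, hψ γ hγ, Complex.zero_re]
  have him : IsParabolicHom (L.Γ) (imHom ψ) := fun γ hγ => by
    rw [imHom_apply, hψ γ hγ, Complex.zero_im]
  obtain ⟨g₁, hg₁⟩ := exists_cuspForm_re_perG_eq L _ hre
  obtain ⟨g₂, hg₂⟩ := exists_cuspForm_re_perG_eq L _ him
  refine ⟨(1 / 2 : ℂ) • g₁ + (Complex.I / 2) • g₂, (1 / 2 : ℂ) • g₁ - (Complex.I / 2) • g₂, ?_⟩
  refine AddMonoidHom.ext fun γ => ?_
  obtain ⟨γ, rfl⟩ : ∃ γ' : L.Γ, Additive.ofMul γ' = γ := ⟨Additive.toMul γ, rfl⟩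
  have e1 := hg₁ γ
  have e2 := hg₂ γ
  rw [reHom_apply] at e1
  rw [imHom_apply] at e2
  rw [AddMonoidHom.add_apply, conjHom_apply, ← perGL_apply, ← perGL_apply, map_add, map_sub,
    map_smul, map_smul, perGL_apply, perGL_apply]
  simp only [AddMonoidHom.add_apply, AddMonoidHom.sub_apply, AddMonoidHom.smul_apply,
    smul_eq_mul]
  exact es_aux _ _ _ e1 e2

/-- The complex parabolic homomorphisms of a level are exactly the sums
`perG f₁ + conj ∘ perG f₂`. -/
theorem isParabolicHom_iff_exists_perG (L : Lev) (ψ : Additive (L.Γ) →+ ℂ) :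
    IsParabolicHom (L.Γ) ψ ↔ ∃ f₁ f₂ : CuspForm (L.Γ) 2, ψ = perG f₁ + conjHom (perG f₂) := by
  refine ⟨exists_perG_add_conj L ψ, ?_⟩
  rintro ⟨f₁, f₂, rfl⟩ γ hγ
  rw [AddMonoidHom.add_apply, conjHom_apply, perG_parabolic f₁ γ hγ, perG_parabolic f₂ γ hγ]
  simp

end Fermat.Agent.S59.TW.H658
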