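import Fermat.Agent.S59.TW.H658.TwistDatum
import Fermat.Agent.S59.TW.H658.Hodge
import Fermat.Agent.S59.TW.H658.Transfer
import Fermat.Prelude.Def_CuspForm_HeckeAlgebra

/-!
# S59 / TW-ES (helper658), leaf E5c: the Hecke relations on `Hom_par(K, ℂ)` and `Hom_par(K, ℤ)`

`K` a subgroup with `Γ₁(M) ≤ K ≤ Γ₀(M)` (`H653.IsMid M K`), `-1 ∈ K`, `M ∣ N'`, and
`u : ℕ → (ℤ/M)ˣ` (think `u ℓ = ℓ^(-1/2)` in `Δ`).  On `X_K(A) = Hom(K, A)` let
`t_ℓ := ⟨u ℓ⟩ ∘ T_ℓ` (`tHom`, `tFam`).  Under `EmbHyp K N' u` (for every character `χ` trivial on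
`K`, the nebentypus-`χ` component embeds into `S₂(Γ₀(N'))`, intertwining `χ(u ℓ) T_ℓ` with `T_ℓ`;
this follows from `TwistHyp K N' u`: every such `χ` has a `TwistDatum` with `psiL(ℓ) = χ(u ℓ)`):

* `rel_complex` : every noncommutative polynomial relation `P(T_ℓ) = 0` on `S₂(Γ₀(N'))` holds
  for the `t_ℓ` on the parabolic classes in `Hom(K, ℂ)`;
* `rel_int` : the same on the parabolic classes in `Hom(K, ℤ)`;
* `isParabolicHom_tHom_complex`, `isParabolicHom_tHom_int` : `t_ℓ` preserves parabolic classes.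
-/

set_option autoImplicit false
set_option linter.unusedSectionVars false
set_option linter.style.haveILetI false

noncomputable section

namespace Fermat.Agent.S59.TW.H658

open CongruenceSubgroup ModularForm ModularCurve ModularCurve.Period
open UpperHalfPlane hiding I
open Matrix.SpecialLinearGroup Fermat.Agent.Lib.Newform.H803
open Fermat.Agent.S41.H761 Fermat.Agent.S29.H642
open Fermat.Agent.S59.TW.H653 Fermat.Agent.S59.TW.H564
open scoped Manifold MatrixGroups ModularForm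

/-- The primes `ℓ ∤ N'`, `ℓ ∉ S`. -/
abbrev GoodPrime (N' : ℕ) (S : Set ℕ) : Type := {ℓ : ℕ // ℓ.Prime ∧ ¬ ℓ ∣ N' ∧ ℓ ∉ S}

section Fam

variable (N' : ℕ) [NeZero N'] (S : Set ℕ)

/-- The family of the `T_ℓ` on `S₂(Γ₀(N'))`. -/
def heckeFam (i : GoodPrime N' S) : Module.End ℂ (CuspForm (Gamma0 N') 2) :=
  CuspForm.heckeTLin 2 i.2.1 i.2.2.1

theorem heckeGenerators_eq_range (hS : ∀ q : ℕ, q.Prime → q ∣ N' → q ∈ S) :
    CuspForm.heckeGenerators N' 2 S = Set.range (heckeFam N' S) := by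
  ext T
  constructor
  · rintro (⟨ℓ, hℓ, hℓN, hℓS, rfl⟩ | ⟨q, hqN, hq, hqS, rfl⟩)
    · exact ⟨⟨ℓ, hℓ, hℓN, hℓS⟩, rfl⟩
    · exact absurd (hS q hq hqN) hqS
  · rintro ⟨i, rfl⟩
    exact CuspForm.heckeTLin_mem_heckeGenerators i.2.1 i.2.2.1 i.2.2.2

theorem heckeAlgebra_eq_adjoin (hS : ∀ q : ℕ, q.Prime → q ∣ N' → q ∈ S) :
    CuspForm.heckeAlgebra N' 2 S = Algebra.adjoin ℤ (Set.range (heckeFam N' S)) := by
  rw [CuspForm.heckeAlgebra, heckeGenerators_eq_range N' S hS]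

end Fam

variable {M : ℕ} {K : Subgroup SL(2, ℤ)}

section Ops

variable (hK : IsMid M K) (A : Type*) [AddCommGroup A]

/-- `t_ℓ = ⟨u⟩ ∘ T_ℓ` as an additive endomorphism of `X_K(A) = Hom(K, A)`. -/
def tHom (u : (ZMod M)ˣ) {ℓ : ℕ} [Fact ℓ.Prime] (hℓ : ¬ ℓ ∣ M) :
    (Additive K →+ A) →+ (Additive K →+ A) :=
  (AddMonoidHom.mk' (diamondU hK u) (diamondU_add hK u)).comp (TKHom hK A hℓ)

variable {A}

@[simp] theorem tHom_apply (u : (ZMod M)ˣ) {ℓ : ℕ} [Fact ℓ.Prime] (hℓ : ¬ ℓ ∣ M)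
    (φ : Additive K →+ A) : tHom hK A u hℓ φ = diamondU hK u (TK M K ℓ φ) := rfl

theorem tHom_comp {B : Type*} [AddCommGroup B] (u : (ZMod M)ˣ) {ℓ : ℕ} [Fact ℓ.Prime]
    (hℓ : ¬ ℓ ∣ M) (π : A →+ B) (φ : Additive K →+ A) :
    tHom hK B u hℓ (π.comp φ) = π.comp (tHom hK A u hℓ φ) := by
  rw [tHom_apply, tHom_apply, TK_comp hK hℓ, diamondU_comp]

variable (A)

/-- The family of the `t_ℓ`, `ℓ ∤ N'`, `ℓ ∉ S`, as `ℤ`-linear endomorphisms of `X_K(A)`. -/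
def tFam {N' : ℕ} (hMN : M ∣ N') (u : ℕ → (ZMod M)ˣ) {S : Set ℕ} (i : GoodPrime N' S) :
    Module.End ℤ (Additive K →+ A) :=
  haveI : Fact i.1.Prime := ⟨i.2.1⟩
  (tHom hK A (u i.1) (fun h => i.2.2.1 (h.trans hMN))).toIntLinearMap

variable {A}

theorem tFam_apply {N' : ℕ} (hMN : M ∣ N') (u : ℕ → (ZMod M)ˣ) {S : Set ℕ} {ℓ : ℕ}
    [Fact ℓ.Prime] (hℓ : ℓ.Prime ∧ ¬ ℓ ∣ N' ∧ ℓ ∉ S) (φ : Additive K →+ A) :
    tFam hK A hMN u (⟨ℓ, hℓ⟩ : GoodPrime N' S) φ = diamondU hK (u ℓ) (TK M K ℓ φ) := rfl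

theorem tFam_comp {B : Type*} [AddCommGroup B] {N' : ℕ} (hMN : M ∣ N') (u : ℕ → (ZMod M)ˣ)
    {S : Set ℕ} (i : GoodPrime N' S) (π : A →+ B) (φ : Additive K →+ A) :
    tFam hK B hMN u i (π.comp φ) = π.comp (tFam hK A hMN u i φ) := by
  haveI : Fact i.1.Prime := ⟨i.2.1⟩
  exact tHom_comp hK (u i.1) (fun h => i.2.2.1 (h.trans hMN)) π φ

end Ops

/-- The hypothesis of the transfer: every character trivial on `K` can be twisted to `Γ₀(N')`,
the twisting characters being "`χ ∘ u`". -/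
structure TwistHyp (K : Subgroup SL(2, ℤ)) (N' : ℕ) (u : ℕ → (ZMod M)ˣ) : Prop where
  dvd : M ∣ N'
  neg : (-1 : SL(2, ℤ)) ∈ K
  twist : ∀ χ : DirichletCharacter ℂ M, TrivOn K χ → ∃ D : TwistDatum M N' χ,
    ∀ ℓ : ℕ, ℓ.Prime → ¬ ℓ ∣ N' → psiL D.ψ D.L ℓ = χ ((u ℓ : (ZMod M)ˣ) : ZMod M)

/-- The hypothesis of the transfer, in its abstract form: for every character `χ` trivial on `K`
the nebentypus-`χ` component embeds into `S₂(Γ₀(N'))`, intertwining `χ(u ℓ) • T_ℓ` with `T_ℓ`. -/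
structure EmbHyp (K : Subgroup SL(2, ℤ)) (N' : ℕ) (u : ℕ → (ZMod M)ˣ) : Prop where
  dvd : M ∣ N'
  neg : (-1 : SL(2, ℤ)) ∈ K
  emb : ∀ χ : DirichletCharacter ℂ M, TrivOn K χ →
    ∃ J : nebSub M χ →+ CuspForm (Gamma0 N') 2, Function.Injective J ∧
      ∀ (ℓ : ℕ) [Fact ℓ.Prime] (hℓ : ¬ ℓ ∣ M) (hℓN : ¬ ℓ ∣ N') (F : nebSub M χ),
        CuspForm.heckeTLin 2 (Fact.out : ℓ.Prime) hℓN (J F) =
          J (nebT χ hℓ (χ ((u ℓ : (ZMod M)ˣ) : ZMod M)) F)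

theorem TwistHyp.embHyp {N' : ℕ} {u : ℕ → (ZMod M)ˣ} (H : TwistHyp K N' u) : EmbHyp K N' u where
  dvd := H.dvd
  neg := H.neg
  emb := fun χ hχ => by
    obtain ⟨D, hD⟩ := H.twist χ hχ
    refine ⟨nebTwist D, nebTwist_injective D, ?_⟩
    intro ℓ _ hℓ hℓN F
    rw [heckeTLin_nebTwist D hℓN hℓ F, hD ℓ Fact.out hℓN]

theorem Gamma_le_of_isMid (hK : IsMid M K) : Gamma M ≤ K := by
  refine le_trans (fun γ hγ => ?_) hK.ge
  rw [Gamma_mem] at hγ
  rw [Gamma1_mem]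
  exact ⟨hγ.1, hγ.2.2.2, hγ.2.2.1⟩

/-- Post-composition with complex conjugation. -/
def conjAdd (G : Type*) [AddZeroClass G] : (G →+ ℂ) →+ (G →+ ℂ) :=
  AddMonoidHom.mk' conjHom (fun _ _ => AddMonoidHom.ext fun _ => by simp)

@[simp] theorem conjAdd_apply {G : Type*} [AddZeroClass G] (ψ : G →+ ℂ) :
    conjAdd G ψ = conjHom ψ := rfl

variable [NeZero M] [K.FiniteIndex]

/-- Eichler–Shimura surjectivity (`exists_perG_add_conj`) for `Γ₁(M) ≤ K ≤ Γ₀(M)`, `-1 ∈ K`. -/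
theorem exists_perG_add_conj_of_isMid (hK : IsMid M K) (hneg : (-1 : SL(2, ℤ)) ∈ K)
    (ψ : Additive K →+ ℂ) (hψ : IsParabolicHom K ψ) :
    ∃ f₁ f₂ : CuspForm K 2, ψ = perG f₁ + conjHom (perG f₂) :=
  exists_perG_add_conj (Lev.ofSubgroup K M (NeZero.ne M) (Gamma_le_of_isMid hK) hneg) ψ hψ

/-- **E5, complex coefficients.**  Relations among the `T_ℓ` on `S₂(Γ₀(N'))` hold for the
`t_ℓ = ⟨u ℓ⟩ T_ℓ` on the parabolic classes of `K`. -/
theorem rel_complex (hK : IsMid M K) {N' : ℕ} [NeZero N'] {u : ℕ → (ZMod M)ˣ}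
    (H : EmbHyp K N' u) (S : Set ℕ) (P : FreeAlgebra ℤ (GoodPrime N' S))
    (hP : FreeAlgebra.lift ℤ (heckeFam N' S) P = 0)
    (y : Additive K →+ ℂ) (hy : IsParabolicHom K y) :
    FreeAlgebra.lift ℤ (tFam hK ℂ H.dvd u) P y = 0 := by
  classical
  choose J hJi hJ using H.emb
  have hℓM : ∀ i : GoodPrime N' S, ¬ i.1 ∣ M := fun i h => i.2.2.1 (h.trans H.dvd)
  refine rel_of_intertwiners (heckeFam N' S) (tFam hK ℂ H.dvd u)
    (parabolicHoms ℤ K ℂ).toAddSubgroup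
    (W := fun e : {χ : DirichletCharacter ℂ M // TrivOn K χ} => nebSub M e.1)
    (fun e i => haveI : Fact i.1.Prime := ⟨i.2.1⟩
      endToInt ℂ _ (nebT e.1 (hℓM i) (e.1 ((u i.1 : (ZMod M)ˣ) : ZMod M))))
    (fun e => J e.1 e.2) (fun e => hJi e.1 e.2) ?_
    (fun e => (perGL K).toAddMonoidHom.comp (nebForm hK e.1 e.2).toAddMonoidHom) ?_
    (conjAdd _) ?_ ?_ P hP y hy
  · intro e i w
    haveI : Fact i.1.Prime := ⟨i.2.1⟩
    exact (hJ e.1 e.2 i.1 (hℓM i) i.2.2.1 w).symm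
  · intro e i w
    haveI : Fact i.1.Prime := ⟨i.2.1⟩
    exact perG_nebForm_nebT hK e.1 e.2 (hℓM i) (u i.1) w
  · intro i x
    exact tFam_comp hK H.dvd u i (starRingEnd ℂ).toAddMonoidHom x
  · intro y hy
    obtain ⟨f₁, f₂, rfl⟩ := exists_perG_add_conj_of_isMid hK H.neg y hy
    obtain ⟨w₁, hw₁⟩ := exists_nebForm_sum hK f₁
    obtain ⟨w₂, hw₂⟩ := exists_nebForm_sum hK f₂
    refine AddSubgroup.add_mem _ ?_ ?_
    · have : perG f₁ = ∑ χ : {χ : DirichletCharacter ℂ M // TrivOn K χ},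
          perG (nebForm hK χ.1 χ.2 (w₁ χ)) := by
        conv_lhs => rw [hw₁]
        rw [← perGL_apply, map_sum]
        rfl
      rw [this]
      exact AddSubgroup.sum_mem _ fun χ _ => AddSubgroup.subset_closure ⟨χ, w₁ χ, Or.inl rfl⟩
    · have : conjHom (perG f₂) = ∑ χ : {χ : DirichletCharacter ℂ M // TrivOn K χ},
          conjHom (perG (nebForm hK χ.1 χ.2 (w₂ χ))) := by
        conv_lhs => rw [hw₂]
        rw [← perGL_apply, map_sum, ← conjAdd_apply, map_sum]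
        rfl
      rw [this]
      exact AddSubgroup.sum_mem _ fun χ _ => AddSubgroup.subset_closure ⟨χ, w₂ χ, Or.inr rfl⟩

/-- `t_ℓ` preserves the complex parabolic classes. -/
theorem isParabolicHom_tFam_complex (hK : IsMid M K) {N' : ℕ} (hMN : M ∣ N')
    (hneg : (-1 : SL(2, ℤ)) ∈ K) (u : ℕ → (ZMod M)ˣ) {S : Set ℕ} (i : GoodPrime N' S)
    (y : Additive K →+ ℂ) (hy : IsParabolicHom K y) :
    IsParabolicHom K (tFam hK ℂ hMN u i y) := by
  haveI : Fact i.1.Prime := ⟨i.2.1⟩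
  have hℓ : ¬ i.1 ∣ M := fun h => i.2.2.1 (h.trans hMN)
  obtain ⟨f₁, f₂, rfl⟩ := exists_perG_add_conj_of_isMid hK hneg y hy
  have h1 : ∀ f : CuspForm K 2, tFam hK ℂ hMN u i (perG f) =
      perG (diaForm hK (sg (u i.1)) (TForm hK hℓ f)) := by
    intro f
    rw [perG_diaForm, perG_TForm, ← diamondU_eq hK (dUnit_sg (u i.1))]
    rfl
  have h2 : tFam hK ℂ hMN u i (conjHom (perG f₂)) = conjHom (tFam hK ℂ hMN u i (perG f₂)) :=
    tFam_comp hK hMN u i (starRingEnd ℂ).toAddMonoidHom _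
  rw [map_add, h2, h1, h1]
  intro γ hγ
  rw [AddMonoidHom.add_apply, conjHom_apply, perG_parabolic _ γ hγ, perG_parabolic _ γ hγ]
  simp

/-- Post-composition with `ℤ → ℂ`. -/
def castHom (G : Type*) [AddZeroClass G] : (G →+ ℤ) →+ (G →+ ℂ) :=
  AddMonoidHom.mk' (fun φ => (Int.castAddHom ℂ).comp φ)
    (fun _ _ => AddMonoidHom.ext fun _ => by simp)

@[simp] theorem castHom_apply {G : Type*} [AddZeroClass G] (φ : G →+ ℤ) (x : G) :
    castHom G φ x = ((φ x : ℤ) : ℂ) := rfl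

theorem castHom_injective (G : Type*) [AddZeroClass G] : Function.Injective (castHom G) := by
  intro φ ψ h
  refine AddMonoidHom.ext fun x => ?_
  have := DFunLike.congr_fun h x
  simpa using this

theorem isParabolicHom_castHom {φ : Additive K →+ ℤ} :
    IsParabolicHom K (castHom _ φ) ↔ IsParabolicHom K φ := by
  constructor
  · intro h γ hγ
    have := h γ hγ
    simpa using this
  · intro h γ hγ
    rw [castHom_apply, h γ hγ, Int.cast_zero]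

/-- `t_ℓ` preserves the integral parabolic classes. -/
theorem isParabolicHom_tFam_int (hK : IsMid M K) {N' : ℕ} (hMN : M ∣ N')
    (hneg : (-1 : SL(2, ℤ)) ∈ K) (u : ℕ → (ZMod M)ˣ) {S : Set ℕ} (i : GoodPrime N' S)
    (y : Additive K →+ ℤ) (hy : IsParabolicHom K y) :
    IsParabolicHom K (tFam hK ℤ hMN u i y) := by
  rw [← isParabolicHom_castHom]
  have h1 : castHom _ (tFam hK ℤ hMN u i y) = tFam hK ℂ hMN u i (castHom _ y) :=
    (tFam_comp hK hMN u i (Int.castAddHom ℂ) y).symm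
  rw [h1]
  exact isParabolicHom_tFam_complex hK hMN hneg u i _ (isParabolicHom_castHom.mpr hy)

/-- **E5, integral coefficients.** -/
theorem rel_int (hK : IsMid M K) {N' : ℕ} [NeZero N'] {u : ℕ → (ZMod M)ˣ}
    (H : EmbHyp K N' u) (S : Set ℕ) (P : FreeAlgebra ℤ (GoodPrime N' S))
    (hP : FreeAlgebra.lift ℤ (heckeFam N' S) P = 0)
    (y : Additive K →+ ℤ) (hy : IsParabolicHom K y) :
    FreeAlgebra.lift ℤ (tFam hK ℤ H.dvd u) P y = 0 := by
  apply castHom_injective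
  rw [lift_intertwine (tFam hK ℤ H.dvd u) (tFam hK ℂ H.dvd u) (castHom _)
    (fun i m => (tFam_comp hK H.dvd u i (Int.castAddHom ℂ) m).symm) P y, map_zero]
  exact rel_complex hK H S P hP _ (isParabolicHom_castHom.mpr hy)

end Fermat.Agent.S59.TW.H658
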