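import Fermat.Agent.S59.TW.H658.CoeffAction
import Fermat.Agent.S59.TW.Aut.SkelLemmas

/-!
# S59 / cell TW, AUT leaf MODQ (helper658): the ring homomorphism at the level `K_Q`

In the vocabulary of `TW/Aut/Spec.lean` (helper511): for a Taylor–Wiles set `qv` (distinct primes
outside `Smin`), `N₀ = wilesLevel p t Smin Smin`, `K_Q = Aut.KQ p N₀ qv`,
`N' = wilesLevel p t Smin (Smin ∪ Q)`, `h` with `Aut.IsHalf p qv h`, and an `𝒪`-submodule
`V ⊆ X_{K_Q}(𝒪)` of parabolic classes stable under the `⟨ℓ⟩^h T_ℓ`: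

  `exists_heckeAction_KQ : ∃ Ψ : heckeAlgebra N' 2 (Smin ∪ Q) →+* End_𝒪 V`,
  `Ψ T_ℓ = Aut.tOpTw _ 𝒪 h ℓ` on `V`.

Also: `exists_isHalf` (`p` odd), `stable_of_isLocPart` (the stability hypothesis from
`Aut.IsLocPart`), `wilesLevel_union` (`N' = N₀ · ∏ q_j²`).
-/

set_option autoImplicit false
set_option linter.unusedSectionVars false
set_option linter.style.haveILetI false

noncomputable section

namespace Fermat.Agent.S59.TW.H658

open CongruenceSubgroup ModularForm ModularCurve ModularCurve.Period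
open Matrix.SpecialLinearGroup
open Fermat.Agent.S59.Arch Fermat.Agent.S59.TW.H653 Fermat.Agent.S59.TW.Aut
open scoped MatrixGroups

theorem uCls_eq_uOf (M ℓ : ℕ) : uCls M ℓ = uOf M ℓ := rfl

/-! ## Arithmetic of the levels -/

section Level

variable (p : ℕ) (t : PType) (Smin : Finset ℕ) {r : ℕ} (qv : Fin r → ℕ)

theorem image_sdiff_of_notMem (hq : ∀ i, qv i ∉ Smin) :
    (Smin ∪ Finset.univ.image qv) \ Smin = Finset.univ.image qv := by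
  ext q
  simp only [Finset.mem_sdiff, Finset.mem_union, Finset.mem_image, Finset.mem_univ, true_and]
  constructor
  · rintro ⟨h1 | h1, h2⟩
    · exact absurd h1 h2
    · exact h1
  · rintro ⟨i, rfl⟩
    exact ⟨Or.inr ⟨i, rfl⟩, hq i⟩

/-- `N_{Smin ∪ Q} = N_{Smin} · ∏ q_j²`. -/
theorem wilesLevel_union (hqi : Function.Injective qv) (hq : ∀ i, qv i ∉ Smin) :
    wilesLevel p t Smin (Smin ∪ Finset.univ.image qv) =
      wilesLevel p t Smin Smin * ∏ j, qv j ^ 2 := by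
  unfold wilesLevel
  rw [image_sdiff_of_notMem Smin qv hq, Finset.sdiff_self, Finset.prod_empty,
    Finset.prod_image (fun i _ j _ h => hqi h)]
  ring

theorem bLevel_mul_prod :
    bLevel (wilesLevel p t Smin Smin) qv * (List.ofFn qv).prod =
      wilesLevel p t Smin Smin * ∏ j, qv j ^ 2 := by
  rw [List.prod_ofFn, bLevel, Finset.prod_pow]
  ring

theorem bLevel_mul_prod_dvd (hqi : Function.Injective qv) (hq : ∀ i, qv i ∉ Smin) :
    bLevel (wilesLevel p t Smin Smin) qv * (List.ofFn qv).prod ∣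
      wilesLevel p t Smin (Smin ∪ Finset.univ.image qv) := by
  rw [bLevel_mul_prod, wilesLevel_union p t Smin qv hqi hq]

variable [Fact p.Prime]

/-- The primes dividing `N_{Smin}` lie in `Smin`. -/
theorem mem_of_dvd_wilesLevel (hpS : p ∈ Smin) (hSp : ∀ q ∈ Smin, q.Prime) {q : ℕ}
    (hqp : q.Prime) (hdvd : q ∣ wilesLevel p t Smin Smin) : q ∈ Smin := by
  unfold wilesLevel at hdvd
  rw [Finset.sdiff_self, Finset.prod_empty, mul_one] at hdvd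
  rcases (Nat.Prime.dvd_mul hqp).mp hdvd with h | h
  · obtain ⟨q', hq', hqq'⟩ := (Prime.dvd_finsetProd_iff hqp.prime _).mp h
    have := (Nat.prime_dvd_prime_iff_eq hqp (hSp q' (Finset.mem_of_mem_erase hq'))).mp hqq'
    rw [this]
    exact Finset.mem_of_mem_erase hq'
  · have h2 : q ∣ p := by
      cases t
      · simp only at h
        exact absurd (Nat.dvd_one.mp h) hqp.ne_one
      · exact h
      · exact h
    rw [(Nat.prime_dvd_prime_iff_eq hqp Fact.out).mp h2]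
    exact hpS

theorem coprime_wilesLevel (hpS : p ∈ Smin) (hSp : ∀ q ∈ Smin, q.Prime) {q : ℕ}
    (hqp : q.Prime) (hq : q ∉ Smin) : Nat.Coprime (wilesLevel p t Smin Smin) q := by
  rw [Nat.coprime_comm, Nat.Prime.coprime_iff_not_dvd hqp]
  exact fun h => hq (mem_of_dvd_wilesLevel p t Smin hpS hSp hqp h)

/-- The primes dividing `N_{Smin ∪ Q}` lie in `Smin ∪ Q`. -/
theorem mem_of_dvd_wilesLevel_union (hpS : p ∈ Smin) (hSp : ∀ q ∈ Smin, q.Prime)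
    (hqi : Function.Injective qv) (hq : ∀ i, (qv i).Prime ∧ qv i ∉ Smin) {q : ℕ}
    (hqp : q.Prime) (hdvd : q ∣ wilesLevel p t Smin (Smin ∪ Finset.univ.image qv)) :
    q ∈ ((Smin ∪ Finset.univ.image qv : Finset ℕ) : Set ℕ) := by
  rw [wilesLevel_union p t Smin qv hqi (fun i => (hq i).2)] at hdvd
  rw [Finset.mem_coe, Finset.mem_union]
  rcases (Nat.Prime.dvd_mul hqp).mp hdvd with h | h
  · exact Or.inl (mem_of_dvd_wilesLevel p t Smin hpS hSp hqp h)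
  · obtain ⟨j, -, hj⟩ := (Prime.dvd_finsetProd_iff hqp.prime _).mp h
    have h1 := hqp.dvd_of_dvd_pow hj
    rw [(Nat.prime_dvd_prime_iff_eq hqp (hq j).1).mp h1]
    exact Or.inr (Finset.mem_image.mpr ⟨j, Finset.mem_univ _, rfl⟩)

/-- Each `q_j` exactly divides `M_Q`. -/
theorem exists_bLevel_eq (hpS : p ∈ Smin) (hSp : ∀ q ∈ Smin, q.Prime)
    (hqi : Function.Injective qv) (hq : ∀ i, (qv i).Prime ∧ qv i ∉ Smin) (j : Fin r) :
    ∃ M' : ℕ, bLevel (wilesLevel p t Smin Smin) qv = M' * qv j ∧ Nat.Coprime M' (qv j) := by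
  classical
  refine ⟨wilesLevel p t Smin Smin * ∏ i ∈ Finset.univ.erase j, qv i, ?_, ?_⟩
  · rw [bLevel, ← Finset.mul_prod_erase Finset.univ qv (Finset.mem_univ j)]
    ring
  · refine Nat.Coprime.mul_left (coprime_wilesLevel p t Smin hpS hSp (hq j).1 (hq j).2) ?_
    refine Nat.Coprime.prod_left fun i hi => ?_
    exact (Nat.coprime_primes (hq i).1 (hq j).1).mpr
      fun h => (Finset.ne_of_mem_erase hi) (hqi h)

end Level

/-! ## The group `K_Q` -/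

section Group

variable (p N₀ : ℕ) {r : ℕ} (qv : Fin r → ℕ)

/-- `Γ₀(M_Q) ∩ Γ₁(∏ q_j) ⊆ K_Q`. -/
theorem mem_KQ_of_dvd {γ : SL(2, ℤ)} (hγ : γ ∈ Gamma0 (bLevel N₀ qv))
    (h : (((List.ofFn qv).prod : ℕ) : ℤ) ∣ γ 1 1 - 1) : γ ∈ KQ p N₀ qv := by
  rw [KQ, mem_GammaH]
  refine ⟨hγ, ?_⟩
  rw [MonoidHom.mem_ker]
  have h1 : red N₀ qv (dUnit _ ⟨γ, hγ⟩) = 1 := by
    funext j
    apply Units.ext
    rw [red_apply]
    show ZMod.castHom (dvd_bLevel N₀ qv j) (ZMod (qv j))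
      ((dUnit (bLevel N₀ qv) ⟨γ, hγ⟩ : (ZMod (bLevel N₀ qv))ˣ) : ZMod (bLevel N₀ qv)) = 1
    rw [coe_dUnit, map_intCast]
    have h2 : ((qv j : ℕ) : ℤ) ∣ γ 1 1 - 1 := by
      refine dvd_trans (Int.natCast_dvd_natCast.mpr ?_) h
      rw [List.prod_ofFn]
      exact Finset.dvd_prod_of_mem qv (Finset.mem_univ j)
    have h3 := (ZMod.intCast_zmod_eq_zero_iff_dvd _ _).mpr h2
    push_cast at h3
    exact sub_eq_zero.mp h3
  show (QuotientGroup.mk' (powSub p qv)) (red N₀ qv (dUnit _ ⟨γ, hγ⟩)) = 1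
  rw [h1, map_one]

/-- `Δ_Q` is killed by `2h + 1`. -/
theorem pow_mem_powSub {h : ℕ} (hh : IsHalf p qv h) (x : ∀ j : Fin r, (ZMod (qv j))ˣ) :
    x ^ (2 * h + 1) ∈ powSub p qv := by
  rw [powSub, Subgroup.mem_pi]
  intro j _
  obtain ⟨c, hc⟩ := hh j
  refine ⟨x j ^ c, ?_⟩
  rw [powMonoidHom_apply, Pi.pow_apply, hc, pow_mul']

theorem pow_mem_KQ {h : ℕ} (hh : IsHalf p qv h) {γ : SL(2, ℤ)}
    (hγ : γ ∈ Gamma0 (bLevel N₀ qv)) : γ ^ (2 * h + 1) ∈ KQ p N₀ qv := by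
  rw [KQ, mem_GammaH]
  refine ⟨Subgroup.pow_mem _ hγ _, ?_⟩
  rw [MonoidHom.mem_ker]
  have h1 : (⟨γ ^ (2 * h + 1), Subgroup.pow_mem _ hγ _⟩ : Gamma0 (bLevel N₀ qv)) =
      (⟨γ, hγ⟩ : Gamma0 (bLevel N₀ qv)) ^ (2 * h + 1) := rfl
  rw [h1, map_pow, map_pow]
  show (QuotientGroup.mk' (powSub p qv)) (red N₀ qv (dUnit _ ⟨γ, hγ⟩)) ^ (2 * h + 1) = 1
  rw [← map_pow]
  exact (QuotientGroup.eq_one_iff _).mpr (pow_mem_powSub p qv hh _)

/-- For odd `p` there is `h` with `2 h ≡ -1` modulo the exponent of `Δ_Q`. -/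
theorem exists_isHalf (hp : Odd p) : ∃ h : ℕ, IsHalf p qv h := by
  set a := ∑ j, padicValNat p (qv j - 1) with ha
  have hodd : Odd (p ^ a) := hp.pow
  obtain ⟨h, hh⟩ := hodd
  refine ⟨h, fun j => ?_⟩
  rw [← hh]
  exact pow_dvd_pow p (Finset.single_le_sum (f := fun j => padicValNat p (qv j - 1))
    (fun _ _ => Nat.zero_le _) (Finset.mem_univ j))

end Group

/-! ## The ring homomorphism -/

section Main

variable {M : ℕ} {K : Subgroup SL(2, ℤ)} (hK : IsMid M K)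

/-- The localisation `V` of `Aut.IsLocPart` is stable under the `⟨u⟩ T_ℓ`. -/
theorem stable_of_isLocPart {𝒪 : Type} [CommRing 𝒪] [IsLocalRing 𝒪] {Tset Uset : Set (ℕ × 𝒪)}
    {V : Submodule 𝒪 (Additive K →+ 𝒪)} (hV : IsLocPart hK Tset Uset V) (u : (ZMod M)ˣ)
    (ℓ : ℕ) [Fact ℓ.Prime] (hℓ : ¬ ℓ ∣ M) (v : Additive K →+ 𝒪) (hv : v ∈ V) :
    diamondU hK u (TK M K ℓ v) ∈ V := by
  obtain ⟨e, -, he2, he3, heT, -, heD, -⟩ := hV.exists_proj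
  have h1 : diamondU hK u (TK M K ℓ v) = e (diamondU hK u (TK M K ℓ v)) := by
    rw [heD, heT ℓ hℓ, he3 v hv]
  rw [h1]
  exact he2 _

end Main

section KQ

variable (p : ℕ) [Fact p.Prime] (t : PType) (Smin : Finset ℕ) {r : ℕ} (qv : Fin r → ℕ)

theorem bLevel_ne_zero (hSp : ∀ q ∈ Smin, q.Prime) (hq : ∀ i, (qv i).Prime) :
    bLevel (wilesLevel p t Smin Smin) qv ≠ 0 := by
  have h1 : wilesLevel p t Smin Smin ≠ 0 := by
    unfold wilesLevel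
    rw [Finset.sdiff_self, Finset.prod_empty, mul_one]
    refine Nat.mul_ne_zero (Finset.prod_ne_zero_iff.mpr fun q hq' =>
      (hSp q (Finset.mem_of_mem_erase hq')).ne_zero) ?_
    cases t
    · exact one_ne_zero
    · exact (Fact.out : p.Prime).ne_zero
    · exact (Fact.out : p.Prime).ne_zero
  exact Nat.mul_ne_zero h1 (Finset.prod_ne_zero_iff.mpr fun j _ => (hq j).ne_zero)

/-- **MODQ, the ring homomorphism.**  The Hecke algebra of `Γ₀(N_{Smin ∪ Q})` acts on every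
`𝒪`-submodule `V ⊆ X_{K_Q}(𝒪)` of parabolic classes stable under the `⟨ℓ⟩^h T_ℓ`, through
`T_ℓ ↦ ⟨ℓ⟩^h T_ℓ` (`Aut.tOpTw`), for every `h` with `Aut.IsHalf p qv h`. -/
theorem exists_heckeAction_KQ (hpS : p ∈ Smin) (hSp : ∀ q ∈ Smin, q.Prime)
    (hqi : Function.Injective qv) (hq : ∀ i, (qv i).Prime ∧ qv i ∉ Smin)
    [NeZero (wilesLevel p t Smin (Smin ∪ Finset.univ.image qv))]
    {h : ℕ} (hh : IsHalf p qv h)
    (𝒪 : Type) [CommRing 𝒪] [Module.IsTorsionFree ℤ 𝒪]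
    (V : Submodule 𝒪 (XQ p t Smin qv 𝒪))
    (hpar : ∀ v ∈ V, IsParabolicHom (KQ p (wilesLevel p t Smin Smin) qv) v)
    (hst : ∀ (ℓ : ℕ) (hℓ : ℓ.Prime),
      ¬ ℓ ∣ wilesLevel p t Smin (Smin ∪ Finset.univ.image qv) →
      ℓ ∉ ((Smin ∪ Finset.univ.image qv : Finset ℕ) : Set ℕ) → ∀ v ∈ V,
        tOpTw (isMid_KQ p (wilesLevel p t Smin Smin) qv) 𝒪 h ℓ hℓ v ∈ V) :
    ∃ Ψ : CuspForm.heckeAlgebra (wilesLevel p t Smin (Smin ∪ Finset.univ.image qv)) 2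
        ((Smin ∪ Finset.univ.image qv : Finset ℕ) : Set ℕ) →+* Module.End 𝒪 V,
      ∀ (ℓ : ℕ) (hℓ : ℓ.Prime)
        (hℓN : ¬ ℓ ∣ wilesLevel p t Smin (Smin ∪ Finset.univ.image qv))
        (hℓS : ℓ ∉ ((Smin ∪ Finset.univ.image qv : Finset ℕ) : Set ℕ)) (v : V),
        ((Ψ (CuspForm.heckeAlgebra.T hℓ hℓN hℓS) v : V) : XQ p t Smin qv 𝒪) =
          tOpTw (isMid_KQ p (wilesLevel p t Smin Smin) qv) 𝒪 h ℓ hℓ v := by
  haveI : NeZero (bLevel (wilesLevel p t Smin Smin) qv) :=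
    ⟨bLevel_ne_zero p t Smin qv hSp fun i => (hq i).1⟩
  haveI : (KQ p (wilesLevel p t Smin Smin) qv).FiniteIndex :=
    H564.finiteIndex_of_Gamma1_le (isMid_KQ p (wilesLevel p t Smin Smin) qv).ge
  obtain ⟨Ψ, hΨ⟩ := exists_heckeAction_sub_of_odd (R := 𝒪)
    (isMid_KQ p (wilesLevel p t Smin Smin) qv) (List.ofFn qv) (List.nodup_ofFn.mpr hqi)
    (fun q hq' => by
      obtain ⟨j, rfl⟩ := (List.mem_ofFn' _ _).mp hq'
      exact ⟨(hq j).1, exists_bLevel_eq p t Smin qv hpS hSp hqi hq j⟩)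
    (fun γ hγ hd => mem_KQ_of_dvd p _ qv hγ hd) h
    (fun γ hγ => pow_mem_KQ p _ qv hh hγ)
    (bLevel_mul_prod_dvd p t Smin qv hqi fun i => (hq i).2)
    ((Smin ∪ Finset.univ.image qv : Finset ℕ) : Set ℕ)
    (fun q hqp hqd => mem_of_dvd_wilesLevel_union p t Smin qv hpS hSp hqi hq hqp hqd)
    V hpar
    (fun ℓ _ hℓN hℓS v hv => hst ℓ Fact.out hℓN hℓS v hv)
  refine ⟨Ψ, fun ℓ hℓ hℓN hℓS v => ?_⟩
  haveI : Fact ℓ.Prime := ⟨hℓ⟩
  exact hΨ ℓ hℓN hℓS v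

/-- **MODQ, the ring homomorphism, for the localisation `V` of `Aut.IsQPart`** (given that `V`
consists of parabolic classes: CUSP-LOC). -/
theorem exists_heckeAction_isQPart
    {𝒪 : Type} [CommRing 𝒪] [IsDomain 𝒪] [IsDiscreteValuationRing 𝒪]
    [IsAdicComplete (IsLocalRing.maximalIdeal 𝒪) 𝒪] [Module.IsTorsionFree ℤ 𝒪]
    {ρbar : ResidualGaloisRep (IsLocalRing.ResidueField 𝒪)}
    (hpS : p ∈ Smin) (hSp : ∀ q ∈ Smin, q.Prime)
    (hqi : Function.Injective qv) (hq : ∀ i, (qv i).Prime ∧ qv i ∉ Smin)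
    [NeZero (wilesLevel p t Smin (Smin ∪ Finset.univ.image qv))]
    (PQ : H959.HeckePkg p 𝒪 ρbar t Smin (Smin ∪ Finset.univ.image qv)) (α : Fin r → 𝒪)
    {h : ℕ} (hh : IsHalf p qv h)
    (V : Submodule 𝒪 (XQ p t Smin qv 𝒪)) (hV : IsQPart PQ α V)
    (hpar : ∀ v ∈ V, IsParabolicHom (KQ p (wilesLevel p t Smin Smin) qv) v) :
    ∃ Ψ : CuspForm.heckeAlgebra (wilesLevel p t Smin (Smin ∪ Finset.univ.image qv)) 2
        ((Smin ∪ Finset.univ.image qv : Finset ℕ) : Set ℕ) →+* Module.End 𝒪 V,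
      ∀ (ℓ : ℕ) (hℓ : ℓ.Prime)
        (hℓN : ¬ ℓ ∣ wilesLevel p t Smin (Smin ∪ Finset.univ.image qv))
        (hℓS : ℓ ∉ ((Smin ∪ Finset.univ.image qv : Finset ℕ) : Set ℕ)) (v : V),
        ((Ψ (CuspForm.heckeAlgebra.T hℓ hℓN hℓS) v : V) : XQ p t Smin qv 𝒪) =
          tOpTw (isMid_KQ p (wilesLevel p t Smin Smin) qv) 𝒪 h ℓ hℓ v := by
  refine exists_heckeAction_KQ p t Smin qv hpS hSp hqi hq hh 𝒪 V hpar ?_
  intro ℓ hℓ hℓN _ v hv
  haveI : Fact ℓ.Prime := ⟨hℓ⟩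
  have hℓM : ¬ ℓ ∣ bLevel (wilesLevel p t Smin Smin) qv := fun hd =>
    hℓN ((hd.trans (Dvd.intro _ rfl)).trans
      (bLevel_mul_prod_dvd p t Smin qv hqi fun i => (hq i).2))
  exact stable_of_isLocPart _ hV _ ℓ hℓM v hv

end KQ

/-! ## The minimal level -/

section Min

variable (p : ℕ) [Fact p.Prime] (t : PType) (Smin : Finset ℕ)

/-- **MOD0, the ring homomorphism.**  The Hecke algebra of `Γ₀(N₀)`, `N₀ = N_{Smin}`, acts on
every `𝒪`-submodule `V₀ ⊆ X_{Γ₀(N₀)}(𝒪)` of parabolic classes stable under the `T_ℓ`, through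
`T_ℓ ↦ T_ℓ` (`Aut.tOp`). -/
theorem exists_heckeAction_min (hpS : p ∈ Smin) (hSp : ∀ q ∈ Smin, q.Prime)
    [NeZero (wilesLevel p t Smin Smin)]
    (𝒪 : Type) [CommRing 𝒪] [Module.IsTorsionFree ℤ 𝒪]
    (V₀ : Submodule 𝒪 (Additive (Gamma0 (wilesLevel p t Smin Smin)) →+ 𝒪))
    (hpar : ∀ v ∈ V₀, IsParabolicHom (Gamma0 (wilesLevel p t Smin Smin)) v)
    (hst : ∀ (ℓ : ℕ) (hℓ : ℓ.Prime), ¬ ℓ ∣ wilesLevel p t Smin Smin →
      ℓ ∉ ((Smin : Finset ℕ) : Set ℕ) → ∀ v ∈ V₀,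
        tOp (wilesLevel p t Smin Smin) (Gamma0 (wilesLevel p t Smin Smin)) 𝒪 ℓ hℓ v ∈ V₀) :
    ∃ Ψ : CuspForm.heckeAlgebra (wilesLevel p t Smin Smin) 2 ((Smin : Finset ℕ) : Set ℕ) →+*
        Module.End 𝒪 V₀,
      ∀ (ℓ : ℕ) (hℓ : ℓ.Prime) (hℓN : ¬ ℓ ∣ wilesLevel p t Smin Smin)
        (hℓS : ℓ ∉ ((Smin : Finset ℕ) : Set ℕ)) (v : V₀),
        ((Ψ (CuspForm.heckeAlgebra.T hℓ hℓN hℓS) v : V₀) :
          Additive (Gamma0 (wilesLevel p t Smin Smin)) →+ 𝒪) =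
          tOp (wilesLevel p t Smin Smin) (Gamma0 (wilesLevel p t Smin Smin)) 𝒪 ℓ hℓ v := by
  have hK := isMid_Gamma0 (wilesLevel p t Smin Smin)
  have h1 : ∀ (u : (ZMod (wilesLevel p t Smin Smin))ˣ)
      (x : Additive (Gamma0 (wilesLevel p t Smin Smin)) →+ 𝒪),
      diamondU hK (u ^ 0) x = x := fun u x => by rw [pow_zero, diamondU_one]
  obtain ⟨Ψ, hΨ⟩ := exists_heckeAction_sub_of_odd (R := 𝒪) hK [] List.nodup_nil
    (fun q hq' => absurd hq' List.not_mem_nil)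
    (fun γ hγ _ => hγ) 0 (fun γ hγ => Subgroup.pow_mem _ hγ _)
    (N' := wilesLevel p t Smin Smin) (by simp)
    ((Smin : Finset ℕ) : Set ℕ)
    (fun q hqp hqd => mem_of_dvd_wilesLevel p t Smin hpS hSp hqp hqd)
    V₀ hpar
    (fun ℓ _ hℓN hℓS v hv => by
      rw [h1]
      exact hst ℓ Fact.out hℓN hℓS v hv)
  refine ⟨Ψ, fun ℓ hℓ hℓN hℓS v => ?_⟩
  haveI : Fact ℓ.Prime := ⟨hℓ⟩
  rw [hΨ ℓ hℓN hℓS v, h1]
  rfl

end Min

example (𝒪 : Type) [CommRing 𝒪] [IsDomain 𝒪] [CharZero 𝒪] : Module.IsTorsionFree ℤ 𝒪 :=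
  inferInstance

end Fermat.Agent.S59.TW.H658
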