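import Mathlib

/-!
# S59 / TW-ES (helper658), leaf E6a: homomorphisms of a finitely generated group to a
torsion-free group (Mathlib only)

Let `G` be a finitely generated group, `P ⊆ G` a subset and `A` a torsion-free abelian group.
Every homomorphism `φ : G → A` vanishing on `P` is a finite sum `∑ᵢ φᵢ(·) • aᵢ` with
`φᵢ : G → ℤ` vanishing on `P` and `aᵢ ∈ A` (`exists_int_decomp`).  Consequently a property of
homomorphisms which is additive and holds for all `n ↦ n • a` composed with integral
homomorphisms vanishing on `P` holds for all homomorphisms to `A` vanishing on `P`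
(`hom_induction_of_torsionFree`).
-/

set_option autoImplicit false
set_option linter.unusedSectionVars false
set_option linter.style.haveILetI false

noncomputable section

namespace Fermat.Agent.S59.TW.H658

section Gen

variable {G : Type*} [Group G]

theorem fg_abelianization [Group.FG G] : Group.FG (Abelianization G) :=
  Group.fg_of_surjective (f := Abelianization.of) (QuotientGroup.mk_surjective)

variable (P : Set G)

/-- The span of the classes of the elements of `P` in the abelianization. -/
def parSpan : Submodule ℤ (Additive (Abelianization G)) :=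
  Submodule.span ℤ ((fun γ : G => Additive.ofMul (Abelianization.of γ)) '' P)

/-- The maximal torsion-free quotient of `G^ab / ⟨P⟩`. -/
abbrev TfQuot : Type _ :=
  (Additive (Abelianization G) ⧸ parSpan P) ⧸
    Submodule.torsion ℤ (Additive (Abelianization G) ⧸ parSpan P)

/-- The projection `G → TfQuot P`. -/
def tfProj : Additive G →+ TfQuot P :=
  (((Submodule.torsion ℤ (Additive (Abelianization G) ⧸ parSpan P)).mkQ.comp
    (parSpan P).mkQ).toAddMonoidHom).comp (MonoidHom.toAdditive Abelianization.of)

theorem tfProj_apply (g : G) :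
    tfProj P (Additive.ofMul g) = Submodule.Quotient.mk
      (Submodule.Quotient.mk (Additive.ofMul (Abelianization.of g))) := rfl

theorem tfProj_of_mem {γ : G} (hγ : γ ∈ P) : tfProj P (Additive.ofMul γ) = 0 := by
  rw [tfProj_apply]
  have h1 : (Submodule.Quotient.mk (Additive.ofMul (Abelianization.of γ)) :
      Additive (Abelianization G) ⧸ parSpan P) = 0 := by
    rw [Submodule.Quotient.mk_eq_zero]
    exact Submodule.subset_span ⟨γ, hγ, rfl⟩
  rw [h1]
  rfl

variable {A : Type*} [AddCommGroup A] [Module.IsTorsionFree ℤ A]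

/-- A homomorphism to a torsion-free group vanishing on `P` factors through `TfQuot P`. -/
theorem exists_factor (φ : Additive G →+ A) (hφ : ∀ γ ∈ P, φ (Additive.ofMul γ) = 0) :
    ∃ φ' : TfQuot P →ₗ[ℤ] A, ∀ x : Additive G, φ' (tfProj P x) = φ x := by
  -- through the abelianization
  set φ₂ : Additive (Abelianization G) →+ A :=
    MonoidHom.toAdditiveLeft (Abelianization.lift (AddMonoidHom.toMultiplicativeRight φ))
    with hφ₂
  have h2 : ∀ g : G, φ₂ (Additive.ofMul (Abelianization.of g)) = φ (Additive.ofMul g) := by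
    intro g
    show Multiplicative.toAdd
      (Abelianization.lift (AddMonoidHom.toMultiplicativeRight φ) (Abelianization.of g)) = _
    rw [Abelianization.lift_apply_of]
    rfl
  have h3 : parSpan P ≤ LinearMap.ker φ₂.toIntLinearMap := by
    rw [parSpan, Submodule.span_le]
    rintro _ ⟨γ, hγ, rfl⟩
    show φ₂ _ = 0
    rw [h2, hφ γ hγ]
  set φ₃ : (Additive (Abelianization G) ⧸ parSpan P) →ₗ[ℤ] A :=
    (parSpan P).liftQ φ₂.toIntLinearMap h3 with hφ₃
  have h4 : Submodule.torsion ℤ (Additive (Abelianization G) ⧸ parSpan P) ≤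
      LinearMap.ker φ₃ := by
    intro x hx
    rw [Submodule.mem_torsion_iff] at hx
    obtain ⟨a, ha⟩ := hx
    rw [LinearMap.mem_ker]
    have h5 : (a : ℤ) • φ₃ x = 0 := by
      rw [← map_smul]
      have : (a : ℤ) • x = 0 := ha
      rw [this, map_zero]
    rcases smul_eq_zero.mp h5 with h | h
    · exact absurd h (nonZeroDivisors.coe_ne_zero a)
    · exact h
  refine ⟨(Submodule.torsion ℤ _).liftQ φ₃ h4, fun x => ?_⟩
  obtain ⟨g, rfl⟩ : ∃ g : G, Additive.ofMul g = x := ⟨Additive.toMul x, rfl⟩
  rw [tfProj_apply, Submodule.liftQ_apply, hφ₃, Submodule.liftQ_apply]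
  exact h2 g

variable [Group.FG G]

instance instFiniteTfQuot : Module.Finite ℤ (TfQuot P) := by
  haveI : Group.FG (Abelianization G) := fg_abelianization
  infer_instance

instance instFreeTfQuot : Module.Free ℤ (TfQuot P) :=
  Module.free_of_finite_type_torsion_free'

/-- **Decomposition.**  Every homomorphism from a finitely generated group to a torsion-free
abelian group vanishing on `P` is a finite combination of integral homomorphisms vanishing on
`P`. -/
theorem exists_int_decomp (φ : Additive G →+ A) (hφ : ∀ γ ∈ P, φ (Additive.ofMul γ) = 0) :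
    ∃ (n : ℕ) (ψ : Fin n → (Additive G →+ ℤ)) (a : Fin n → A),
      (∀ i, ∀ γ ∈ P, ψ i (Additive.ofMul γ) = 0) ∧
      φ = ∑ i, (zmultiplesHom A (a i)).comp (ψ i) := by
  classical
  obtain ⟨φ', hφ'⟩ := exists_factor P φ hφ
  let b := Module.Free.chooseBasis ℤ (TfQuot P)
  let e := Fintype.equivFin (Module.Free.ChooseBasisIndex ℤ (TfQuot P))
  refine ⟨_, fun i => (b.coord (e.symm i)).toAddMonoidHom.comp (tfProj P),
    fun i => φ' (b (e.symm i)), ?_, ?_⟩
  · intro i γ hγ
    rw [AddMonoidHom.comp_apply, tfProj_of_mem P hγ, map_zero]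
  · refine AddMonoidHom.ext fun x => ?_
    rw [← hφ' x, AddMonoidHom.finsetSum_apply]
    conv_lhs => rw [← b.sum_repr (tfProj P x)]
    rw [map_sum, ← Equiv.sum_comp e.symm]
    refine Finset.sum_congr rfl fun i _ => ?_
    rw [map_smul]
    rfl

/-- **Induction principle.** -/
theorem hom_induction_of_torsionFree (C : (Additive G →+ A) → Prop)
    (hadd : ∀ φ ψ, C φ → C ψ → C (φ + ψ)) (h0 : C 0)
    (hint : ∀ (ψ : Additive G →+ ℤ) (a : A), (∀ γ ∈ P, ψ (Additive.ofMul γ) = 0) →
      C ((zmultiplesHom A a).comp ψ))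
    (φ : Additive G →+ A) (hφ : ∀ γ ∈ P, φ (Additive.ofMul γ) = 0) : C φ := by
  classical
  obtain ⟨n, ψ, a, hψ, rfl⟩ := exists_int_decomp P φ hφ
  refine Finset.sum_induction _ C hadd h0 fun i _ => hint _ _ (hψ i)

end Gen

end Fermat.Agent.S59.TW.H658
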