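import Fermat.Agent.S59.TW.H658.EmbH
import Fermat.Agent.S59.TW.H658.Coeff

/-!
# S59 / TW-ES + TW-TWIST (helper658), leaf E6: torsion-free coefficients

`Γ₁(M) ≤ K ≤ Γ₀(M)`, `EmbHyp K N' u`, `A` a torsion-free abelian group.

* `rel_coeff` : the relations of the `T_ℓ` on `S₂(Γ₀(N'))` hold for `t_ℓ = ⟨u ℓ⟩ T_ℓ` on the
  parabolic classes in `Hom(K, A)`;
* `isParabolicHom_tFam_coeff` : `t_ℓ` preserves them;
* `exists_heckeAction_coeff` : `heckeAlgebra N' 2 S →+* End_ℤ (parabolicHoms ℤ K A)`;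
* `exists_heckeAction_sub` : for a commutative ring `R`, torsion-free as an abelian group, and
  an `R`-submodule `V` of `Hom(K, R)` consisting of parabolic classes and stable under the `t_ℓ`:
  `heckeAlgebra N' 2 S →+* End_R V`, `T_ℓ ↦ t_ℓ`.
-/

set_option autoImplicit false
set_option linter.unusedSectionVars false
set_option linter.style.haveILetI false

noncomputable section

namespace Fermat.Agent.S59.TW.H658

open CongruenceSubgroup ModularForm ModularCurve ModularCurve.Period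
open UpperHalfPlane hiding I
open Matrix.SpecialLinearGroup
open Fermat.Agent.S59.TW.H653
open scoped Manifold MatrixGroups ModularForm

theorem fg_SL2Z : Group.FG SL(2, ℤ) :=
  Group.fg_iff.mpr ⟨{ModularGroup.S, ModularGroup.T}, SpecialLinearGroup.SL2Z_generators,
    Set.toFinite _⟩

theorem fg_of_finiteIndex (K : Subgroup SL(2, ℤ)) [K.FiniteIndex] : Group.FG K := by
  haveI := fg_SL2Z
  infer_instance

/-- The parabolic elements of `K`. -/
def parSet (K : Subgroup SL(2, ℤ)) : Set K :=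
  {γ | ((γ : SL(2, ℤ)) : Matrix (Fin 2) (Fin 2) ℤ).trace ^ 2 = 4}

theorem isParabolicHom_iff_parSet {K : Subgroup SL(2, ℤ)} {A : Type*} [AddCommGroup A]
    (φ : Additive K →+ A) :
    IsParabolicHom K φ ↔ ∀ γ ∈ parSet K, φ (Additive.ofMul γ) = 0 := Iff.rfl

/-- Post-composition with an additive map. -/
def compAdd (G : Type*) [AddZeroClass G] {A B : Type*} [AddCommGroup A] [AddCommGroup B]
    (π : A →+ B) : (G →+ A) →+ (G →+ B) :=
  AddMonoidHom.mk' (fun φ => π.comp φ) (fun _ _ => AddMonoidHom.ext fun _ => by simp)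

@[simp] theorem compAdd_apply {G : Type*} [AddZeroClass G] {A B : Type*} [AddCommGroup A]
    [AddCommGroup B] (π : A →+ B) (φ : G →+ A) : compAdd G π φ = π.comp φ := rfl

variable {M : ℕ} [NeZero M] {K : Subgroup SL(2, ℤ)} [K.FiniteIndex]

section Coeff

variable {A : Type*} [AddCommGroup A] [Module.IsTorsionFree ℤ A]

/-- **E6.**  The relations hold on parabolic classes with torsion-free coefficients. -/
theorem rel_coeff (hK : IsMid M K) {N' : ℕ} [NeZero N'] {u : ℕ → (ZMod M)ˣ}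
    (H : EmbHyp K N' u) (S : Set ℕ) (P : FreeAlgebra ℤ (GoodPrime N' S))
    (hP : FreeAlgebra.lift ℤ (heckeFam N' S) P = 0)
    (y : Additive K →+ A) (hy : IsParabolicHom K y) :
    FreeAlgebra.lift ℤ (tFam hK A H.dvd u) P y = 0 := by
  haveI := fg_of_finiteIndex K
  refine hom_induction_of_torsionFree (parSet K)
    (fun y => FreeAlgebra.lift ℤ (tFam hK A H.dvd u) P y = 0) ?_ (map_zero _) ?_ y hy
  · intro φ ψ hφ hψ
    rw [map_add, hφ, hψ, add_zero]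
  · intro ψ a hψ
    have h1 := lift_intertwine (tFam hK ℤ H.dvd u) (tFam hK A H.dvd u)
      (compAdd _ (zmultiplesHom A a))
      (fun i m => (tFam_comp hK H.dvd u i (zmultiplesHom A a) m).symm) P ψ
    simp only [compAdd_apply] at h1
    rw [← h1, rel_int hK H S P hP ψ hψ]
    exact AddMonoidHom.comp_zero _

/-- `t_ℓ` preserves the parabolic classes with torsion-free coefficients. -/
theorem isParabolicHom_tFam_coeff (hK : IsMid M K) {N' : ℕ} (hMN : M ∣ N')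
    (hneg : (-1 : SL(2, ℤ)) ∈ K) (u : ℕ → (ZMod M)ˣ) {S : Set ℕ} (i : GoodPrime N' S)
    (y : Additive K →+ A) (hy : IsParabolicHom K y) :
    IsParabolicHom K (tFam hK A hMN u i y) := by
  haveI := fg_of_finiteIndex K
  refine hom_induction_of_torsionFree (parSet K)
    (fun y => IsParabolicHom K (tFam hK A hMN u i y)) ?_ ?_ ?_ y hy
  · intro φ ψ hφ hψ γ hγ
    rw [map_add, AddMonoidHom.add_apply, hφ γ hγ, hψ γ hγ, add_zero]
  · intro γ hγ
    rw [map_zero]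
    rfl
  · intro ψ a hψ γ hγ
    rw [tFam_comp hK hMN u i (zmultiplesHom A a) ψ, AddMonoidHom.comp_apply,
      isParabolicHom_tFam_int hK hMN hneg u i ψ hψ γ hγ, map_zero]

/-- **E6, action.**  The Hecke algebra of `Γ₀(N')` acts on `Hom_par(K, A)`. -/
theorem exists_heckeAction_coeff (hK : IsMid M K) {N' : ℕ} [NeZero N'] {u : ℕ → (ZMod M)ˣ}
    (H : EmbHyp K N' u) (S : Set ℕ) (hS : ∀ q : ℕ, q.Prime → q ∣ N' → q ∈ S) :
    ∃ Φ : CuspForm.heckeAlgebra N' 2 S →+* Module.End ℤ (parabolicHoms ℤ K A),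
      ∀ (ℓ : ℕ) [Fact ℓ.Prime] (hℓN : ¬ ℓ ∣ N') (hℓS : ℓ ∉ S) (φ : parabolicHoms ℤ K A),
        ((Φ (CuspForm.heckeAlgebra.T (Fact.out : ℓ.Prime) hℓN hℓS) φ : parabolicHoms ℤ K A) :
          Additive K →+ A) = diamondU hK (u ℓ) (TK M K ℓ (φ : Additive K →+ A)) :=
  exists_heckeAction_of_rel hK H.dvd u S hS
    (fun i y hy => isParabolicHom_tFam_coeff hK H.dvd H.neg u i y hy)
    (fun P hP y hy => rel_coeff hK H S P hP y hy)

end Coeff

section Sub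

variable {R : Type*} [CommRing R] [Module.IsTorsionFree ℤ R]

/-- `t_ℓ` is `R`-linear on `Hom(K, R)`. -/
theorem tFam_smul (hK : IsMid M K) {N' : ℕ} (hMN : M ∣ N') (u : ℕ → (ZMod M)ˣ) {S : Set ℕ}
    (i : GoodPrime N' S) (r : R) (φ : Additive K →+ R) :
    tFam hK R hMN u i (r • φ) = r • tFam hK R hMN u i φ := by
  have h1 : ∀ ψ : Additive K →+ R, r • ψ = (AddMonoidHom.mulLeft r).comp ψ := fun ψ =>
    AddMonoidHom.ext fun _ => rfl
  rw [h1, h1, tFam_comp]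

/-- **E6, the shape consumed by MODQ.**  For a commutative ring `R`, torsion-free as an abelian
group, and an `R`-submodule `V ⊆ Hom(K, R)` of parabolic classes stable under the
`t_ℓ = ⟨u ℓ⟩ T_ℓ`: the Hecke algebra of `Γ₀(N')` (away from `S`) acts `R`-linearly on `V`
through `T_ℓ ↦ t_ℓ`. -/
theorem exists_heckeAction_sub (hK : IsMid M K) {N' : ℕ} [NeZero N'] {u : ℕ → (ZMod M)ˣ}
    (H : EmbHyp K N' u) (S : Set ℕ) (hS : ∀ q : ℕ, q.Prime → q ∣ N' → q ∈ S)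
    (V : Submodule R (Additive K →+ R)) (hpar : ∀ v ∈ V, IsParabolicHom K v)
    (hst : ∀ (ℓ : ℕ) [Fact ℓ.Prime], ¬ ℓ ∣ N' → ℓ ∉ S → ∀ v ∈ V,
      diamondU hK (u ℓ) (TK M K ℓ v) ∈ V) :
    ∃ Ψ : CuspForm.heckeAlgebra N' 2 S →+* Module.End R V,
      ∀ (ℓ : ℕ) [Fact ℓ.Prime] (hℓN : ¬ ℓ ∣ N') (hℓS : ℓ ∉ S) (v : V),
        ((Ψ (CuspForm.heckeAlgebra.T (Fact.out : ℓ.Prime) hℓN hℓS) v : V) :
          Additive K →+ R) = diamondU hK (u ℓ) (TK M K ℓ (v : Additive K →+ R)) := by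
  have hst' : ∀ (i : GoodPrime N' S), ∀ v ∈ V, tFam hK R H.dvd u i v ∈ V := by
    intro i v hv
    haveI : Fact i.1.Prime := ⟨i.2.1⟩
    exact hst i.1 i.2.2.1 i.2.2.2 v hv
  obtain ⟨Φ₀, hΦ₀⟩ := exists_ringHom_linear (heckeFam N' S) (tFam hK R H.dvd u)
    (fun i r x => tFam_smul hK H.dvd u i r x) V hst'
    (fun P hP v hv => rel_coeff hK H S P hP v (hpar v hv))
  have heq := heckeAlgebra_eq_adjoin N' S hS
  refine ⟨Φ₀.comp (Subalgebra.equivOfEq _ _ heq).toRingEquiv.toRingHom, ?_⟩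
  intro ℓ _ hℓN hℓS v
  have h1 : (Subalgebra.equivOfEq _ _ heq).toRingEquiv.toRingHom
      (CuspForm.heckeAlgebra.T (Fact.out : ℓ.Prime) hℓN hℓS) =
      ⟨heckeFam N' S ⟨ℓ, Fact.out, hℓN, hℓS⟩, Algebra.subset_adjoin ⟨_, rfl⟩⟩ := rfl
  rw [RingHom.comp_apply, h1, hΦ₀]
  rfl

/-- **MODQ-RING (Taylor–Wiles shape).**  `K` with `Γ₀(M) ∩ Γ₁(∏ Qs) ≤ K ≤ Γ₀(M)` and
`Γ₀(M)^(2m+1) ⊆ K`, `M · ∏ Qs ∣ N'`, `R` torsion-free: the Hecke algebra of `Γ₀(N')` acts on every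
`R`-submodule `V ⊆ Hom(K, R)` of parabolic classes stable under the `⟨ℓ⟩^m T_ℓ`, through
`T_ℓ ↦ ⟨ℓ⟩^m T_ℓ`. -/
theorem exists_heckeAction_sub_of_odd (hK : IsMid M K) (Qs : List ℕ) (hnd : Qs.Nodup)
    (hQs : ∀ q ∈ Qs, q.Prime ∧ ∃ M' : ℕ, M = M' * q ∧ Nat.Coprime M' q)
    (hK1 : ∀ γ ∈ Gamma0 M, ((Qs.prod : ℕ) : ℤ) ∣ γ 1 1 - 1 → γ ∈ K)
    (m : ℕ) (hK2 : ∀ γ ∈ Gamma0 M, γ ^ (2 * m + 1) ∈ K)
    {N' : ℕ} [NeZero N'] (hN' : M * Qs.prod ∣ N') (S : Set ℕ)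
    (hS : ∀ q : ℕ, q.Prime → q ∣ N' → q ∈ S)
    (V : Submodule R (Additive K →+ R)) (hpar : ∀ v ∈ V, IsParabolicHom K v)
    (hst : ∀ (ℓ : ℕ) [Fact ℓ.Prime], ¬ ℓ ∣ N' → ℓ ∉ S → ∀ v ∈ V,
      diamondU hK (uCls M ℓ ^ m) (TK M K ℓ v) ∈ V) :
    ∃ Ψ : CuspForm.heckeAlgebra N' 2 S →+* Module.End R V,
      ∀ (ℓ : ℕ) [Fact ℓ.Prime] (hℓN : ¬ ℓ ∣ N') (hℓS : ℓ ∉ S) (v : V),
        ((Ψ (CuspForm.heckeAlgebra.T (Fact.out : ℓ.Prime) hℓN hℓS) v : V) :
          Additive K →+ R) = diamondU hK (uCls M ℓ ^ m) (TK M K ℓ (v : Additive K →+ R)) :=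
  exists_heckeAction_sub hK (embHyp_of_odd hK Qs hnd hQs hK1 m hK2 hN') S hS V hpar hst

end Sub

end Fermat.Agent.S59.TW.H658
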