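import Fermat.Agent.S59.TW.H324.CuspLocPart
import Fermat.Agent.S59.H424.NEPrimeK
import Fermat.Agent.S59.G4.Spec

/-!
# S59 / cell TW, layer 3: the GENERIC cuspidality of a localisation (helper658)

For a Hecke package `P : HeckePkg p 𝒪 ρ̄ t Smin Σ` (any `Σ`), any group `K` between `Γ₁(M)` and
`Γ₀(M)` and any set `Uset`:

* `resFrobCond_pkg` : `θ = P.θ` is the Frobenius character of `ρ̄`
  (`charpoly ρ̄(Frob_ℓ) = X² - θ(T_ℓ) X + ℓ`, `ℓ ∉ Σ`, `ℓ ∤ N_Σ`);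
* `exists_nonEis_pkg` : there is a prime `ℓ ∉ Σ`, `ℓ ∤ N_Σ`, `ℓ ≡ 1` mod `M`, with
  `θ(T_ℓ) ≠ ℓ + 1` (Chebotarev: `H424.nePrimeK_h424`);
* `isLocPart_cuspidal_pkg`, `isLocPart_parabolic_pkg` : every class of a localisation `V`
  (`Aut.IsLocPart hK (TsetOf P) Uset V`) is cuspidal, in particular parabolic.

Instances: `K = Γ₀(N₀)` (MOD0, CUSP-MIN), `K = K_Q` (MODQ), `K = K_IA` (row HARD, IA-MOD).
-/

set_option autoImplicit false
set_option linter.unusedSectionVars false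
set_option linter.style.haveILetI false

noncomputable section

namespace Fermat.Agent.S59.TW.H658

open CongruenceSubgroup IsLocalRing Polynomial
open Fermat.Agent.S59.Arch Fermat.Agent.S59.TW.H959 Fermat.Agent.S59.TW.H653
open Fermat.Agent.S59.TW.Aut Fermat.Agent.S59
open scoped MatrixGroups

section Pkg

variable {p : ℕ} [Fact p.Prime]
  {𝒪 : Type} [CommRing 𝒪] [IsDomain 𝒪] [IsDiscreteValuationRing 𝒪]
  [IsAdicComplete (maximalIdeal 𝒪) 𝒪]
  {ρbar : ResidualGaloisRep (ResidueField 𝒪)} {t : PType} {Smin Sig : Finset ℕ}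
  [NeZero (wilesLevel p t Smin Sig)]

/-- `P.θ` is the Frobenius character of `ρ̄`. -/
theorem resFrobCond_pkg (P : HeckePkg p 𝒪 ρbar t Smin Sig) : G4.ResFrobCond ρbar P.θ := by
  intro ℓ hℓ hℓN hℓS B hB σ hσ
  have hinj : Function.Injective (ResidueField.map (algebraMap 𝒪 P.T)) :=
    (ResidueField.map (algebraMap 𝒪 P.T)).injective
  apply Polynomial.map_injective _ hinj
  have h1 : LinearMap.charpoly ((ρbar.baseChangeAlong
      (ResidueField.map (algebraMap 𝒪 P.T))).ρ σ) =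
      (LinearMap.charpoly (ρbar.ρ σ)).map (ResidueField.map (algebraMap 𝒪 P.T)) := by
    letI : Algebra (ResidueField 𝒪) (ResidueField P.T) :=
      (ResidueField.map (algebraMap 𝒪 P.T)).toAlgebra
    exact LinearMap.charpoly_baseChange (ρbar.ρ σ) (ResidueField P.T)
  have h2 : LinearMap.charpoly (P.H.ρ.residual.ρ σ) =
      LinearMap.charpoly ((ρbar.baseChangeAlong
        (ResidueField.map (algebraMap 𝒪 P.T))).ρ σ) := by
    obtain ⟨e⟩ := P.hres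
    have h3 : (ρbar.baseChangeAlong (ResidueField.map (algebraMap 𝒪 P.T))).ρ σ =
        e.toLinearEquiv.conj (P.H.ρ.residual.ρ σ) := by
      apply LinearMap.ext
      intro y
      rw [LinearEquiv.conj_apply_apply, e.map_apply, LinearEquiv.apply_symm_apply]
    rw [h3, LinearEquiv.charpoly_conj]
  have h4 : LinearMap.charpoly (P.H.ρ.residual.ρ σ) =
      (LinearMap.charpoly (P.H.ρ.ρ σ)).map (residue P.T) :=
    LinearMap.charpoly_baseChange (P.H.ρ.ρ σ) (ResidueField P.T)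
  rw [← h1, ← h2, h4, P.H.charpoly_frob ℓ hℓ hℓN hℓS B hB σ hσ]
  simp only [Polynomial.map_add, Polynomial.map_sub, Polynomial.map_mul, Polynomial.map_pow,
    Polynomial.map_X, Polynomial.map_C, map_natCast, Polynomial.map_natCast]
  rw [P.H.residue_π]

/-- The primes dividing `N_Σ` lie in `Σ` (if `p ∈ Σ`, `Smin ⊆ Σ` and `Σ` consists of primes). -/
theorem mem_of_dvd_wilesLevel_gen (hpS : p ∈ Sig) (hSmin : Smin ⊆ Sig)
    (hSig : ∀ q ∈ Sig, q.Prime) {q : ℕ} (hq : q.Prime)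
    (hdvd : q ∣ wilesLevel p t Smin Sig) : q ∈ Sig := by
  unfold wilesLevel at hdvd
  rcases (Nat.Prime.dvd_mul hq).mp hdvd with h | h
  · rcases (Nat.Prime.dvd_mul hq).mp h with h | h
    · obtain ⟨q', hq', hqq'⟩ := (Prime.dvd_finsetProd_iff hq.prime _).mp h
      have hq'S : q' ∈ Sig := hSmin (Finset.mem_of_mem_erase hq')
      rw [(Nat.prime_dvd_prime_iff_eq hq (hSig q' hq'S)).mp hqq']
      exact hq'S
    · obtain ⟨q', hq', hqq'⟩ := (Prime.dvd_finsetProd_iff hq.prime _).mp h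
      have hq'S : q' ∈ Sig := (Finset.mem_sdiff.mp hq').1
      rw [(Nat.prime_dvd_prime_iff_eq hq (hSig q' hq'S)).mp (hq.dvd_of_dvd_pow hqq')]
      exact hq'S
  · have h2 : q ∣ p := by
      cases t
      · simp only at h
        exact absurd (Nat.dvd_one.mp h) hq.ne_one
      · exact h
      · exact h
    rw [(Nat.prime_dvd_prime_iff_eq hq (Fact.out : p.Prime)).mp h2]
    exact hpS

/-- **CHEB for a package**: a prime `ℓ ∉ Σ ∪ S'`, `ℓ ∤ N_Σ`, `ℓ ≡ 1` modulo `M`, at which `θ` is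
not Eisenstein: `θ(T_ℓ) ≠ ℓ + 1`. -/
theorem exists_nonEis_pkg [Finite (ResidueField 𝒪)] (h : ResidualHyp p 𝒪 ρbar Smin)
    (hpS : p ∈ Sig) (hSmin : Smin ⊆ Sig) (hSig : ∀ q ∈ Sig, q.Prime)
    (P : HeckePkg p 𝒪 ρbar t Smin Sig) (M : ℕ) (hM : 0 < M) (S' : Finset ℕ) :
    ∃ (ℓ : ℕ) (hℓ : ℓ.Prime) (hℓN : ¬ ℓ ∣ wilesLevel p t Smin Sig)
      (hℓS : ℓ ∉ (↑Sig : Set ℕ)), ℓ ∉ S' ∧ ¬ ℓ ∣ M ∧ ℓ ≡ 1 [MOD M] ∧
        P.θ (CuspForm.heckeAlgebra.T hℓ hℓN hℓS) ≠ (ℓ : ResidueField 𝒪) + 1 := by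
  classical
  have hp : p.Prime := Fact.out
  haveI : CharP (ResidueField 𝒪) p := by
    rw [CharP.charP_iff_prime_eq_zero hp]
    have h0 : residue 𝒪 (p : 𝒪) = 0 := (residue_eq_zero_iff _).mpr h.hp𝒪
    rwa [map_natCast] at h0
  have hgood : ∀ l : ℕ, l.Prime → l ∉ Sig → ¬ l ∣ wilesLevel p t Smin Sig := fun l hl hlS hd =>
    hlS (mem_of_dvd_wilesLevel_gen hpS hSmin hSig hl hd)
  -- the Frobenius traces
  let a : ℕ → ResidueField 𝒪 := fun l =>
    if hl : l.Prime ∧ l ∉ Sig then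
      P.θ (CuspForm.heckeAlgebra.T hl.1 (hgood l hl.1 hl.2) (by simpa using hl.2))
    else 0
  have ha : ∀ (l : ℕ), l.Prime → l ∉ Sig →
      ∀ B : ValuationSubring Fermat.Agent.S31.Qb, B.LiesOverPrime l →
        ∀ σ : Fermat.Agent.S31.GQ, B.IsFrobeniusAt σ l →
          LinearMap.charpoly (ρbar.ρ σ) = X ^ 2 - C (a l) * X + C ((l : ResidueField 𝒪)) := by
    intro l hl hlS B hB σ hσ
    have := resFrobCond_pkg P l hl (hgood l hl hlS) (by simpa using hlS) B hB σ hσ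
    rw [this]
    simp only [a, dif_pos (And.intro hl hlS)]
  -- an auxiliary prime `q ≠ p`
  obtain ⟨q, hq, hqp⟩ : ∃ q : ℕ, q.Prime ∧ q ≠ p := by
    by_cases h2 : p = 2
    · exact ⟨3, Nat.prime_three, by omega⟩
    · exact ⟨2, Nat.prime_two, fun h' => h2 h'.symm⟩
  obtain ⟨l, hl, hlS, hlS', hlM, -, hal, -⟩ :=
    H424.nePrimeK_h424 p h.hp2 (ResidueField 𝒪) ρbar h.habs h.hsplit Sig hpS a ha q hq hqp M hM S'
  refine ⟨l, hl, hgood l hl hlS, by simpa using hlS, hlS', ?_, hlM, ?_⟩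
  · intro hd
    have h1 : l ∣ 1 := by
      have h2 : (1 : ℕ) ≡ l [MOD l] := (hlM.symm).of_dvd hd
      have h3 : l ∣ l - 1 := (Nat.modEq_iff_dvd' hl.one_le).mp h2
      have h4 : l - 1 < l := Nat.sub_lt hl.pos Nat.one_pos
      have h5 : l - 1 = 0 := Nat.eq_zero_of_dvd_of_lt h3 h4
      have := hl.two_le
      omega
    exact hl.ne_one (Nat.dvd_one.mp h1)
  · have : a l = P.θ (CuspForm.heckeAlgebra.T hl (hgood l hl hlS) (by simpa using hlS)) := by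
      simp only [a, dif_pos (And.intro hl hlS)]
    rw [← this]
    exact hal

/-- **CUSP, generic**: every class of a localisation of `X_K(𝒪)` at the eigen-system of a Hecke
package is cuspidal. -/
theorem isLocPart_cuspidal_pkg [Finite (ResidueField 𝒪)] [CharZero 𝒪]
    (h : ResidualHyp p 𝒪 ρbar Smin)
    (hpS : p ∈ Sig) (hSmin : Smin ⊆ Sig) (hSig : ∀ q ∈ Sig, q.Prime)
    (P : HeckePkg p 𝒪 ρbar t Smin Sig) {M : ℕ} [NeZero M] {K : Subgroup SL(2, ℤ)}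
    (hK : IsMid M K) {Uset : Set (ℕ × 𝒪)} {V : Submodule 𝒪 (Additive K →+ 𝒪)}
    (hV : IsLocPart hK (TsetOf P) Uset V) : ∀ v ∈ V, IsCuspidalK v := by
  obtain ⟨ℓ, hℓ, hℓN, hℓS, -, hℓM, h1, hne⟩ :=
    exists_nonEis_pkg h hpS hSmin hSig P M (Nat.pos_of_ne_zero (NeZero.ne M)) ∅
  obtain ⟨c, hc⟩ := residue_surjective (P.θ (CuspForm.heckeAlgebra.T hℓ hℓN hℓS))
  haveI : Fact ℓ.Prime := ⟨hℓ⟩
  have hmem : (ℓ, c) ∈ TsetOf P := ⟨hℓ, hℓN, hℓS, hc⟩
  have hunit : IsUnit (c - ((ℓ : 𝒪) + 1)) := by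
    rw [← not_not (a := IsUnit _), ← mem_nonunits_iff, ← mem_maximalIdeal,
      ← residue_eq_zero_iff, map_sub, map_add, map_natCast, map_one, hc, sub_eq_zero]
    exact hne
  exact H324.isLocPart_cuspidal' hK hV hℓM h1 hmem hunit

/-- **CUSP, generic, parabolic form** (the hypothesis `hpar` of the ring homomorphisms
`exists_heckeAction_*`). -/
theorem isLocPart_parabolic_pkg [Finite (ResidueField 𝒪)] [CharZero 𝒪]
    (h : ResidualHyp p 𝒪 ρbar Smin)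
    (hpS : p ∈ Sig) (hSmin : Smin ⊆ Sig) (hSig : ∀ q ∈ Sig, q.Prime)
    (P : HeckePkg p 𝒪 ρbar t Smin Sig) {M : ℕ} [NeZero M] {K : Subgroup SL(2, ℤ)}
    (hK : IsMid M K) {Uset : Set (ℕ × 𝒪)} {V : Submodule 𝒪 (Additive K →+ 𝒪)}
    (hV : IsLocPart hK (TsetOf P) Uset V) :
    ∀ v ∈ V, ModularCurve.Period.IsParabolicHom K v :=
  fun v hv => (isLocPart_cuspidal_pkg h hpS hSmin hSig P hK hV v hv).1

end Pkg

end Fermat.Agent.S59.TW.H658
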