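import Fermat.Agent.S59.TW.H658.HeckeAction
import Fermat.Agent.S59.TW.H564.Neb

/-!
# S59 / TW-ES + TW-TWIST (helper658): the concrete transfer hypothesis

`embHyp_of_odd` : let `Γ₁(M) ≤ K ≤ Γ₀(M)`, `Qs` a list of distinct primes `q ∥ M` such that `K`
contains `Γ₀(M) ∩ Γ₁(∏ Qs)` and `γ^(2m+1) ∈ K` for all `γ ∈ Γ₀(M)` (Taylor–Wiles: `K = K_Q`,
`2m + 1 = p^a`), and `M · ∏ Qs ∣ N'`.  Then `EmbHyp K N' (fun ℓ => uCls M ℓ ^ m)` holds
(by helper564's `H564.exists_twistEmbeddingK`), hence the Hecke algebra of `Γ₀(N')` acts on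
`Hom_par(K, ℤ)` through `T_ℓ ↦ ⟨ℓ⟩^m ∘ T_ℓ` (`exists_heckeAction_int_of_odd`).
-/

set_option autoImplicit false
set_option linter.unusedSectionVars false
set_option linter.style.haveILetI false

noncomputable section

namespace Fermat.Agent.S59.TW.H658

open CongruenceSubgroup ModularForm ModularCurve ModularCurve.Period
open UpperHalfPlane hiding I
open Matrix.SpecialLinearGroup Fermat.Agent.Lib.Newform.H803
open Fermat.Agent.S59.TW.H653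
open scoped Manifold MatrixGroups ModularForm

/-- The class of `ℓ` in `(ℤ/M)ˣ` (`1` if `ℓ` is not prime to `M`). -/
def uCls (M ℓ : ℕ) : (ZMod M)ˣ :=
  open scoped Classical in if h : Nat.Coprime ℓ M then ZMod.unitOfCoprime ℓ h else 1

theorem coe_uCls {M ℓ : ℕ} (h : Nat.Coprime ℓ M) : ((uCls M ℓ : (ZMod M)ˣ) : ZMod M) = ℓ := by
  unfold uCls
  rw [dif_pos h]
  rfl

variable {M : ℕ} [NeZero M] {K : Subgroup SL(2, ℤ)} [K.FiniteIndex]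

/-- The nebentypus-`χ` functions as elements of helper564's `nebK`. -/
def toNebK (hK : IsMid M K) (χ : DirichletCharacter ℂ M) (hχ : TrivOn K χ) :
    nebSub M χ →ₗ[ℂ] H564.nebK 2 K χ :=
  LinearMap.codRestrict (H564.nebK 2 K χ) (nebForm hK χ hχ) (fun F => F.2.2)

@[simp] theorem coe_toNebK (hK : IsMid M K) (χ : DirichletCharacter ℂ M) (hχ : TrivOn K χ)
    (F : nebSub M χ) : (⇑(toNebK hK χ hχ F).1 : ℍ → ℂ) = (F : ℍ → ℂ) := rfl

theorem toNebK_injective (hK : IsMid M K) (χ : DirichletCharacter ℂ M) (hχ : TrivOn K χ) :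
    Function.Injective (toNebK hK χ hχ) := fun F G h => by
  apply Subtype.ext
  rw [← coe_toNebK hK χ hχ F, h, coe_toNebK]

/-- **The concrete transfer hypothesis** (Taylor–Wiles shape). -/
theorem embHyp_of_odd (hK : IsMid M K) (Qs : List ℕ) (hnd : Qs.Nodup)
    (hQs : ∀ q ∈ Qs, q.Prime ∧ ∃ M' : ℕ, M = M' * q ∧ Nat.Coprime M' q)
    (hK1 : ∀ γ ∈ Gamma0 M, ((Qs.prod : ℕ) : ℤ) ∣ γ 1 1 - 1 → γ ∈ K)
    (m : ℕ) (hK2 : ∀ γ ∈ Gamma0 M, γ ^ (2 * m + 1) ∈ K)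
    {N' : ℕ} (hN' : M * Qs.prod ∣ N') :
    EmbHyp K N' (fun ℓ => uCls M ℓ ^ m) where
  dvd := (Dvd.intro _ rfl).trans hN'
  neg := by
    have h1 : (-1 : SL(2, ℤ)) ∈ Gamma0 M := by
      rw [Gamma0_mem]
      simp
    have h2 := hK2 _ h1
    rwa [Odd.neg_one_pow ⟨m, rfl⟩] at h2
  emb := fun χ hχ => by
    have hQM : ((Qs.prod : ℕ) : ℤ) ∣ (M : ℤ) :=
      H564.list_prod_dvd_of_primes Qs hnd (fun q hq => (hQs q hq).1) _ (fun q hq => by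
        obtain ⟨-, M', hM, -⟩ := hQs q hq
        exact Int.natCast_dvd_natCast.mpr ⟨M', by rw [hM, mul_comm]⟩)
    -- `χ` is trivial on the units `≡ 1 mod ∏ Qs`
    have hε : ∀ d : ℤ, ((Qs.prod : ℕ) : ℤ) ∣ d - 1 → IsUnit ((d : ℤ) : ZMod M) →
        χ ((d : ℤ) : ZMod M) = 1 := by
      intro d hd hu
      obtain ⟨v, hv⟩ := hu
      obtain ⟨g, hg⟩ := dUnit_surjective (M := M) v
      have h1 : ((((g : SL(2, ℤ)) 1 1 : ℤ)) : ZMod M) = ((d : ℤ) : ZMod M) := by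
        rw [← coe_dUnit, hg, hv]
      have h2 : (M : ℤ) ∣ (g : SL(2, ℤ)) 1 1 - d := by
        rw [← ZMod.intCast_zmod_eq_zero_iff_dvd]
        push_cast
        rw [h1, sub_self]
      have h3 : ((Qs.prod : ℕ) : ℤ) ∣ (g : SL(2, ℤ)) 1 1 - 1 := by
        have := dvd_add (hQM.trans h2) hd
        rwa [sub_add_sub_cancel] at this
      have h4 := hχ g (hK1 _ g.2 h3)
      rw [hg, hv] at h4
      exact h4
    -- `χ ^ (2 m + 1) = 1`
    have hm : χ ^ (2 * m + 1) = 1 := by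
      ext v
      rw [MulChar.pow_apply_coe, MulChar.one_apply_coe, ← map_pow, ← Units.val_pow_eq_pow_val]
      obtain ⟨g, rfl⟩ := dUnit_surjective (M := M) v
      rw [← map_pow]
      exact hχ (g ^ (2 * m + 1)) (hK2 _ g.2)
    obtain ⟨J, hJi, hJ⟩ := H564.exists_twistEmbeddingK 2 hK.ge Qs hnd hQs χ hε m hm N' hN'
    refine ⟨(J.comp (toNebK hK χ hχ)).toAddMonoidHom,
      hJi.comp (toNebK_injective hK χ hχ), ?_⟩
    intro ℓ _ hℓ hℓN F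
    have hcop : Nat.Coprime ℓ M := (Nat.Prime.coprime_iff_not_dvd Fact.out).mpr hℓ
    refine hJ ℓ hℓ hℓN (toNebK hK χ hχ F) (toNebK hK χ hχ _) ?_
    rw [coe_toNebK, coe_toNebK, coe_nebT, famOp_repsT_eq χ hcop F.2.2, Units.val_pow_eq_pow_val,
      map_pow, coe_uCls hcop, chiZ_apply, Int.cast_natCast]

/-- **E5, Taylor–Wiles shape, integral form.**  The Hecke algebra of `Γ₀(N')` acts on
`Hom_par(K, ℤ)` through `T_ℓ ↦ ⟨ℓ⟩^m ∘ T_ℓ`. -/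
theorem exists_heckeAction_int_of_odd (hK : IsMid M K) (Qs : List ℕ) (hnd : Qs.Nodup)
    (hQs : ∀ q ∈ Qs, q.Prime ∧ ∃ M' : ℕ, M = M' * q ∧ Nat.Coprime M' q)
    (hK1 : ∀ γ ∈ Gamma0 M, ((Qs.prod : ℕ) : ℤ) ∣ γ 1 1 - 1 → γ ∈ K)
    (m : ℕ) (hK2 : ∀ γ ∈ Gamma0 M, γ ^ (2 * m + 1) ∈ K)
    {N' : ℕ} [NeZero N'] (hN' : M * Qs.prod ∣ N') (S : Set ℕ)
    (hS : ∀ q : ℕ, q.Prime → q ∣ N' → q ∈ S) :
    ∃ Φ : CuspForm.heckeAlgebra N' 2 S →+* Module.End ℤ (parabolicHoms ℤ K ℤ),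
      ∀ (ℓ : ℕ) [Fact ℓ.Prime] (hℓN : ¬ ℓ ∣ N') (hℓS : ℓ ∉ S) (φ : parabolicHoms ℤ K ℤ),
        ((Φ (CuspForm.heckeAlgebra.T (Fact.out : ℓ.Prime) hℓN hℓS) φ : parabolicHoms ℤ K ℤ) :
          Additive K →+ ℤ) = diamondU hK (uCls M ℓ ^ m) (TK M K ℓ (φ : Additive K →+ ℤ)) :=
  exists_heckeAction_int hK (embHyp_of_odd hK Qs hnd hQs hK1 m hK2 hN') S hS

end Fermat.Agent.S59.TW.H658
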