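import Fermat.Agent.S59.TW.H658.PerTransfer
import Fermat.Agent.Lib.Newform.H803.Bridge

/-!
# S59 / TW-ES (helper658), leaf E2: coset operators on cusp forms

For a coset system `ρ : I → GL(2,ℝ)⁺` from `Γ` to `Γ'` (finite-index subgroups of `SL(2,ℤ)`)
whose members preserve cuspidality (e.g. rational matrices):

* `famOp k ρ F = ∑ i, F ∣[k] ρ i` (function level); `slInv_famOp` : it maps `Γ`-invariant
  functions to `Γ'`-invariant functions;
* `cosetOp h hcusp : CuspForm Γ k →ₗ[ℂ] CuspForm Γ' k`;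
* `perG_cosetOp` : `perG (cosetOp h hcusp f) = h.transfer (perG f)` (weight 2).
-/

set_option autoImplicit false
set_option linter.unusedSectionVars false

noncomputable section

namespace Fermat.Agent.S59.TW.H658

open CongruenceSubgroup ModularCurve ModularCurve.Period
open UpperHalfPlane hiding I
open Matrix.SpecialLinearGroup Fermat.Agent.S41.H761 Fermat.Agent.Lib.Newform.H803
open scoped Manifold MatrixGroups ModularForm

variable {k : ℤ} {Γ Γ' : Subgroup SL(2, ℤ)} {I : Type*} [Fintype I]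

/-- The function-level operator of a finite family of matrices. -/
def famOp (k : ℤ) (ρ : I → GL (Fin 2) ℝ) (F : ℍ → ℂ) : ℍ → ℂ := ∑ i, F ∣[k] ρ i

theorem famOp_add (ρ : I → GL (Fin 2) ℝ) (F G : ℍ → ℂ) :
    famOp k ρ (F + G) = famOp k ρ F + famOp k ρ G := by
  simp only [famOp, SlashAction.add_slash, Finset.sum_add_distrib]

theorem famOp_smul (ρ : I → GL (Fin 2) ℝ)
    (hdet : ∀ i, 0 < ((ρ i : GL (Fin 2) ℝ) : Matrix (Fin 2) (Fin 2) ℝ).det) (c : ℂ)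
    (F : ℍ → ℂ) : famOp k ρ (c • F) = c • famOp k ρ F := by
  simp only [famOp, Finset.smul_sum]
  refine Finset.sum_congr rfl fun i _ => ?_
  have hσ : UpperHalfPlane.σ (ρ i) = .refl ℝ ℂ := by
    rw [UpperHalfPlane.σ, if_pos]
    have := hdet i
    rwa [← Matrix.GeneralLinearGroup.val_det_apply] at this
  rw [ModularForm.smul_slash, hσ]
  rfl

/-- The operator of a coset system maps `Γ`-invariant functions to `Γ'`-invariant functions. -/
theorem slInv_famOp {ρ : I → GL (Fin 2) ℝ} (h : IsCosetSystem (ιG Γ) (ιG Γ') ρ) {F : ℍ → ℂ}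
    (hF : SlInv k Γ F) : SlInv k Γ' (famOp k ρ F) := by
  intro γ hγ
  have key : ∀ i : I, (F ∣[k] ρ i) ∣[k] γ = F ∣[k] ρ (h.act i ⟨γ, hγ⟩) := by
    intro i
    have hs := h.spec i ⟨γ, hγ⟩
    rw [ιG_apply, ιG_apply] at hs
    rw [sl_slash_mapGL, ← SlashAction.slash_mul, hs, SlashAction.slash_mul, ← sl_slash_mapGL,
      hF _ (h.coc i ⟨γ, hγ⟩).2]
  rw [famOp, SlashAction.sum_slash]
  simp only [key]
  exact Equiv.sum_comp (h.actEquiv ⟨γ, hγ⟩) (fun j => F ∣[k] ρ j)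

theorem isCuspidal_famOp {ρ : I → GL (Fin 2) ℝ}
    (hcusp : ∀ (F : ℍ → ℂ), IsCuspidal k F → ∀ i, IsCuspidal k (F ∣[k] ρ i)) {F : ℍ → ℂ}
    (hF : IsCuspidal k F) : IsCuspidal k (famOp k ρ F) := by
  rw [← mem_cuspSub, famOp]
  exact Submodule.sum_mem _ fun i _ => hcusp F hF i

variable [Γ.FiniteIndex] [Γ'.FiniteIndex]

/-- The operator of a coset system on cusp forms. -/
def cosetOp {ρ : I → GL (Fin 2) ℝ} (h : IsCosetSystem (ιG Γ) (ιG Γ') ρ)
    (hdet : ∀ i, 0 < ((ρ i : GL (Fin 2) ℝ) : Matrix (Fin 2) (Fin 2) ℝ).det)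
    (hcusp : ∀ (F : ℍ → ℂ), IsCuspidal k F → ∀ i, IsCuspidal k (F ∣[k] ρ i)) :
    CuspForm Γ k →ₗ[ℂ] CuspForm Γ' k where
  toFun f := cuspFormOfIsCuspidal Γ' (famOp k ρ ⇑f)
    (isCuspidal_famOp hcusp (isCuspidal_of_cuspForm f)) (slInv_famOp h (slInv_of_cuspForm f))
  map_add' f g := DFunLike.coe_injective <| by
    show famOp k ρ ⇑(f + g) = famOp k ρ ⇑f + famOp k ρ ⇑g
    rw [FunLike.coe_add, famOp_add]
  map_smul' c f := DFunLike.coe_injective <| by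
    show famOp k ρ ⇑(c • f) = c • famOp k ρ ⇑f
    rw [FunLike.coe_smul, famOp_smul ρ hdet]

@[simp] theorem coe_cosetOp {ρ : I → GL (Fin 2) ℝ} (h : IsCosetSystem (ιG Γ) (ιG Γ') ρ)
    (hdet : ∀ i, 0 < ((ρ i : GL (Fin 2) ℝ) : Matrix (Fin 2) (Fin 2) ℝ).det)
    (hcusp : ∀ (F : ℍ → ℂ), IsCuspidal k F → ∀ i, IsCuspidal k (F ∣[k] ρ i))
    (f : CuspForm Γ k) : (⇑(cosetOp h hdet hcusp f) : ℍ → ℂ) = famOp k ρ ⇑f := rfl

/-- **E2.**  The period map intertwines the coset operator with the transfer. -/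
theorem perG_cosetOp {ρ : I → GL (Fin 2) ℝ} (h : IsCosetSystem (ιG Γ) (ιG Γ') ρ)
    (hdet : ∀ i, 0 < ((ρ i : GL (Fin 2) ℝ) : Matrix (Fin 2) (Fin 2) ℝ).det)
    (hcusp : ∀ (F : ℍ → ℂ), IsCuspidal 2 F → ∀ i, IsCuspidal 2 (F ∣[(2 : ℤ)] ρ i))
    (f : CuspForm Γ 2) : perG (cosetOp h hdet hcusp f) = h.transfer (perG f) :=
  perG_eq_transfer h hdet f _ rfl

end Fermat.Agent.S59.TW.H658
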