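import Fermat.Agent.S59.TW.H658.CuspG
import Fermat.Agent.S59.TW.H658.ModQRing
import Fermat.Agent.S41.Spec.HK

/-!
# S59 / cell TW, layer 3: CUSP at the levels `Γ₀(N₀)` and `K_Q`, and the unconditional ring
homomorphisms of MOD0 / MODQ (helper658)

Instances of `CuspG.lean` (`isLocPart_cuspidal_pkg`):

* `cuspMin658` : the body of `H959.CuspMinStatement`, verbatim (`V₀` is cuspidal);
* `isQPart_cuspidal`, `isQPart_parabolic` : the localisation `V` of `Aut.IsQPart` is cuspidal;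
* `exists_heckeAction_isQPart_of_tw` : MODQ, the ring homomorphism, with no hypothesis left;
* `exists_heckeAction_isMinPart` : MOD0, the ring homomorphism, with no hypothesis left.
-/

set_option autoImplicit false
set_option linter.unusedSectionVars false
set_option linter.style.haveILetI false

noncomputable section

namespace Fermat.Agent.S59.TW.H658

open CongruenceSubgroup IsLocalRing Polynomial
open Fermat.Agent.S59.Arch Fermat.Agent.S59.TW.H959 Fermat.Agent.S59.TW.H653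
open Fermat.Agent.S59.TW.Aut Fermat.Agent.S59
open scoped MatrixGroups

section Inst

variable {p : ℕ} [Fact p.Prime]
  {𝒪 : Type} [CommRing 𝒪] [IsDomain 𝒪] [IsDiscreteValuationRing 𝒪]
  [IsAdicComplete (maximalIdeal 𝒪) 𝒪] [Finite (ResidueField 𝒪)] [CharZero 𝒪]
  {ρbar : ResidualGaloisRep (ResidueField 𝒪)} {t : PType} {Smin : Finset ℕ}

/-- **CUSP at the minimal level**, in the vocabulary of helper653. -/
theorem isMinPart_cuspidal (h : ResidualHyp p 𝒪 ρbar Smin)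
    [NeZero (wilesLevel p t Smin Smin)] (P₀ : HeckePkg p 𝒪 ρbar t Smin Smin)
    (V₀ : Submodule 𝒪 (Additive (Gamma0 (wilesLevel p t Smin Smin)) →+ 𝒪))
    (hV : IsMinPart P₀ V₀) : ∀ v ∈ V₀, IsCuspidalK v :=
  isLocPart_cuspidal_pkg h h.hpSmin (Finset.Subset.refl _) h.hSmin P₀
    (isMid_Gamma0 (wilesLevel p t Smin Smin)) hV

/-- **CUSP-MIN**: the body of `H959.CuspMinStatement`, verbatim. -/
theorem cuspMin658 :
    ∀ (p : ℕ) [Fact p.Prime]
    (𝒪 : Type) [CommRing 𝒪] [IsDomain 𝒪] [IsDiscreteValuationRing 𝒪]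
    [IsAdicComplete (maximalIdeal 𝒪) 𝒪] [Finite (ResidueField 𝒪)] [CharZero 𝒪]
    (ρbar : ResidualGaloisRep (ResidueField 𝒪)) (Smin : Finset ℕ)
    (_h : ResidualHyp p 𝒪 ρbar Smin) (t : PType)
    (_ht : (t = .flat ∧ (GaloisRepAdic.ofResidualGaloisRep ρbar).IsFlatAt p) ∨
      (t = .sord ∧ (GaloisRepAdic.ofResidualGaloisRep ρbar).IsStrictOrdinaryAt p ∧
        ¬ (GaloisRepAdic.ofResidualGaloisRep ρbar).IsFlatAt p))
    [NeZero (wilesLevel p t Smin Smin)]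
    (P₀ : HeckePkg p 𝒪 ρbar t Smin Smin)
    (V₀ : Submodule 𝒪 (Additive (Gamma0 (wilesLevel p t Smin Smin)) →+ 𝒪)),
    IsMinPart P₀ V₀ → ∀ v ∈ V₀, Fermat.Agent.S41.Spec.IsCuspidal v :=
  fun _ _ _ _ _ _ _ _ _ _ _ h _ _ _ P₀ V₀ hV v hv => isMinPart_cuspidal h P₀ V₀ hV v hv

variable {r : ℕ} {qv : Fin r → ℕ}

/-- **CUSP at the level `K_Q`.** -/
theorem isQPart_cuspidal (h : ResidualHyp p 𝒪 ρbar Smin)
    (hqi : Function.Injective qv) (hq : ∀ i, (qv i).Prime ∧ qv i ∉ Smin)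
    [NeZero (wilesLevel p t Smin (Smin ∪ Finset.univ.image qv))]
    (PQ : HeckePkg p 𝒪 ρbar t Smin (Smin ∪ Finset.univ.image qv)) (α : Fin r → 𝒪)
    (V : Submodule 𝒪 (XQ p t Smin qv 𝒪)) (hV : IsQPart PQ α V) :
    ∀ v ∈ V, IsCuspidalK v := by
  haveI : NeZero (bLevel (wilesLevel p t Smin Smin) qv) :=
    ⟨bLevel_ne_zero p t Smin qv h.hSmin fun i => (hq i).1⟩
  refine isLocPart_cuspidal_pkg h (Finset.mem_union_left _ h.hpSmin) Finset.subset_union_left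
    ?_ PQ (isMid_KQ p (wilesLevel p t Smin Smin) qv) hV
  intro q hqS
  rcases Finset.mem_union.mp hqS with h1 | h1
  · exact h.hSmin q h1
  · obtain ⟨j, -, rfl⟩ := Finset.mem_image.mp h1
    exact (hq j).1

theorem isQPart_parabolic (h : ResidualHyp p 𝒪 ρbar Smin)
    (hqi : Function.Injective qv) (hq : ∀ i, (qv i).Prime ∧ qv i ∉ Smin)
    [NeZero (wilesLevel p t Smin (Smin ∪ Finset.univ.image qv))]
    (PQ : HeckePkg p 𝒪 ρbar t Smin (Smin ∪ Finset.univ.image qv)) (α : Fin r → 𝒪)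
    (V : Submodule 𝒪 (XQ p t Smin qv 𝒪)) (hV : IsQPart PQ α V) :
    ∀ v ∈ V, ModularCurve.Period.IsParabolicHom (KQ p (wilesLevel p t Smin Smin) qv) v :=
  fun v hv => (isQPart_cuspidal h hqi hq PQ α V hV v hv).1

/-- **MODQ, the ring homomorphism, unconditionally**: for a Taylor–Wiles set `qv`, the Hecke
algebra of level `N_{Smin ∪ Q}` acts on the localisation `V` of `Aut.IsQPart` through
`T_ℓ ↦ ⟨ℓ⟩^h T_ℓ`, for every `h` with `Aut.IsHalf p qv h`. -/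
theorem exists_heckeAction_isQPart_of_tw (h : ResidualHyp p 𝒪 ρbar Smin) {n : ℕ}
    (hq : IsTWSet p ρbar Smin n qv)
    [NeZero (wilesLevel p t Smin (Smin ∪ Finset.univ.image qv))]
    (PQ : HeckePkg p 𝒪 ρbar t Smin (Smin ∪ Finset.univ.image qv)) (α : Fin r → 𝒪)
    {e : ℕ} (he : IsHalf p qv e)
    (V : Submodule 𝒪 (XQ p t Smin qv 𝒪)) (hV : IsQPart PQ α V) :
    ∃ Ψ : CuspForm.heckeAlgebra (wilesLevel p t Smin (Smin ∪ Finset.univ.image qv)) 2
        ((Smin ∪ Finset.univ.image qv : Finset ℕ) : Set ℕ) →+* Module.End 𝒪 V,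
      ∀ (ℓ : ℕ) (hℓ : ℓ.Prime)
        (hℓN : ¬ ℓ ∣ wilesLevel p t Smin (Smin ∪ Finset.univ.image qv))
        (hℓS : ℓ ∉ ((Smin ∪ Finset.univ.image qv : Finset ℕ) : Set ℕ)) (v : V),
        ((Ψ (CuspForm.heckeAlgebra.T hℓ hℓN hℓS) v : V) : XQ p t Smin qv 𝒪) =
          tOpTw (isMid_KQ p (wilesLevel p t Smin Smin) qv) 𝒪 e ℓ hℓ v :=
  exists_heckeAction_isQPart p t Smin qv h.hpSmin h.hSmin hq.1
    (fun i => ⟨(hq.2.1 i).1, (hq.2.1 i).2.1⟩) PQ α he V hV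
    (isQPart_parabolic h hq.1 (fun i => ⟨(hq.2.1 i).1, (hq.2.1 i).2.1⟩) PQ α V hV)

/-- **MOD0, the ring homomorphism, unconditionally.** -/
theorem exists_heckeAction_isMinPart (h : ResidualHyp p 𝒪 ρbar Smin)
    [NeZero (wilesLevel p t Smin Smin)] (P₀ : HeckePkg p 𝒪 ρbar t Smin Smin)
    (V₀ : Submodule 𝒪 (Additive (Gamma0 (wilesLevel p t Smin Smin)) →+ 𝒪))
    (hV : IsMinPart P₀ V₀) :
    ∃ Ψ : CuspForm.heckeAlgebra (wilesLevel p t Smin Smin) 2 ((Smin : Finset ℕ) : Set ℕ) →+*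
        Module.End 𝒪 V₀,
      ∀ (ℓ : ℕ) (hℓ : ℓ.Prime) (hℓN : ¬ ℓ ∣ wilesLevel p t Smin Smin)
        (hℓS : ℓ ∉ ((Smin : Finset ℕ) : Set ℕ)) (v : V₀),
        ((Ψ (CuspForm.heckeAlgebra.T hℓ hℓN hℓS) v : V₀) :
          Additive (Gamma0 (wilesLevel p t Smin Smin)) →+ 𝒪) =
          tOp (wilesLevel p t Smin Smin) (Gamma0 (wilesLevel p t Smin Smin)) 𝒪 ℓ hℓ v := by
  refine exists_heckeAction_min p t Smin h.hpSmin h.hSmin 𝒪 V₀
    (fun v hv => (isMinPart_cuspidal h P₀ V₀ hV v hv).1) ?_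
  intro ℓ hℓ hℓN _ v hv
  haveI : Fact ℓ.Prime := ⟨hℓ⟩
  have h1 := stable_of_isLocPart (isMid_Gamma0 (wilesLevel p t Smin Smin)) hV 1 ℓ hℓN v hv
  rwa [diamondU_one] at h1

end Inst

end Fermat.Agent.S59.TW.H658
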