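import Fermat.Agent.S59.TW.H658.HeckeRel

/-!
# S59 / TW-ES + TW-TWIST (helper658), leaf E5: the Hecke algebra of `Γ₀(N')` acts on `Hom_par(K, ℤ)`

`Γ₁(M) ≤ K ≤ Γ₀(M)`, `-1 ∈ K`, `M ∣ N'`, `S` a set of primes containing the primes dividing `N'`,
`u : ℕ → (ℤ/M)ˣ`, `EmbHyp K N' u` (e.g. from `TwistHyp.embHyp` or `EmbH.embHyp_of_odd`).  Then there is a ring homomorphism

  `Φ : CuspForm.heckeAlgebra N' 2 S →+* End_ℤ (parabolicHoms ℤ K ℤ)`,  `T_ℓ ↦ ⟨u ℓ⟩ ∘ T_ℓ`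

(`exists_heckeAction_int`); the same with complex coefficients (`exists_heckeAction_complex`).
-/

set_option autoImplicit false
set_option linter.unusedSectionVars false
set_option linter.style.haveILetI false

noncomputable section

namespace Fermat.Agent.S59.TW.H658

open CongruenceSubgroup ModularForm ModularCurve ModularCurve.Period
open UpperHalfPlane hiding I
open Matrix.SpecialLinearGroup
open Fermat.Agent.S59.TW.H653 Fermat.Agent.S59.TW.H564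
open scoped Manifold MatrixGroups ModularForm

variable {M : ℕ} {K : Subgroup SL(2, ℤ)}

section Abstract

variable (hK : IsMid M K) {A : Type*} [AddCommGroup A]

/-- The restriction of `t_ℓ` to the parabolic classes, given stability. -/
def sFam {N' : ℕ} (hMN : M ∣ N') (u : ℕ → (ZMod M)ˣ) {S : Set ℕ}
    (hst : ∀ (i : GoodPrime N' S) (y : Additive K →+ A), IsParabolicHom K y →
      IsParabolicHom K (tFam hK A hMN u i y)) (i : GoodPrime N' S) :
    Module.End ℤ (parabolicHoms ℤ K A) :=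
  (((tFam hK A hMN u i).toAddMonoidHom.comp
    (parabolicHoms ℤ K A).subtype.toAddMonoidHom).codRestrict
      (parabolicHoms ℤ K A).toAddSubgroup (fun y => hst i y y.2)).toIntLinearMap

@[simp] theorem coe_sFam {N' : ℕ} (hMN : M ∣ N') (u : ℕ → (ZMod M)ˣ) {S : Set ℕ}
    (hst : ∀ (i : GoodPrime N' S) (y : Additive K →+ A), IsParabolicHom K y →
      IsParabolicHom K (tFam hK A hMN u i y)) (i : GoodPrime N' S)
    (y : parabolicHoms ℤ K A) :
    ((sFam hK hMN u hst i y : parabolicHoms ℤ K A) : Additive K →+ A) =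
      tFam hK A hMN u i (y : Additive K →+ A) := rfl

theorem coe_lift_sFam {N' : ℕ} (hMN : M ∣ N') (u : ℕ → (ZMod M)ˣ) {S : Set ℕ}
    (hst : ∀ (i : GoodPrime N' S) (y : Additive K →+ A), IsParabolicHom K y →
      IsParabolicHom K (tFam hK A hMN u i y)) (P : FreeAlgebra ℤ (GoodPrime N' S))
    (y : parabolicHoms ℤ K A) :
    ((FreeAlgebra.lift ℤ (sFam hK hMN u hst) P y : parabolicHoms ℤ K A) : Additive K →+ A) =
      FreeAlgebra.lift ℤ (tFam hK A hMN u) P (y : Additive K →+ A) :=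
  lift_intertwine (sFam hK hMN u hst) (tFam hK A hMN u)
    (parabolicHoms ℤ K A).subtype.toAddMonoidHom (fun _ _ => rfl) P y

/-- **From relations to the action.**  If `t_ℓ` preserves the parabolic classes with values in
`A` and the relations of the `T_ℓ` on `S₂(Γ₀(N'))` hold for the `t_ℓ` on them, the Hecke
algebra acts. -/
theorem exists_heckeAction_of_rel {N' : ℕ} [NeZero N'] (hMN : M ∣ N') (u : ℕ → (ZMod M)ˣ)
    (S : Set ℕ) (hS : ∀ q : ℕ, q.Prime → q ∣ N' → q ∈ S)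
    (hst : ∀ (i : GoodPrime N' S) (y : Additive K →+ A), IsParabolicHom K y →
      IsParabolicHom K (tFam hK A hMN u i y))
    (hrel : ∀ P : FreeAlgebra ℤ (GoodPrime N' S), FreeAlgebra.lift ℤ (heckeFam N' S) P = 0 →
      ∀ y : Additive K →+ A, IsParabolicHom K y → FreeAlgebra.lift ℤ (tFam hK A hMN u) P y = 0) :
    ∃ Φ : CuspForm.heckeAlgebra N' 2 S →+* Module.End ℤ (parabolicHoms ℤ K A),
      ∀ (ℓ : ℕ) [Fact ℓ.Prime] (hℓN : ¬ ℓ ∣ N') (hℓS : ℓ ∉ S) (φ : parabolicHoms ℤ K A),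
        ((Φ (CuspForm.heckeAlgebra.T (Fact.out : ℓ.Prime) hℓN hℓS) φ : parabolicHoms ℤ K A) :
          Additive K →+ A) = diamondU hK (u ℓ) (TK M K ℓ (φ : Additive K →+ A)) := by
  obtain ⟨Φ₀, hΦ₀, -⟩ := exists_ringHom_of_rel_gen (heckeFam N' S) (sFam hK hMN u hst)
    (fun P hP => LinearMap.ext fun y => Subtype.ext (by
      rw [coe_lift_sFam]
      exact hrel P hP y y.2))
  have heq := heckeAlgebra_eq_adjoin N' S hS
  refine ⟨Φ₀.comp (Subalgebra.equivOfEq _ _ heq).toRingEquiv.toRingHom, ?_⟩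
  intro ℓ _ hℓN hℓS φ
  have h1 : (Subalgebra.equivOfEq _ _ heq).toRingEquiv.toRingHom
      (CuspForm.heckeAlgebra.T (Fact.out : ℓ.Prime) hℓN hℓS) =
      ⟨heckeFam N' S ⟨ℓ, Fact.out, hℓN, hℓS⟩, Algebra.subset_adjoin ⟨_, rfl⟩⟩ := rfl
  rw [RingHom.comp_apply, h1, hΦ₀]
  rfl

end Abstract

variable [NeZero M] [K.FiniteIndex]

/-- **E5 (TW-ES + TW-TWIST), integral form.**  The Hecke algebra of `Γ₀(N')` (away from `S`)
acts on the parabolic classes `Hom_par(K, ℤ)` through `T_ℓ ↦ ⟨u ℓ⟩ ∘ T_ℓ`. -/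
theorem exists_heckeAction_int (hK : IsMid M K) {N' : ℕ} [NeZero N'] {u : ℕ → (ZMod M)ˣ}
    (H : EmbHyp K N' u) (S : Set ℕ) (hS : ∀ q : ℕ, q.Prime → q ∣ N' → q ∈ S) :
    ∃ Φ : CuspForm.heckeAlgebra N' 2 S →+* Module.End ℤ (parabolicHoms ℤ K ℤ),
      ∀ (ℓ : ℕ) [Fact ℓ.Prime] (hℓN : ¬ ℓ ∣ N') (hℓS : ℓ ∉ S) (φ : parabolicHoms ℤ K ℤ),
        ((Φ (CuspForm.heckeAlgebra.T (Fact.out : ℓ.Prime) hℓN hℓS) φ : parabolicHoms ℤ K ℤ) :
          Additive K →+ ℤ) = diamondU hK (u ℓ) (TK M K ℓ (φ : Additive K →+ ℤ)) :=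
  exists_heckeAction_of_rel hK H.dvd u S hS
    (fun i y hy => isParabolicHom_tFam_int hK H.dvd H.neg u i y hy)
    (fun P hP y hy => rel_int hK H S P hP y hy)

/-- **E5 (TW-ES + TW-TWIST), complex form.** -/
theorem exists_heckeAction_complex (hK : IsMid M K) {N' : ℕ} [NeZero N'] {u : ℕ → (ZMod M)ˣ}
    (H : EmbHyp K N' u) (S : Set ℕ) (hS : ∀ q : ℕ, q.Prime → q ∣ N' → q ∈ S) :
    ∃ Φ : CuspForm.heckeAlgebra N' 2 S →+* Module.End ℤ (parabolicHoms ℤ K ℂ),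
      ∀ (ℓ : ℕ) [Fact ℓ.Prime] (hℓN : ¬ ℓ ∣ N') (hℓS : ℓ ∉ S) (φ : parabolicHoms ℤ K ℂ),
        ((Φ (CuspForm.heckeAlgebra.T (Fact.out : ℓ.Prime) hℓN hℓS) φ : parabolicHoms ℤ K ℂ) :
          Additive K →+ ℂ) = diamondU hK (u ℓ) (TK M K ℓ (φ : Additive K →+ ℂ)) :=
  exists_heckeAction_of_rel hK H.dvd u S hS
    (fun i y hy => isParabolicHom_tFam_complex hK H.dvd H.neg u i y hy)
    (fun P hP y hy => rel_complex hK H S P hP y hy)

end Fermat.Agent.S59.TW.H658
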