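import Fermat.Agent.S59.TW.H658.CosetForm
import Fermat.Agent.S59.TW.H653.Diamond

/-!
# S59 / TW-ES (helper658), leaf E2: `T_ℓ` and diamonds on `S₂(K)`, `Γ₁(M) ≤ K ≤ Γ₀(M)`

For `hK : H653.IsMid M K` (e.g. `K = H653.GammaH M H`):

* `TForm hK hℓ : CuspForm K 2 →ₗ[ℂ] CuspForm K 2`, `⇑(TForm hK hℓ f) = ∑ₓ ⇑f ∣[2] repsT M ℓ x`;
  `perG_TForm : perG (TForm hK hℓ f) = H653.TK M K ℓ (perG f)`;
* `diaForm hK g : CuspForm K 2 →ₗ[ℂ] CuspForm K 2`, `⇑(diaForm hK g f) = ⇑f ∣[2] g`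
  (`g ∈ Γ₀(M)`); `perG_diaForm : perG (diaForm hK g f) = H653.diamond hK g (perG f)`.
-/

set_option autoImplicit false
set_option linter.unusedSectionVars false

noncomputable section

namespace Fermat.Agent.S59.TW.H658

open CongruenceSubgroup ModularCurve ModularCurve.Period ModularForm
open UpperHalfPlane hiding I
open Matrix.SpecialLinearGroup Fermat.Agent.S41.H761 Fermat.Agent.Lib.Newform.H803
open Fermat.Agent.S59.TW.H653 Fermat.Agent.S29.H642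
open scoped Manifold MatrixGroups ModularForm

variable {M : ℕ} {K : Subgroup SL(2, ℤ)}

theorem det_repsT_pos (M ℓ : ℕ) (x : OnePoint (ZMod ℓ)) :
    0 < ((repsT M ℓ x : GL (Fin 2) ℝ) : Matrix (Fin 2) (Fin 2) ℝ).det := by
  induction x using OnePoint.rec with
  | infty =>
    rw [repsT_infty, Matrix.GeneralLinearGroup.coe_mul, Matrix.det_mul]
    have h1 : ((ιN M (sigma M ℓ) : GL (Fin 2) ℝ) : Matrix (Fin 2) (Fin 2) ℝ).det = 1 :=
      Fermat.Agent.S21.H381.det_coe_SL _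
    rw [h1, one_mul]
    have := ModularForm.det_heckeDiagMatrix_pos ℓ
    rwa [Matrix.GeneralLinearGroup.val_det_apply] at this
  | coe j =>
    rw [repsT_coe]
    have := ModularForm.det_heckeMatrix_pos ℓ j.val
    rwa [Matrix.GeneralLinearGroup.val_det_apply] at this

theorem isCuspidal_slash_repsT {k : ℤ} (M : ℕ) {ℓ : ℕ} (hℓ0 : ℓ ≠ 0) (F : ℍ → ℂ)
    (hF : IsCuspidal k F) (x : OnePoint (ZMod ℓ)) : IsCuspidal k (F ∣[k] repsT M ℓ x) := by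
  induction x using OnePoint.rec with
  | infty =>
    rw [repsT_infty, SlashAction.slash_mul]
    exact (hF.slash_SL (sigma M ℓ : SL(2, ℤ))).slash_heckeDiagMatrix hℓ0
  | coe j =>
    rw [repsT_coe]
    exact hF.slash_heckeMatrix hℓ0 _

variable [K.FiniteIndex]

/-- `T_ℓ` on weight-2 cusp forms of `K`. -/
def TForm (hK : IsMid M K) {ℓ : ℕ} [Fact ℓ.Prime] (hℓ : ¬ ℓ ∣ M) :
    CuspForm K 2 →ₗ[ℂ] CuspForm K 2 :=
  cosetOp (repsT_system hK hℓ) (det_repsT_pos M ℓ)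
    (isCuspidal_slash_repsT M (Fact.out : ℓ.Prime).ne_zero)

@[simp] theorem coe_TForm (hK : IsMid M K) {ℓ : ℕ} [Fact ℓ.Prime] (hℓ : ¬ ℓ ∣ M)
    (f : CuspForm K 2) : (⇑(TForm hK hℓ f) : ℍ → ℂ) = famOp 2 (repsT M ℓ) ⇑f := rfl

/-- **E2 for `T_ℓ`.** -/
theorem perG_TForm (hK : IsMid M K) {ℓ : ℕ} [Fact ℓ.Prime] (hℓ : ¬ ℓ ∣ M) (f : CuspForm K 2) :
    perG (TForm hK hℓ f) = TK M K ℓ (perG f) := by
  rw [TK_eq hK hℓ]
  exact perG_cosetOp (repsT_system hK hℓ) _ _ f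

omit [K.FiniteIndex] in
theorem slInv_slash_of_isMid {k : ℤ} (hK : IsMid M K) (g : Gamma0 M) {F : ℍ → ℂ}
    (hF : SlInv k K F) : SlInv k K (F ∣[k] (g : SL(2, ℤ))) := by
  intro γ hγ
  have h1 : (g : SL(2, ℤ)) * γ = ((conjK hK g ⟨γ, hγ⟩ : K) : SL(2, ℤ)) * (g : SL(2, ℤ)) := by
    rw [conjK_coe]
    group
  rw [← SlashAction.slash_mul, h1, SlashAction.slash_mul, hF _ (conjK hK g ⟨γ, hγ⟩).2]

/-- The diamond operator `f ↦ f ∣ g`, `g ∈ Γ₀(M)`, on weight-2 cusp forms of `K`. -/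
def diaForm (hK : IsMid M K) (g : Gamma0 M) : CuspForm K 2 →ₗ[ℂ] CuspForm K 2 where
  toFun f := cuspFormOfIsCuspidal K ((⇑f : ℍ → ℂ) ∣[(2 : ℤ)] (g : SL(2, ℤ)))
    ((isCuspidal_of_cuspForm f).slash_SL _) (slInv_slash_of_isMid hK g (slInv_of_cuspForm f))
  map_add' f f' := DFunLike.coe_injective <| by
    show (⇑(f + f') : ℍ → ℂ) ∣[(2 : ℤ)] (g : SL(2, ℤ)) = _
    rw [FunLike.coe_add, SlashAction.add_slash]
    rfl
  map_smul' c f := DFunLike.coe_injective <| by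
    show (⇑(c • f) : ℍ → ℂ) ∣[(2 : ℤ)] (g : SL(2, ℤ)) = _
    rw [FunLike.coe_smul, ModularForm.SL_smul_slash]
    rfl

@[simp] theorem coe_diaForm (hK : IsMid M K) (g : Gamma0 M) (f : CuspForm K 2) :
    (⇑(diaForm hK g f) : ℍ → ℂ) = (⇑f : ℍ → ℂ) ∣[(2 : ℤ)] (g : SL(2, ℤ)) := rfl

/-- **E2 for the diamond operators.** -/
theorem perG_diaForm (hK : IsMid M K) (g : Gamma0 M) (f : CuspForm K 2) :
    perG (diaForm hK g f) = diamond hK g (perG f) := by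
  obtain ⟨F, hF⟩ := exists_isPrimG f
  refine AddMonoidHom.ext fun γ ↦ ?_
  obtain ⟨γ, rfl⟩ : ∃ γ' : K, Additive.ofMul γ' = γ := ⟨Additive.toMul γ, rfl⟩
  have hFa : IsPrimG (⇑(diaForm hK g f)) (fun w : ℍ ↦ F ((g : SL(2, ℤ)) • w)) := by
    rw [coe_diaForm]
    exact hF.comp_smul (g : SL(2, ℤ))
  rw [perG_apply (diaForm hK g f) hFa γ UpperHalfPlane.I, diamond_apply,
    perG_apply f hF (conjK hK g γ) ((g : SL(2, ℤ)) • UpperHalfPlane.I)]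
  have h1 : ((conjK hK g γ : K) : SL(2, ℤ)) • ((g : SL(2, ℤ)) • UpperHalfPlane.I) =
      (g : SL(2, ℤ)) • ((γ : SL(2, ℤ)) • UpperHalfPlane.I) := by
    rw [conjK_coe, ← mul_smul, ← mul_smul]
    congr 1
    group
  rw [h1]

end Fermat.Agent.S59.TW.H658
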