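import Mathlib
import Fermat.Prelude.Def_ModularCurve_PeriodMap

/-!
# S59 / TW-ES (helper658): levels

A *level* `L : Lev` is a subgroup `L.Γ ≤ SL(2,ℤ)` containing `-1` and the principal congruence
subgroup `Γ(L.N)`, `L.N ≠ 0`.  Examples: `Γ₀(N)`, and the groups `Γ₀(N) ∩ Γ_H(Q)` of the
Taylor–Wiles construction.  The Hodge existence theorem of S21 (every real parabolic
homomorphism is the real part of the period homomorphism of a weight-2 cusp form) is ported to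
every level in this directory.
-/

set_option autoImplicit false

open CongruenceSubgroup
open scoped MatrixGroups

namespace Fermat.Agent.S59.TW.H658

/-- A level: a subgroup of `SL(2,ℤ)` containing `-1` and `Γ(N)` for some `N ≠ 0`. -/
structure Lev where
  /-- a multiple of the widths of all cusps -/
  N : ℕ
  /-- the group -/
  Γ : Subgroup SL(2, ℤ)
  /-- `N ≠ 0` -/
  pos : N ≠ 0
  /-- `Γ(N) ≤ Γ` -/
  le : Gamma N ≤ Γ
  /-- `-1 ∈ Γ` -/
  neg : (-1 : SL(2, ℤ)) ∈ Γ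

namespace Lev

variable (L : Lev)

instance instNeZero : NeZero L.N := ⟨L.pos⟩

instance instFiniteIndex : L.Γ.FiniteIndex :=
  Subgroup.finiteIndex_of_le L.le

theorem conj_T_zpow_mem (δ : SL(2, ℤ)) (k : ℤ) :
    δ * ModularGroup.T ^ ((L.N : ℤ) * k) * δ⁻¹ ∈ L.Γ := by
  have h1 : ModularGroup.T ^ ((L.N : ℤ) * k) ∈ CongruenceSubgroup.Gamma L.N := by
    simpa using ModularGroup_T_pow_mem_Gamma (L.N : ℤ) ((L.N : ℤ) * k) (dvd_mul_right _ _)
  exact L.le ((Gamma_normal L.N).conj_mem _ h1 δ)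

/-- The level `Γ₀(N)`. -/
def gamma0 (N : ℕ) [NeZero N] : Lev where
  N := N
  Γ := Gamma0 N
  pos := NeZero.ne N
  le := fun g hg => by
    rw [Gamma_mem] at hg
    rw [Gamma0_mem]
    exact hg.2.2.1
  neg := by
    rw [Gamma0_mem]
    simp

/-- A level from a subgroup with the two properties. -/
def ofSubgroup (Γ : Subgroup SL(2, ℤ)) (N : ℕ) (hN : N ≠ 0) (hle : Gamma N ≤ Γ)
    (hneg : (-1 : SL(2, ℤ)) ∈ Γ) : Lev := ⟨N, Γ, hN, hle, hneg⟩

@[simp] theorem ofSubgroup_Γ (Γ : Subgroup SL(2, ℤ)) (N : ℕ) (hN : N ≠ 0) (hle : Gamma N ≤ Γ)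
    (hneg : (-1 : SL(2, ℤ)) ∈ Γ) : (ofSubgroup Γ N hN hle hneg).Γ = Γ := rfl

end Lev

end Fermat.Agent.S59.TW.H658
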