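import Fermat.Agent.S59.TW.H658.CuspG
import Fermat.Agent.S59.TW.H658.ModQRing
import Fermat.Agent.S59.TW.H564.GenNil

/-!
# S59 / cell TW and row HARD: the Hecke action on a localisation, for ANY level group (helper658)

`exists_action_of_isLocPart` : let `P : HeckePkg p 𝒪 ρ̄ t Smin Σ` be a Hecke package (any `Σ`),
`K` a group between `Γ₁(M)` and `Γ₀(M)`, `Qs` a list of distinct primes exactly dividing `M`,
and `e, k` natural numbers with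

* `Γ₀(M) ∩ Γ₁(∏ Qs) ⊆ K`            (the nebentypus of `K` is supported on `Qs`),
* `γ^(2e+1) ∈ K` for `γ ∈ Γ₀(M)`     (`e` is `-1/2` modulo the exponent of `Γ₀(M)/K`),
* `γ^(p^k) ∈ K` for `γ ∈ Γ₀(M)`      (`Γ₀(M)/K` is a `p`-group),
* `M · ∏ Qs ∣ N_Σ`.

Then the local Hecke ring `P.T = heckeLocal N_Σ Σ 𝒪 θ` acts on EVERY localisation
`V ⊆ X_K(𝒪)` at the eigen-system of `P` (`Aut.IsLocPart hK (TsetOf P) Uset V`, any `Uset`),
through the twisted operators `T_ℓ ↦ ⟨ℓ⟩^e T_ℓ` (`Aut.ActsBy P V a (Aut.tOpTw hK 𝒪 e)`).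

Instances: `K = Γ₀(N₀)` (`Qs = []`, `e = k = 0`: MOD0), `K = K_Q` (MODQ), `K = K_IA` (IA-MOD),
and the intermediate groups `Γ₀(L) ∩ Γ_H(Q)`, `Γ₀(M_Q) ∩ Γ_H(Q ∖ q_j)` of CMP-(T), IA-ST, IA-CTRL.

Proof = `isLocPart_parabolic_pkg` (CUSP) + `exists_heckeAction_sub_of_odd` (Eichler–Shimura for
`K`, nebentypus decomposition, twist embedding of helper564, base change `ℤ → 𝒪`) +
`H564.exists_locAction` (GENNIL + LOCACT, helper564).
-/

set_option autoImplicit false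
set_option linter.unusedSectionVars false
set_option linter.style.haveILetI false

noncomputable section

namespace Fermat.Agent.S59.TW.H658

open CongruenceSubgroup IsLocalRing Polynomial
open Fermat.Agent.S59.Arch Fermat.Agent.S59.TW.H959 Fermat.Agent.S59.TW.H653
open Fermat.Agent.S59.TW.Aut Fermat.Agent.S59
open scoped MatrixGroups

section Gen

variable {M : ℕ} {K : Subgroup SL(2, ℤ)}

/-- If `γ^n ∈ K` for all `γ ∈ Γ₀(M)`, the diamond operators of `K` are killed by `n`. -/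
theorem diamondU_pow_of_pow_mem [NeZero M] (hK : IsMid M K) {A : Type*} [AddCommGroup A]
    (n : ℕ) (hn : ∀ γ ∈ Gamma0 M, γ ^ n ∈ K) (u : (ZMod M)ˣ) (x : Additive K →+ A) :
    diamondU hK (u ^ n) x = x := by
  obtain ⟨g, rfl⟩ := dUnit_surjective u
  rw [diamondU_eq hK (g := g ^ n) (map_pow _ _ _)]
  exact diamond_of_mem hK (hn g g.2) x

variable {p : ℕ} [Fact p.Prime]
  {𝒪 : Type} [CommRing 𝒪] [IsDomain 𝒪] [IsDiscreteValuationRing 𝒪]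
  [IsAdicComplete (maximalIdeal 𝒪) 𝒪] [Finite (ResidueField 𝒪)] [CharZero 𝒪]
  {ρbar : ResidualGaloisRep (ResidueField 𝒪)} {t : PType} {Smin Sig : Finset ℕ}
  [NeZero (wilesLevel p t Smin Sig)]

/-- **The Hecke action on a localisation, generic form** (MOD0 / MODQ / IA-MOD and all the
intermediate levels). -/
theorem exists_action_of_isLocPart (h : ResidualHyp p 𝒪 ρbar Smin)
    (hpS : p ∈ Sig) (hSmin : Smin ⊆ Sig) (hSig : ∀ q ∈ Sig, q.Prime)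
    (P : HeckePkg p 𝒪 ρbar t Smin Sig) [NeZero M] (hK : IsMid M K)
    (Qs : List ℕ) (hnd : Qs.Nodup)
    (hQs : ∀ q ∈ Qs, q.Prime ∧ ∃ M', M = M' * q ∧ Nat.Coprime M' q)
    (hK1 : ∀ γ ∈ Gamma0 M, ((Qs.prod : ℕ) : ℤ) ∣ γ 1 1 - 1 → γ ∈ K)
    (e : ℕ) (hK2 : ∀ γ ∈ Gamma0 M, γ ^ (2 * e + 1) ∈ K)
    (k : ℕ) (hK3 : ∀ γ ∈ Gamma0 M, γ ^ p ^ k ∈ K)
    (hN' : M * Qs.prod ∣ wilesLevel p t Smin Sig)
    {Uset : Set (ℕ × 𝒪)} {V : Submodule 𝒪 (Additive K →+ 𝒪)}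
    (hV : IsLocPart hK (TsetOf P) Uset V) :
    ∃ a : P.T →ₐ[𝒪] Module.End 𝒪 V, ActsBy P V a (tOpTw hK 𝒪 e) := by
  have hp : p.Prime := Fact.out
  haveI : K.FiniteIndex := H564.finiteIndex_of_Gamma1_le hK.ge
  haveI : Fact (CuspForm.HasIntegralStructure (wilesLevel p t Smin Sig) 2) := P.integral
  have hMN : M ∣ wilesLevel p t Smin Sig := (Dvd.intro _ rfl).trans hN'
  have hS : ∀ q : ℕ, q.Prime → q ∣ wilesLevel p t Smin Sig → q ∈ ((Sig : Finset ℕ) : Set ℕ) :=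
    fun q hqp hqd => mem_of_dvd_wilesLevel_gen hpS hSmin hSig hqp hqd
  have hpar := isLocPart_parabolic_pkg h hpS hSmin hSig P hK hV
  obtain ⟨Ψ, hΨ⟩ := exists_heckeAction_sub_of_odd (R := 𝒪) hK Qs hnd hQs hK1 e hK2 hN'
    ((Sig : Finset ℕ) : Set ℕ) hS V hpar
    (fun ℓ _ hℓN _ v hv =>
      stable_of_isLocPart hK hV _ ℓ (fun hd => hℓN (hd.trans hMN)) v hv)
  obtain ⟨a, ha⟩ := H564.exists_locAction (θ := P.θ) hK hp h.hp2 h.hp𝒪 hMN hS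
    hV (fun ℓ hℓ hℓN hℓS c hc => ⟨hℓ, hℓN, hℓS, hc⟩)
    (fun ℓ => uOf M ℓ ^ e) k
    (fun ℓ x => diamondU_pow_of_pow_mem hK _ hK3 _ x)
    Ψ (fun ℓ _ hℓN hℓS v => hΨ ℓ hℓN hℓS v)
  refine ⟨a, ?_⟩
  intro ℓ hℓ hℓN hℓS v
  haveI : Fact ℓ.Prime := ⟨hℓ⟩
  rw [P.hπ, ha, hΨ ℓ hℓN hℓS v]
  rfl

end Gen

end Fermat.Agent.S59.TW.H658
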