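import Fermat.Agent.S59.TW.H658.HeckeForms
import Fermat.Agent.S59.TW.H564.TwistIter

/-!
# S59 / TW-ES (helper658), leaf E3: decomposition into nebentypus components (function level)

For a `Γ₁(M)`-invariant function `F : ℍ → ℂ` and a Dirichlet character `χ` modulo `M`,

  `nebProj k χ F = φ(M)⁻¹ ∑_{u ∈ (ℤ/M)ˣ} χ(u)⁻¹ F ∣[k] σ_u`

has nebentypus `χ` on `Γ₀(M)` (`H564.IsNeb k M (chiZ χ)`), `∑_χ nebProj k χ F = F`, and
`nebProj k χ F = 0` if `F` is invariant under `K ≤ Γ₀(M)` and `χ` is non-trivial on `K`.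
-/

set_option autoImplicit false
set_option linter.unusedSectionVars false

noncomputable section

namespace Fermat.Agent.S59.TW.H658

open CongruenceSubgroup ModularForm
open UpperHalfPlane hiding I
open Matrix.SpecialLinearGroup Fermat.Agent.Lib.Newform.H803
open Fermat.Agent.S59.TW.H653 Fermat.Agent.S59.TW.H564
open scoped Manifold MatrixGroups ModularForm

variable {M : ℕ} {k : ℤ}

/-- A Dirichlet character as a function on `ℤ`. -/
def chiZ (χ : DirichletCharacter ℂ M) : ℤ → ℂ := fun d => χ ((d : ℤ) : ZMod M)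

theorem chiZ_apply (χ : DirichletCharacter ℂ M) (d : ℤ) : chiZ χ d = χ ((d : ℤ) : ZMod M) := rfl

theorem isCharMod_chiZ (χ : DirichletCharacter ℂ M) : IsCharMod M (chiZ χ) := by
  refine ⟨by simp [chiZ], fun d d' h => ?_⟩
  have : ((d : ℤ) : ZMod M) = ((d' : ℤ) : ZMod M) := by
    rw [ZMod.intCast_eq_intCast_iff_dvd_sub]
    have := dvd_neg.mpr h
    simpa using this
  rw [chiZ, chiZ, this]

theorem chiZ_of_mem (χ : DirichletCharacter ℂ M) (g : Gamma0 M) :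
    chiZ χ ((g : SL(2, ℤ)) 1 1) = χ ((dUnit M g : (ZMod M)ˣ) : ZMod M) := by
  rw [chiZ, coe_dUnit]

/-- Slashing a `Γ₁(M)`-invariant function by `g ∈ Γ₀(M)` only depends on `d(g) mod M`. -/
theorem slash_eq_of_dUnit_eq {F : ℍ → ℂ} (hF : SlInv k (Gamma1 M) F) {g g' : Gamma0 M}
    (h : dUnit M g = dUnit M g') :
    F ∣[k] (g : SL(2, ℤ)) = F ∣[k] (g' : SL(2, ℤ)) := by
  have h1 : dUnit M (g * g'⁻¹) = 1 := by
    rw [map_mul, map_inv, h, mul_inv_cancel]
  have h2 : ((g * g'⁻¹ : Gamma0 M) : SL(2, ℤ)) ∈ Gamma1 M := mem_Gamma1_of_dUnit h1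
  have h3 : (g : SL(2, ℤ)) = ((g * g'⁻¹ : Gamma0 M) : SL(2, ℤ)) * (g' : SL(2, ℤ)) := by
    simp
  rw [h3, SlashAction.slash_mul, hF _ h2]

variable [NeZero M]

/-- The chosen element of `Γ₀(M)` with `d ≡ u`. -/
def sg (u : (ZMod M)ˣ) : Gamma0 M := sigma M (u : ZMod M).val

@[simp] theorem dUnit_sg (u : (ZMod M)ˣ) : dUnit M (sg u) = u := dUnit_sigma_val u

/-- The projector onto the nebentypus-`χ` component. -/
def nebProj (k : ℤ) (χ : DirichletCharacter ℂ M) (F : ℍ → ℂ) : ℍ → ℂ :=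
  ((M.totient : ℂ)⁻¹) •
    ∑ u : (ZMod M)ˣ, χ ((u⁻¹ : (ZMod M)ˣ) : ZMod M) • F ∣[k] ((sg u : Gamma0 M) : SL(2, ℤ))

theorem nebProj_add (χ : DirichletCharacter ℂ M) (F G : ℍ → ℂ) :
    nebProj k χ (F + G) = nebProj k χ F + nebProj k χ G := by
  simp only [nebProj, SlashAction.add_slash, smul_add, Finset.sum_add_distrib]

theorem nebProj_smul (χ : DirichletCharacter ℂ M) (c : ℂ) (F : ℍ → ℂ) :
    nebProj k χ (c • F) = c • nebProj k χ F := by
  simp only [nebProj, ModularForm.SL_smul_slash, Finset.smul_sum]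
  refine Finset.sum_congr rfl fun u _ => ?_
  simp only [smul_smul]
  congr 1
  ring

theorem isCuspidal_nebProj (χ : DirichletCharacter ℂ M) {F : ℍ → ℂ} (hF : IsCuspidal k F) :
    IsCuspidal k (nebProj k χ F) := by
  rw [← mem_cuspSub, nebProj]
  refine Submodule.smul_mem _ _ (Submodule.sum_mem _ fun u _ => Submodule.smul_mem _ _ ?_)
  exact hF.slash_SL _

theorem nebProj_slash (χ : DirichletCharacter ℂ M) {F : ℍ → ℂ} (hF : SlInv k (Gamma1 M) F)
    (g : Gamma0 M) :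
    (nebProj k χ F) ∣[k] (g : SL(2, ℤ)) =
      χ ((dUnit M g : (ZMod M)ˣ) : ZMod M) • nebProj k χ F := by
  set v := dUnit M g with hv
  have key : ∀ u : (ZMod M)ˣ, (F ∣[k] ((sg u : Gamma0 M) : SL(2, ℤ))) ∣[k] (g : SL(2, ℤ))
      = F ∣[k] ((sg (u * v) : Gamma0 M) : SL(2, ℤ)) := by
    intro u
    rw [← SlashAction.slash_mul]
    have : (((sg u : Gamma0 M) : SL(2, ℤ)) * (g : SL(2, ℤ))) = ((sg u * g : Gamma0 M) : SL(2, ℤ)) :=
      rfl
    rw [this]
    apply slash_eq_of_dUnit_eq hF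
    rw [map_mul, dUnit_sg, dUnit_sg]
  have h1 : (nebProj k χ F) ∣[k] (g : SL(2, ℤ)) = ((M.totient : ℂ)⁻¹) •
      ∑ u : (ZMod M)ˣ, χ ((u⁻¹ : (ZMod M)ˣ) : ZMod M) •
        F ∣[k] ((sg (u * v) : Gamma0 M) : SL(2, ℤ)) := by
    rw [nebProj, ModularForm.SL_smul_slash, SlashAction.sum_slash]
    congr 1
    refine Finset.sum_congr rfl fun u _ => ?_
    rw [ModularForm.SL_smul_slash, key]
  have h2 : ∑ u : (ZMod M)ˣ, χ ((u⁻¹ : (ZMod M)ˣ) : ZMod M) •
        F ∣[k] ((sg (u * v) : Gamma0 M) : SL(2, ℤ)) =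
      ∑ u : (ZMod M)ˣ, χ (((u * v⁻¹)⁻¹ : (ZMod M)ˣ) : ZMod M) •
        F ∣[k] ((sg u : Gamma0 M) : SL(2, ℤ)) := by
    refine Fintype.sum_equiv (Equiv.mulRight v) _ _ fun u => ?_
    rw [Equiv.coe_mulRight, mul_inv_cancel_right]
  have h3 : ∀ u : (ZMod M)ˣ, χ (((u * v⁻¹)⁻¹ : (ZMod M)ˣ) : ZMod M) =
      χ ((v : (ZMod M)ˣ) : ZMod M) * χ ((u⁻¹ : (ZMod M)ˣ) : ZMod M) := by
    intro u
    rw [mul_inv_rev, inv_inv, Units.val_mul, map_mul]
  rw [h1, h2, nebProj, smul_comm (χ ((v : (ZMod M)ˣ) : ZMod M)) ((M.totient : ℂ)⁻¹)]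
  congr 1
  rw [Finset.smul_sum]
  refine Finset.sum_congr rfl fun u _ => ?_
  rw [h3, mul_smul]

/-- `nebProj k χ F` has nebentypus `χ`. -/
theorem isNeb_nebProj (χ : DirichletCharacter ℂ M) {F : ℍ → ℂ} (hF : SlInv k (Gamma1 M) F) :
    IsNeb k M (chiZ χ) (nebProj k χ F) := by
  intro γ hγ
  have := nebProj_slash χ hF ⟨γ, hγ⟩
  rw [← chiZ_of_mem] at this
  exact this

/-- The nebentypus components sum to `F`. -/
theorem sum_nebProj {F : ℍ → ℂ} (hF : SlInv k (Gamma1 M) F) :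
    ∑ χ : DirichletCharacter ℂ M, nebProj k χ F = F := by
  simp only [nebProj]
  rw [← Finset.smul_sum, Finset.sum_comm]
  simp only [← Finset.sum_smul]
  have h1 : ∀ d : (ZMod M)ˣ,
      (∑ χ : DirichletCharacter ℂ M, χ ((d⁻¹ : (ZMod M)ˣ) : ZMod M)) =
        if d = 1 then (M.totient : ℂ) else 0 := by
    intro d
    rw [DirichletCharacter.sum_characters_eq]
    congr 1
    rw [eq_iff_iff]
    constructor
    · intro h
      have : (d⁻¹ : (ZMod M)ˣ) = 1 := Units.ext h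
      simpa using this
    · rintro rfl
      simp
  simp only [h1]
  rw [Finset.sum_eq_single (1 : (ZMod M)ˣ)]
  · rw [if_pos rfl, smul_smul, inv_mul_cancel₀, one_smul]
    · have h2 : F ∣[k] ((sg (1 : (ZMod M)ˣ) : Gamma0 M) : SL(2, ℤ))
          = F ∣[k] (((1 : Gamma0 M) : Gamma0 M) : SL(2, ℤ)) :=
        slash_eq_of_dUnit_eq hF (by rw [dUnit_sg, map_one])
      rw [h2]
      exact SlashAction.slash_one k F
    · exact_mod_cast (Nat.totient_pos.mpr (NeZero.pos M)).ne'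
  · intro d _ hd
    rw [if_neg hd, zero_smul]
  · intro h
    exact absurd (Finset.mem_univ _) h

/-- The `χ`-component of a `K`-invariant function vanishes if `χ` is non-trivial on `K`. -/
theorem nebProj_eq_zero {K : Subgroup SL(2, ℤ)} (hK : IsMid M K) (χ : DirichletCharacter ℂ M)
    {F : ℍ → ℂ} (hF : SlInv k K F) {g : Gamma0 M} (hg : (g : SL(2, ℤ)) ∈ K)
    (hχ : χ ((dUnit M g : (ZMod M)ˣ) : ZMod M) ≠ 1) : nebProj k χ F = 0 := by
  have hF1 : SlInv k (Gamma1 M) F := hF.mono hK.ge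
  have h1 := nebProj_slash χ hF1 g
  have h2 : (nebProj k χ F) ∣[k] (g : SL(2, ℤ)) = nebProj k χ F := by
    rw [nebProj, ModularForm.SL_smul_slash, SlashAction.sum_slash]
    congr 1
    refine Finset.sum_congr rfl fun u _ => ?_
    rw [ModularForm.SL_smul_slash]
    congr 1
    have h3 : ((sg u : Gamma0 M) : SL(2, ℤ)) * (g : SL(2, ℤ))
        = (((sg u : Gamma0 M) : SL(2, ℤ)) * (g : SL(2, ℤ)) * ((sg u : Gamma0 M) : SL(2, ℤ))⁻¹)
          * ((sg u : Gamma0 M) : SL(2, ℤ)) := by group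
    rw [← SlashAction.slash_mul, h3, SlashAction.slash_mul, hF _ (hK.conj_mem (sg u) hg)]
  rw [h2] at h1
  have h4 : (χ ((dUnit M g : (ZMod M)ˣ) : ZMod M) - 1) • nebProj k χ F = 0 := by
    rw [sub_smul, one_smul, ← h1, sub_self]
  rcases smul_eq_zero.mp h4 with h5 | h5
  · exact absurd (sub_eq_zero.mp h5) hχ
  · exact h5

end Fermat.Agent.S59.TW.H658
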