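import Fermat.Agent.S59.TW.H658.Neb

/-!
# S59 / TW-ES (helper658), leaf E5a: the nebentypus components as Hecke modules

For a Dirichlet character `χ` modulo `M`:

* `nebSub M χ : Submodule ℂ (ℍ → ℂ)` : the cuspidal functions of weight `2` with nebentypus `χ`
  on `Γ₀(M)`;
* `isNeb_famOp_repsT` : `F ↦ ∑ₓ F ∣ repsT M ℓ x` preserves the nebentypus;
* `famOp_repsT_eq` : on nebentypus `χ`, `∑ₓ F ∣ repsT M ℓ x = U_ℓ F + χ(ℓ) F ∣ diag(ℓ, 1)`;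
* `nebT χ hℓ c : nebSub M χ →ₗ[ℂ] nebSub M χ`, `F ↦ c • ∑ₓ F ∣ repsT M ℓ x`;
* `nebForm hK χ hχ : nebSub M χ →ₗ[ℂ] CuspForm K 2` if `χ` is trivial on `K`;
* `perG_nebForm_nebT` : `perG (nebForm (nebT χ hℓ (χ u) F)) = ⟨u⟩ T_ℓ (perG (nebForm F))`;
* `exists_nebForm_sum` : every `f ∈ S₂(K)` is the sum of its nebentypus components.
-/

set_option autoImplicit false
set_option linter.unusedSectionVars false

noncomputable section

namespace Fermat.Agent.S59.TW.H658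

open CongruenceSubgroup ModularForm ModularCurve ModularCurve.Period
open UpperHalfPlane hiding I
open Matrix.SpecialLinearGroup Fermat.Agent.Lib.Newform.H803
open Fermat.Agent.S41.H761 Fermat.Agent.S29.H642
open Fermat.Agent.S59.TW.H653 Fermat.Agent.S59.TW.H564
open scoped Manifold MatrixGroups ModularForm

variable {M : ℕ}

/-- Scalars pass through the slash by a matrix of positive determinant. -/
theorem smul_slash_of_det_pos {k : ℤ} (c : ℂ) (F : ℍ → ℂ) {g : GL (Fin 2) ℝ}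
    (hg : 0 < ((g : GL (Fin 2) ℝ) : Matrix (Fin 2) (Fin 2) ℝ).det) :
    (c • F) ∣[k] g = c • F ∣[k] g := by
  have hσ : UpperHalfPlane.σ g = .refl ℝ ℂ := by
    rw [UpperHalfPlane.σ, if_pos]
    rwa [← Matrix.GeneralLinearGroup.val_det_apply] at hg
  rw [ModularForm.smul_slash, hσ]
  rfl

/-- The operator `∑ₓ F ∣ repsT M ℓ x` preserves the nebentypus. -/
theorem isNeb_famOp_repsT (χ : DirichletCharacter ℂ M) {ℓ : ℕ} [Fact ℓ.Prime] (hℓ : ¬ ℓ ∣ M)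
    {F : ℍ → ℂ} (hF : IsNeb 2 M (chiZ χ) F) :
    IsNeb 2 M (chiZ χ) (famOp 2 (repsT M ℓ) F) := by
  intro γ hγ
  have h₀ := repsT_system0 (M := M) hℓ
  have key : ∀ i : OnePoint (ZMod ℓ), (F ∣[(2 : ℤ)] repsT M ℓ i) ∣[(2 : ℤ)] γ =
      chiZ χ (γ 1 1) • F ∣[(2 : ℤ)] repsT M ℓ (h₀.act i ⟨γ, hγ⟩) := by
    intro i
    have hs := h₀.spec i ⟨γ, hγ⟩
    rw [ιN_apply, ιN_apply] at hs
    have hd := dUnit_coc h₀ (isNormRep_repsT hℓ) i ⟨γ, hγ⟩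
    have hc : chiZ χ (((h₀.coc i ⟨γ, hγ⟩ : Gamma0 M) : SL(2, ℤ)) 1 1) = chiZ χ (γ 1 1) := by
      rw [chiZ_of_mem, hd, ← chiZ_of_mem]
    rw [sl_slash_mapGL, ← SlashAction.slash_mul, hs, SlashAction.slash_mul, ← sl_slash_mapGL,
      hF _ (h₀.coc i ⟨γ, hγ⟩).2, smul_slash_of_det_pos _ _ (det_repsT_pos M ℓ _), hc]
  rw [famOp, SlashAction.sum_slash]
  simp only [key]
  rw [← Finset.smul_sum]
  congr 1
  exact Equiv.sum_comp (h₀.actEquiv ⟨γ, hγ⟩) (fun j => F ∣[(2 : ℤ)] repsT M ℓ j)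

theorem sum_zmod_val_eq_sum_range {A : Type*} [AddCommMonoid A] {ℓ : ℕ} [NeZero ℓ]
    (g : ℕ → A) : ∑ j : ZMod ℓ, g j.val = ∑ j ∈ Finset.range ℓ, g j := by
  rcases ℓ with _ | n
  · exact absurd rfl (NeZero.ne 0)
  · exact Fin.sum_univ_eq_sum_range g (n + 1)

/-- On nebentypus `χ`: `∑ₓ F ∣ repsT M ℓ x = U_ℓ F + χ(ℓ) F ∣ diag(ℓ, 1)`. -/
theorem famOp_repsT_eq (χ : DirichletCharacter ℂ M) {ℓ : ℕ} [NeZero ℓ]
    (hcop : Nat.Coprime ℓ M) {F : ℍ → ℂ} (hF : IsNeb 2 M (chiZ χ) F) :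
    famOp 2 (repsT M ℓ) F =
      heckeU 2 ℓ F + chiZ χ (ℓ : ℤ) • F ∣[(2 : ℤ)] heckeDiagMatrix ℓ := by
  have h1 : famOp 2 (repsT M ℓ) F = F ∣[(2 : ℤ)] repsT M ℓ OnePoint.infty +
      ∑ j : ZMod ℓ, F ∣[(2 : ℤ)] repsT M ℓ (j : OnePoint (ZMod ℓ)) := by
    rw [famOp]
    exact Fintype.sum_option _
  have h2 : F ∣[(2 : ℤ)] repsT M ℓ OnePoint.infty =
      chiZ χ (ℓ : ℤ) • F ∣[(2 : ℤ)] heckeDiagMatrix ℓ := by
    rw [repsT_infty, SlashAction.slash_mul, ιN_apply, ← sl_slash_mapGL,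
      hF _ (sigma M ℓ).2, (sigma_spec hcop).2.2.2.1,
      smul_slash_of_det_pos _ _ (by
        have := ModularForm.det_heckeDiagMatrix_pos ℓ
        rwa [Matrix.GeneralLinearGroup.val_det_apply] at this)]
  have h3 : ∑ j : ZMod ℓ, F ∣[(2 : ℤ)] repsT M ℓ (j : OnePoint (ZMod ℓ)) = heckeU 2 ℓ F := by
    simp only [repsT_coe]
    exact sum_zmod_val_eq_sum_range (fun j => F ∣[(2 : ℤ)] heckeMatrix ℓ j)
  rw [h1, h2, h3, add_comm]

/-! ## The nebentypus components -/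

/-- The cuspidal functions of weight `2` and nebentypus `χ` on `Γ₀(M)`. -/
def nebSub (M : ℕ) (χ : DirichletCharacter ℂ M) : Submodule ℂ (ℍ → ℂ) where
  carrier := {F | IsCuspidal 2 F ∧ IsNeb 2 M (chiZ χ) F}
  add_mem' := fun {F G} hF hG =>
    ⟨mem_cuspSub.mp ((cuspSub 2).add_mem (mem_cuspSub.mpr hF.1) (mem_cuspSub.mpr hG.1)),
      fun γ hγ => by rw [SlashAction.add_slash, hF.2 γ hγ, hG.2 γ hγ, smul_add]⟩
  zero_mem' := ⟨mem_cuspSub.mp (cuspSub 2).zero_mem,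
    fun γ hγ => by rw [SlashAction.zero_slash, smul_zero]⟩
  smul_mem' := fun c F hF =>
    ⟨mem_cuspSub.mp ((cuspSub 2).smul_mem c (mem_cuspSub.mpr hF.1)),
      fun γ hγ => by rw [ModularForm.SL_smul_slash, hF.2 γ hγ, smul_comm]⟩

theorem mem_nebSub {χ : DirichletCharacter ℂ M} {F : ℍ → ℂ} :
    F ∈ nebSub M χ ↔ IsCuspidal 2 F ∧ IsNeb 2 M (chiZ χ) F := Iff.rfl

/-- `F ↦ c • ∑ₓ F ∣ repsT M ℓ x` on the nebentypus-`χ` component. -/
def nebT (χ : DirichletCharacter ℂ M) {ℓ : ℕ} [Fact ℓ.Prime] (hℓ : ¬ ℓ ∣ M) (c : ℂ) :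
    nebSub M χ →ₗ[ℂ] nebSub M χ where
  toFun F := ⟨c • famOp 2 (repsT M ℓ) (F : ℍ → ℂ), (nebSub M χ).smul_mem c
    ⟨isCuspidal_famOp (isCuspidal_slash_repsT M (Fact.out : ℓ.Prime).ne_zero) F.2.1,
      isNeb_famOp_repsT χ hℓ F.2.2⟩⟩
  map_add' F G := Subtype.ext <| by
    show c • famOp 2 (repsT M ℓ) ((F : ℍ → ℂ) + (G : ℍ → ℂ)) = _
    rw [famOp_add, smul_add]
    rfl
  map_smul' a F := Subtype.ext <| by
    show c • famOp 2 (repsT M ℓ) (a • (F : ℍ → ℂ)) = a • (c • famOp 2 (repsT M ℓ) (F : ℍ → ℂ))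
    rw [famOp_smul _ (det_repsT_pos M ℓ), smul_comm]

@[simp] theorem coe_nebT (χ : DirichletCharacter ℂ M) {ℓ : ℕ} [Fact ℓ.Prime] (hℓ : ¬ ℓ ∣ M)
    (c : ℂ) (F : nebSub M χ) :
    ((nebT χ hℓ c F : nebSub M χ) : ℍ → ℂ) = c • famOp 2 (repsT M ℓ) (F : ℍ → ℂ) := rfl

variable {K : Subgroup SL(2, ℤ)}

/-- `χ` is trivial on (the image of) `K`. -/
def TrivOn (K : Subgroup SL(2, ℤ)) (χ : DirichletCharacter ℂ M) : Prop :=
  ∀ g : Gamma0 M, (g : SL(2, ℤ)) ∈ K → χ ((dUnit M g : (ZMod M)ˣ) : ZMod M) = 1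

theorem slInv_of_mem_nebSub (hK : IsMid M K) {χ : DirichletCharacter ℂ M} (hχ : TrivOn K χ)
    {F : ℍ → ℂ} (hF : F ∈ nebSub M χ) : SlInv 2 K F := by
  intro γ hγ
  rw [hF.2 γ (hK.le hγ), chiZ_of_mem χ ⟨γ, hK.le hγ⟩, hχ ⟨γ, hK.le hγ⟩ hγ, one_smul]

variable [K.FiniteIndex]

/-- The nebentypus-`χ` component inside `S₂(K)`, for `χ` trivial on `K`. -/
def nebForm (hK : IsMid M K) (χ : DirichletCharacter ℂ M) (hχ : TrivOn K χ) :
    nebSub M χ →ₗ[ℂ] CuspForm K 2 where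
  toFun F := cuspFormOfIsCuspidal K (F : ℍ → ℂ) F.2.1 (slInv_of_mem_nebSub hK hχ F.2)
  map_add' F G := DFunLike.coe_injective <| by
    show ((F : ℍ → ℂ) + (G : ℍ → ℂ)) = _
    rw [FunLike.coe_add]
    rfl
  map_smul' a F := DFunLike.coe_injective <| by
    show (a • (F : ℍ → ℂ)) = _
    rw [RingHom.id_apply, FunLike.coe_smul]
    rfl

@[simp] theorem coe_nebForm (hK : IsMid M K) (χ : DirichletCharacter ℂ M) (hχ : TrivOn K χ)
    (F : nebSub M χ) : (⇑(nebForm hK χ hχ F) : ℍ → ℂ) = (F : ℍ → ℂ) := rfl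

/-- **E2 on the `χ`-component**: the period map intertwines `χ(u) • ∑ₓ · ∣ repsT M ℓ x` with
`⟨u⟩ ∘ T_ℓ`. -/
theorem perG_nebForm_nebT [NeZero M] (hK : IsMid M K) (χ : DirichletCharacter ℂ M)
    (hχ : TrivOn K χ) {ℓ : ℕ} [Fact ℓ.Prime] (hℓ : ¬ ℓ ∣ M) (u : (ZMod M)ˣ) (F : nebSub M χ) :
    perG (nebForm hK χ hχ (nebT χ hℓ (χ (u : ZMod M)) F)) =
      diamondU hK u (TK M K ℓ (perG (nebForm hK χ hχ F))) := by
  rw [← perG_TForm hK hℓ, diamondU_eq hK (dUnit_sg u), ← perG_diaForm]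
  congr 1
  apply DFunLike.coe_injective
  rw [coe_nebForm, coe_nebT, coe_diaForm, coe_TForm, coe_nebForm,
    isNeb_famOp_repsT χ hℓ F.2.2 _ (sg u).2, chiZ_of_mem, dUnit_sg]

/-! ## Decomposition of `S₂(K)` -/

instance instFintypeTrivOn [NeZero M] (K : Subgroup SL(2, ℤ)) :
    Fintype {χ : DirichletCharacter ℂ M // TrivOn K χ} := Fintype.ofFinite _

/-- Every `f ∈ S₂(K)` is the sum of its nebentypus components (only characters trivial on `K`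
occur). -/
theorem exists_nebForm_sum [NeZero M] (hK : IsMid M K) (f : CuspForm K 2) :
    ∃ w : ∀ χ : {χ : DirichletCharacter ℂ M // TrivOn K χ}, nebSub M χ.1,
      f = ∑ χ : {χ : DirichletCharacter ℂ M // TrivOn K χ}, nebForm hK χ.1 χ.2 (w χ) := by
  classical
  have hF : SlInv 2 K (⇑f : ℍ → ℂ) := slInv_of_cuspForm f
  have hF1 : SlInv 2 (Gamma1 M) (⇑f : ℍ → ℂ) := hF.mono hK.ge
  have hc : IsCuspidal 2 (⇑f : ℍ → ℂ) := isCuspidal_of_cuspForm f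
  refine ⟨fun χ => ⟨nebProj 2 χ.1 ⇑f, isCuspidal_nebProj χ.1 hc, isNeb_nebProj χ.1 hF1⟩, ?_⟩
  apply DFunLike.coe_injective
  have hsum : ∀ (s : Finset {χ : DirichletCharacter ℂ M // TrivOn K χ})
      (w : ∀ χ : {χ : DirichletCharacter ℂ M // TrivOn K χ}, nebSub M χ.1),
      (⇑(∑ χ ∈ s, nebForm hK χ.1 χ.2 (w χ)) : ℍ → ℂ) = ∑ χ ∈ s, ((w χ : nebSub M χ.1) : ℍ → ℂ) := by
    intro s w
    induction s using Finset.induction_on with
    | empty => simp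
    | insert a s ha ih =>
      rw [Finset.sum_insert ha, Finset.sum_insert ha, FunLike.coe_add, ih, coe_nebForm]
  rw [hsum]
  show (⇑f : ℍ → ℂ) = ∑ χ : {χ : DirichletCharacter ℂ M // TrivOn K χ}, nebProj 2 χ.1 ⇑f
  have h0 : ∀ χ : DirichletCharacter ℂ M, ¬ TrivOn K χ → nebProj 2 χ (⇑f : ℍ → ℂ) = 0 := by
    intro χ hχ
    rw [TrivOn] at hχ
    push Not at hχ
    obtain ⟨g, hg, hne⟩ := hχ
    exact nebProj_eq_zero hK χ hF hg hne
  conv_lhs => rw [← sum_nebProj hF1]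
  rw [← Finset.sum_subtype (Finset.univ.filter fun χ : DirichletCharacter ℂ M => TrivOn K χ)
    (fun χ => by simp) (fun χ => nebProj 2 χ (⇑f : ℍ → ℂ))]
  rw [Finset.sum_filter]
  refine Finset.sum_congr rfl fun χ _ => ?_
  split_ifs with h
  · rfl
  · exact h0 χ h

end Fermat.Agent.S59.TW.H658
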