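import Fermat.Agent.S59.TW.H658.PerG
import Fermat.Agent.S29.H201.PeriodHecke
import Fermat.Agent.S41.H761.CosetSystem

/-!
# S59 / TW-ES (helper658), leaf E2: the period map intertwines coset operators with transfers

Let `Γ, Γ' ≤ SL(2,ℤ)` be of finite index and `ρ : I → GL(2,ℝ)⁺` a coset system from `Γ` to `Γ'`
(`S41.H761.IsCosetSystem`: `ρ i * γ' = coc i γ' * ρ (act i γ')`).  If `f ∈ S₂(Γ)` and
`g ∈ S₂(Γ')` satisfy `g = ∑ i, f ∣[2] ρ i` as functions, then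

  `perG g = h.transfer (perG f)`     (`perG_eq_transfer`).

Special cases: Hecke operators `T_ℓ`, `U_q` (`Γ = Γ'`), diamond operators (`I = Unit`,
`ρ = g ∈ Γ₀(M)`), restriction and trace maps.
-/

set_option autoImplicit false
set_option linter.unusedSectionVars false

noncomputable section

namespace Fermat.Agent.S59.TW.H658

open CongruenceSubgroup ModularCurve ModularCurve.Period Filter Topology Function Complex
open UpperHalfPlane hiding I
open Matrix.SpecialLinearGroup Fermat.Agent.S41.H761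
open scoped Manifold MatrixGroups ModularForm

variable {Γ Γ' : Subgroup SL(2, ℤ)} [Γ.FiniteIndex] [Γ'.FiniteIndex]

/-- The embedding of a subgroup of `SL(2,ℤ)` into `GL(2,ℝ)`. -/
def ιG (Γ : Subgroup SL(2, ℤ)) : Γ →* GL (Fin 2) ℝ := (mapGL ℝ).comp Γ.subtype

@[simp] theorem ιG_apply (Γ : Subgroup SL(2, ℤ)) (γ : Γ) : ιG Γ γ = mapGL ℝ (γ : SL(2, ℤ)) := rfl

theorem SL_smul_eq_mapGL_smulG (γ : SL(2, ℤ)) (τ : ℍ) : γ • τ = (mapGL ℝ γ) • τ := rfl

variable {I : Type*} [Fintype I]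

/-- The transform of a primitive by a family of matrices. -/
def sumPrim (ρ : I → GL (Fin 2) ℝ) (F : ℍ → ℂ) : ℍ → ℂ := fun τ ↦ ∑ i, F (ρ i • τ)

theorem isPrimG_sumPrim (ρ : I → GL (Fin 2) ℝ)
    (hdet : ∀ i, 0 < ((ρ i : GL (Fin 2) ℝ) : Matrix (Fin 2) (Fin 2) ℝ).det)
    {f F : ℍ → ℂ} (hF : IsPrimG f F) :
    IsPrimG (∑ i, f ∣[(2 : ℤ)] ρ i) (sumPrim ρ F) := by
  intro τ
  have hsum : (sumPrim ρ F ∘ ofComplex)
      = fun z ↦ ∑ i, ((fun w : ℍ ↦ F (ρ i • w)) ∘ ofComplex) z := by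
    funext z
    rfl
  rw [hsum, Finset.sum_apply]
  exact HasDerivAt.fun_sum fun i _ ↦
    Fermat.Agent.S29.H201.hasDerivAt_comp_smul_GL hF (ρ i) (hdet i) τ

/-- **E2 (generic).**  The period map intertwines the operator `f ↦ ∑ i, f ∣[2] ρ i` of a coset
system with its transfer. -/
theorem perG_eq_transfer {ρ : I → GL (Fin 2) ℝ} (h : IsCosetSystem (ιG Γ) (ιG Γ') ρ)
    (hdet : ∀ i, 0 < ((ρ i : GL (Fin 2) ℝ) : Matrix (Fin 2) (Fin 2) ℝ).det)
    (f : CuspForm Γ 2) (g : CuspForm Γ' 2)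
    (hg : (⇑g : ℍ → ℂ) = ∑ i, (⇑f : ℍ → ℂ) ∣[(2 : ℤ)] ρ i) :
    perG g = h.transfer (perG f) := by
  obtain ⟨F, hF⟩ := exists_isPrimG f
  have hG : IsPrimG (⇑g) (sumPrim ρ F) := by
    rw [hg]
    exact isPrimG_sumPrim ρ hdet hF
  refine AddMonoidHom.ext fun γ ↦ ?_
  obtain ⟨γ, rfl⟩ : ∃ γ' : Γ', Additive.ofMul γ' = γ := ⟨Additive.toMul γ, rfl⟩
  rw [perG_apply g hG γ UpperHalfPlane.I, IsCosetSystem.transfer_apply]
  have key : ∀ i : I, F (ρ i • ((γ : SL(2, ℤ)) • UpperHalfPlane.I))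
      = F (ρ (h.act i γ) • UpperHalfPlane.I) + perG f (Additive.ofMul (h.coc i γ)) := by
    intro i
    have h1 : ρ i • ((γ : SL(2, ℤ)) • UpperHalfPlane.I)
        = ((h.coc i γ : Γ) : SL(2, ℤ)) • (ρ (h.act i γ) • UpperHalfPlane.I) := by
      rw [SL_smul_eq_mapGL_smulG, SL_smul_eq_mapGL_smulG, ← mul_smul, ← mul_smul]
      have := h.spec i γ
      rw [ιG_apply, ιG_apply] at this
      rw [this]
    rw [h1, perG_apply f hF (h.coc i γ) (ρ (h.act i γ) • UpperHalfPlane.I)]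
    ring
  unfold sumPrim
  simp only [key, Finset.sum_add_distrib]
  have hperm : ∑ x, F (ρ (h.act x γ) • UpperHalfPlane.I) = ∑ i, F (ρ i • UpperHalfPlane.I) :=
    Equiv.sum_comp (h.actEquiv γ) (fun j ↦ F (ρ j • UpperHalfPlane.I))
  rw [hperm]
  ring

end Fermat.Agent.S59.TW.H658
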