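import Fermat.Agent.S59.TW.H658.NebOps

/-!
# S59 / TW-ES (helper658), leaf E5b: twisting the nebentypus components to `Γ₀(N')`

A `TwistDatum M N' χ` is a list `L` of primes `q ∥ M` at which `χ` is ramified, together with
non-trivial characters `ψ q` modulo `q`, such that `χ · ∏ ψ_q²` is trivial on the units modulo
`N'` (`M · ∏ L ∣ N'`).  Then (helper564, `H564.twistL`)

* `nebTwist D : nebSub M χ →+ CuspForm (Γ₀(N')) 2` is INJECTIVE (`nebTwist_injective`), and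
* `T_ℓ (nebTwist D F) = nebTwist D (psiL(ℓ) • ∑ₓ F ∣ repsT M ℓ x)` (`heckeTLin_nebTwist`).
-/

set_option autoImplicit false
set_option linter.unusedSectionVars false

noncomputable section

namespace Fermat.Agent.S59.TW.H658

open CongruenceSubgroup ModularForm
open UpperHalfPlane hiding I
open Matrix.SpecialLinearGroup Fermat.Agent.Lib.Newform.H803
open Fermat.Agent.S41.H761 Fermat.Agent.S29.H642
open Fermat.Agent.S59.TW.H653 Fermat.Agent.S59.TW.H564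
open scoped Manifold MatrixGroups ModularForm

/-- The data needed to twist the nebentypus-`χ` component of level `M` injectively and
Hecke-equivariantly into `S₂(Γ₀(N'))`. -/
structure TwistDatum (M N' : ℕ) (χ : DirichletCharacter ℂ M) where
  /-- the twisting characters -/
  ψ : (q : ℕ) → DirichletCharacter ℂ q
  /-- the primes at which one twists -/
  L : List ℕ
  nodup : L.Nodup
  prime : ∀ q ∈ L, q.Prime ∧ ∃ M' : ℕ, M = M' * q ∧ Nat.Coprime M' q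
  ψ_ne : ∀ q ∈ L, ψ q ≠ 1
  ram : ∀ q ∈ L, Ram q (chiZ χ)
  dvd : M * L.prod ∣ N'
  triv : ∀ d : ℤ, IsCoprime d (N' : ℤ) → chiL ψ (chiZ χ) L d = 1

namespace TwistDatum

variable {M N' : ℕ} {χ : DirichletCharacter ℂ M} (D : TwistDatum M N' χ)

theorem hL : ∀ q ∈ D.L, q ≠ 0 ∧ q ∣ M := fun q hq => by
  obtain ⟨hp, M', hM, -⟩ := D.prime q hq
  exact ⟨hp.ne_zero, ⟨M', by rw [hM, mul_comm]⟩⟩

theorem le : Gamma0 N' ≤ Gamma0 (M * D.L.prod) := by
  intro γ hγ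
  exact mem_Gamma0_of_dvd ((Int.natCast_dvd_natCast.mpr D.dvd).trans (dvd_of_mem_Gamma0 hγ))

theorem isCoprime_of_mem_Gamma0 {N : ℕ} {γ : SL(2, ℤ)} (hγ : γ ∈ Gamma0 N) :
    IsCoprime (γ 1 1) (N : ℤ) := by
  obtain ⟨c, hc⟩ := dvd_of_mem_Gamma0 hγ
  have hdet := Matrix.SpecialLinearGroup.det_coe γ
  rw [Matrix.det_fin_two] at hdet
  refine ⟨γ 0 0, -(γ 0 1 * c), ?_⟩
  rw [hc] at hdet
  linear_combination hdet

theorem h1 : ∀ γ ∈ Gamma0 N', chiL D.ψ (chiZ χ) D.L (γ 1 1) = 1 := fun _ hγ =>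
  D.triv _ (isCoprime_of_mem_Gamma0 hγ)

/-- `psiL(ℓ)² · χ(ℓ) = 1` for `ℓ` prime to `N'`. -/
theorem chi_mul_psiL_sq {ℓ : ℕ} (hℓ : Nat.Coprime ℓ N') :
    chiZ χ (ℓ : ℤ) * psiL D.ψ D.L ℓ ^ 2 = 1 := by
  have h := D.triv (ℓ : ℤ) (Nat.isCoprime_iff_coprime.mpr hℓ)
  rw [chiL_apply] at h
  rw [← h]
  congr 1
  rw [psiL]
  generalize D.L = L
  induction L with
  | nil => simp
  | cons q L ih =>
    rw [List.map_cons, List.prod_cons, List.map_cons, List.prod_cons, mul_pow, ih]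
    simp

theorem isUnit_of_coprime {ℓ : ℕ} (hℓ : Nat.Coprime ℓ N') :
    ∀ q ∈ D.L, q ≠ 0 ∧ IsUnit (ℓ : ZMod q) := fun q hq => by
  refine ⟨(D.hL q hq).1, ?_⟩
  have h1 : q ∣ N' := ((D.hL q hq).2.trans (Dvd.intro _ rfl)).trans D.dvd
  exact (ZMod.isUnit_iff_coprime ℓ q).mpr (Nat.Coprime.coprime_dvd_right h1 hℓ)

end TwistDatum

variable {M N' : ℕ} {χ : DirichletCharacter ℂ M}

/-- The twist of the nebentypus-`χ` component into `S₂(Γ₀(N'))`. -/
def nebTwist (D : TwistDatum M N' χ) : nebSub M χ →+ CuspForm (Gamma0 N') 2 where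
  toFun F := twistLCuspForm (ψ := D.ψ) D.L D.hL (isCharMod_chiZ χ) (F : ℍ → ℂ) F.2.2 F.2.1
    (Gamma0 N') D.le D.h1
  map_zero' := DFunLike.coe_injective <| by
    show twistL 2 D.ψ D.L (0 : ℍ → ℂ) = 0
    have := twistL_smul (k := 2) (ψ := D.ψ) D.L 0 (0 : ℍ → ℂ)
    rwa [zero_smul, zero_smul] at this
  map_add' F G := DFunLike.coe_injective <| by
    show twistL 2 D.ψ D.L ((F : ℍ → ℂ) + (G : ℍ → ℂ)) = _
    rw [twistL_add, FunLike.coe_add]
    rfl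

@[simp] theorem coe_nebTwist (D : TwistDatum M N' χ) (F : nebSub M χ) :
    (⇑(nebTwist D F) : ℍ → ℂ) = twistL 2 D.ψ D.L (F : ℍ → ℂ) := rfl

theorem nebTwist_injective (D : TwistDatum M N' χ) : Function.Injective (nebTwist D) := by
  rw [injective_iff_map_eq_zero]
  intro F hF
  have h0 : twistL 2 D.ψ D.L (F : ℍ → ℂ) = 0 := by
    rw [← coe_nebTwist, hF]
    rfl
  exact Subtype.ext (twistL_injective D.L D.nodup D.prime D.ψ_ne (isCharMod_chiZ χ) D.ram F.2.2 h0)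

/-- **E4 on the `χ`-component**: `T_ℓ ∘ twist = twist ∘ (psiL(ℓ) • ∑ₓ · ∣ repsT M ℓ x)`. -/
theorem heckeTLin_nebTwist (D : TwistDatum M N' χ) {ℓ : ℕ} [Fact ℓ.Prime] (hℓN : ¬ ℓ ∣ N')
    (hℓ : ¬ ℓ ∣ M) (F : nebSub M χ) :
    CuspForm.heckeTLin 2 (Fact.out : ℓ.Prime) hℓN (nebTwist D F) =
      nebTwist D (nebT χ hℓ (psiL D.ψ D.L ℓ) F) := by
  have hp : ℓ.Prime := Fact.out
  have hcopN : Nat.Coprime ℓ N' := (Nat.Prime.coprime_iff_not_dvd hp).mpr hℓN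
  have hcopM : Nat.Coprime ℓ M := (Nat.Prime.coprime_iff_not_dvd hp).mpr hℓ
  apply DFunLike.coe_injective
  rw [CuspForm.coe_heckeTLin_apply, coe_nebTwist, coe_nebTwist, coe_nebT,
    heckeT_twistL' D.L hp.ne_zero (D.isUnit_of_coprime hcopN)
      (F.2.2.isPer (isCharMod_chiZ χ)) (D.chi_mul_psiL_sq hcopN),
    famOp_repsT_eq χ hcopM F.2.2, twistL_smul]

end Fermat.Agent.S59.TW.H658
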